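import Fermat.Agent.TCheb.Cross
import Fermat.Agent.S48.Defs
import Fermat.Agent.Common.PlaceBridgeVal

/-!
# TCheb / Bridge  (WP [F7] = S48 block (B)): inverse-symmetric Chebotarev in the Prelude language,
lower Dirichlet density form (`S48.LowerDens`, `S48.FrobSet`).
-/

set_option autoImplicit false

open NumberField Module Ideal Subgroup

namespace Fermat.Agent.TCheb

local notation "Qbar" => AlgebraicClosure ℚ
local notation "GQ" => (AlgebraicClosure ℚ ≃ₐ[ℚ] AlgebraicClosure ℚ)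

/-! ### counting along a map with fibres of constant size -/

theorem card_subtype_comp_eq {α β : Type*} [Finite α] [Finite β] (f : α → β) (κ : ℕ)
    (h : ∀ b, Nat.card {a // f a = b} = κ) (P : β → Prop) :
    Nat.card {a // P (f a)} = κ * Nat.card {b // P b} := by
  classical
  have := Fintype.ofFinite {b // P b}
  let e : {a // P (f a)} ≃ Σ b : {b // P b}, {a // f a = b.1} :=
    { toFun := fun a => ⟨⟨f a.1, a.2⟩, ⟨a.1, rfl⟩⟩
      invFun := fun x => ⟨x.2.1, by rw [x.2.2]; exact x.1.2⟩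
      left_inv := fun a => rfl
      right_inv := by
        rintro ⟨⟨b, hb⟩, ⟨a, ha⟩⟩
        dsimp only at ha
        subst ha
        rfl }
  rw [Nat.card_congr e, Nat.card_sigma]
  simp [h, mul_comm]

theorem card_eq_mul_of_fibres {α β : Type*} [Finite α] [Finite β] (f : α → β) (κ : ℕ)
    (h : ∀ b, Nat.card {a // f a = b} = κ) : Nat.card α = κ * Nat.card β := by
  have h1 := card_subtype_comp_eq f κ h (fun _ => True)
  rwa [Nat.card_congr (Equiv.subtypeUnivEquiv fun _ => trivial),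
    Nat.card_congr (Equiv.subtypeUnivEquiv fun _ => trivial)] at h1

/-! ### from `HasLogGE` to `LowerDens` -/

theorem summable_indicator_primes (X : Set ℕ) {s : ℝ} (hs : 1 < s) :
    Summable fun p : Nat.Primes => Set.indicator X (fun n : ℕ => (n : ℝ) ^ (-s)) (p : ℕ) := by
  refine Summable.of_nonneg_of_le (fun p => Set.indicator_nonneg
    (fun n _ => Real.rpow_nonneg (Nat.cast_nonneg _) _) _) (fun p => ?_)
    (Nat.Primes.summable_rpow.mpr (by linarith : -s < -1))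
  exact Set.indicator_le_self' (fun _ _ => Real.rpow_nonneg (Nat.cast_nonneg _) _) _

theorem lowerDens_of_hasLogGE (X : Set ℕ) (d : ℝ)
    (h : ∀ δ : ℝ, 0 < δ → HasLogGE
      (fun s => ∑' p : Nat.Primes, Set.indicator X (fun n : ℕ => (n : ℝ) ^ (-s)) (p : ℕ)) (d - δ)) :
    S48.LowerDens X d := by
  classical
  intro δ hδ
  obtain ⟨C, hC⟩ := h (δ / 2) (by linarith)
  set E : ℝ := Real.exp (-(2 * (C + 1) / δ)) with hE
  have hE0 : 0 < E := Real.exp_pos _
  refine ⟨min 2 (1 + E), lt_min (by norm_num) (by linarith), fun s hs hs0 => ?_⟩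
  have hs2 : s ≤ 2 := (hs0.trans_le (min_le_left _ _)).le
  have hsE : s - 1 < E := by linarith [hs0.trans_le (min_le_right _ _)]
  have hs1 : 0 < s - 1 := by linarith
  have hLL : 2 * (C + 1) / δ ≤ S48.LL s := by
    unfold S48.LL
    rw [one_div, Real.log_inv, le_neg, ← Real.log_exp (-(2 * (C + 1) / δ))]
    exact Real.log_le_log hs1 hsE.le
  have hLL' : C + 1 ≤ δ / 2 * S48.LL s := by
    rw [div_le_iff₀ hδ] at hLL
    linarith
  have h1 := hC s hs hs2
  have hsum := (summable_indicator_primes X hs).hasSum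
  obtain ⟨S', hS'⟩ := (hsum.eventually (lt_mem_nhds (sub_one_lt _))).exists
  refine ⟨(S'.filter fun p : Nat.Primes => (p : ℕ) ∈ X).image (fun p : Nat.Primes => (p : ℕ)),
    fun p hp => ?_, ?_⟩
  · simp only [Finset.mem_image, Finset.mem_filter] at hp
    obtain ⟨p', ⟨_, hp'⟩, rfl⟩ := hp
    exact ⟨p'.2, hp'⟩
  · rw [Finset.sum_image (f := fun n : ℕ => (n : ℝ) ^ (-s)) (g := fun p : Nat.Primes => (p : ℕ))
      (fun x _ y _ h => Subtype.ext h), Finset.sum_filter]
    have h2 : ∑ p ∈ S', Set.indicator X (fun n : ℕ => (n : ℝ) ^ (-s)) (p : ℕ) =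
        ∑ p ∈ S', if (p : ℕ) ∈ X then ((p : ℕ) : ℝ) ^ (-s) else 0 :=
      Finset.sum_congr rfl fun p _ => by simp [Set.indicator_apply]
    rw [← h2]
    have h3 : (d - δ / 2) * S48.LL s - C ≤ _ := h1
    have h4 : (d - δ) * S48.LL s = (d - δ / 2) * S48.LL s - δ / 2 * S48.LL s := by ring
    linarith

/-! ### the abstract density statement -/

section abstractDensity

variable {G : Type*} [Group G] [Finite G] (φ : Nat.Primes → G)

theorem cnt_of_conj_stable (D : Set G) (hconj : ∀ σ ∈ D, ∀ g : G, g * σ * g⁻¹ ∈ D)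
    (p : Nat.Primes) (hp : φ p ∉ D) : cnt φ p D = 0 := by
  unfold cnt
  have : IsEmpty {g : G // g * φ p * g⁻¹ ∈ D} := by
    refine ⟨fun ⟨g, hg⟩ => hp ?_⟩
    have := hconj _ hg g⁻¹
    simpa [mul_assoc] using this
  exact Nat.card_of_isEmpty

theorem hasLogGE_indicator (D : Finset G) (hconj : ∀ σ ∈ D, ∀ g : G, g * σ * g⁻¹ ∈ D)
    (hinv : ∀ σ ∈ D, σ⁻¹ ∈ D)
    (hlog : ∀ (σ : G) (k : ℕ), HasLogGE (fun s => Asum φ {σ} s + Asum φ {σ⁻¹} s)
      (2 * (1 - (orderOf σ * Nat.card G : ℝ) / 2 ^ k)))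
    (X : Set ℕ) (T : Finset ℕ)
    (hX : ∀ p : Nat.Primes, (p : ℕ) ∉ T → φ p ∈ D → (p : ℕ) ∈ X) (δ : ℝ) (hδ : 0 < δ) :
    HasLogGE (fun s => ∑' p : Nat.Primes, Set.indicator X (fun n : ℕ => (n : ℝ) ^ (-s)) (p : ℕ))
      ((D.card : ℝ) / Nat.card G - δ) := by
  classical
  set g : ℕ := Nat.card G with hg
  have hg0 : 0 < g := Nat.card_pos
  have hgR : (0 : ℝ) < g := by exact_mod_cast hg0
  -- choice of `k`
  obtain ⟨k, hk⟩ : ∃ k : ℕ, (g * g : ℝ) / 2 ^ k ≤ δ := by
    obtain ⟨k, hk⟩ := pow_unbounded_of_one_lt ((g * g : ℝ) / δ) (by norm_num : (1 : ℝ) < 2)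
    refine ⟨k, ?_⟩
    rw [div_le_iff₀ (by positivity)]
    rw [div_lt_iff₀ hδ] at hk
    linarith
  choose C hC using fun σ : G => hlog σ k
  set T' : Finset Nat.Primes := T.subtype Nat.Prime with hT'
  have hT'mem : ∀ p : Nat.Primes, p ∈ T' ↔ (p : ℕ) ∈ T := fun p => Finset.mem_subtype
  refine ⟨((∑ σ ∈ D, C σ) / 2 + T'.card * g) / g, fun s hs hs2 => ?_⟩
  have hL : 0 ≤ Real.log (1 / (s - 1)) := by
    apply Real.log_nonneg
    rw [le_div_iff₀ (by linarith)]
    linarith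
  set Lg := Real.log (1 / (s - 1)) with hLg
  -- `2 A_D = ∑_{σ ∈ D} (A_σ + A_σ⁻¹)`
  have e1 : Asum φ (D : Set G) s = ∑ σ ∈ D, Asum φ {σ} s := Asum_eq_sum φ D hs
  have e2 : ∑ σ ∈ D, Asum φ {σ⁻¹} s = ∑ σ ∈ D, Asum φ {σ} s := by
    refine Finset.sum_bij (fun σ _ => σ⁻¹) (fun σ hσ => hinv σ hσ) (fun a _ b _ h => inv_injective h)
      (fun b hb => ⟨b⁻¹, hinv b hb, inv_inv b⟩) (fun _ _ => rfl)
  have e3 : ∑ σ ∈ D, (2 * (1 - δ) * Lg - C σ) ≤ ∑ σ ∈ D, (Asum φ {σ} s + Asum φ {σ⁻¹} s) := by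
    refine Finset.sum_le_sum fun σ _ => ?_
    have h1 := hC σ s hs hs2
    have h2 : (orderOf σ * g : ℝ) / 2 ^ k ≤ δ := by
      refine le_trans ?_ hk
      have h3 : (orderOf σ : ℝ) ≤ g := by exact_mod_cast _root_.orderOf_le_card
      gcongr
    have h4 : 2 * (1 - δ) * Lg ≤ 2 * (1 - (orderOf σ * g : ℝ) / 2 ^ k) * Lg :=
      mul_le_mul_of_nonneg_right (by linarith) hL
    simp only at h1
    linarith
  rw [Finset.sum_add_distrib, e2, ← e1, Finset.sum_sub_distrib, Finset.sum_const,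
    nsmul_eq_mul] at e3
  -- comparison with the indicator sum
  have hfin : Summable fun p : Nat.Primes => if p ∈ T' then (g : ℝ) else 0 :=
    summable_of_ne_finset_zero (s := T') fun p hp => if_neg hp
  have hsum : ∑' p : Nat.Primes, (if p ∈ T' then (g : ℝ) else 0) = T'.card * g := by
    rw [tsum_eq_sum (s := T') fun p hp => if_neg hp, Finset.sum_congr rfl fun p hp => if_pos hp,
      Finset.sum_const, nsmul_eq_mul]
  have hX1 := (summable_indicator_primes X hs).mul_left (g : ℝ)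
  have key : Asum φ (D : Set G) s ≤
      ∑' p : Nat.Primes, ((g : ℝ) * Set.indicator X (fun n : ℕ => (n : ℝ) ^ (-s)) (p : ℕ) +
        if p ∈ T' then (g : ℝ) else 0) := by
    refine (summable_Asum φ (D : Set G) hs).tsum_le_tsum (fun p => ?_) (hX1.add hfin)
    have hp0 : (0 : ℝ) ≤ ((p : ℕ) : ℝ) ^ (-s) := Real.rpow_nonneg (Nat.cast_nonneg _) _
    have hind : (0 : ℝ) ≤ Set.indicator X (fun n : ℕ => (n : ℝ) ^ (-s)) (p : ℕ) :=
      Set.indicator_nonneg (fun n _ => Real.rpow_nonneg (Nat.cast_nonneg _) _) _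
    have h3 : (cnt φ p (D : Set G) : ℝ) ≤ g := by exact_mod_cast cnt_le φ p _
    by_cases hp : p ∈ T'
    · rw [if_pos hp]
      have h2 : ((p : ℕ) : ℝ) ^ (-s) ≤ 1 :=
        Real.rpow_le_one_of_one_le_of_nonpos (by exact_mod_cast p.2.one_lt.le) (by linarith)
      have h4 : (cnt φ p (D : Set G) : ℝ) * ((p : ℕ) : ℝ) ^ (-s) ≤ g * 1 :=
        mul_le_mul h3 h2 hp0 (Nat.cast_nonneg _)
      have h5 : (0 : ℝ) ≤ (g : ℝ) * Set.indicator X (fun n : ℕ => (n : ℝ) ^ (-s)) (p : ℕ) :=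
        mul_nonneg (Nat.cast_nonneg _) hind
      linarith
    · rw [if_neg hp, add_zero]
      by_cases hD : φ p ∈ D
      · rw [Set.indicator_of_mem (hX p (fun h => hp ((hT'mem p).mpr h)) hD)]
        exact mul_le_mul_of_nonneg_right h3 hp0
      · rw [cnt_of_conj_stable φ (D : Set G) (fun σ hσ g => hconj σ hσ g) p hD]
        simpa using mul_nonneg hgR.le hind
  rw [hX1.tsum_add hfin, hsum, tsum_mul_left] at key
  set Y := ∑' p : Nat.Primes, Set.indicator X (fun n : ℕ => (n : ℝ) ^ (-s)) (p : ℕ) with hY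
  show ((D.card : ℝ) / g - δ) * Lg - _ ≤ Y
  have hDg : (D.card : ℝ) ≤ g := by
    have := Fintype.ofFinite G
    have h1 : D.card ≤ Fintype.card G := Finset.card_le_univ D
    rw [← Nat.card_eq_fintype_card] at h1
    exact_mod_cast h1
  rw [sub_le_iff_le_add, ← sub_le_iff_le_add', ← mul_le_mul_iff_right₀ hgR, mul_sub,
    mul_div_cancel₀ _ hgR.ne']
  have h6 : (g : ℝ) * (((D.card : ℝ) / g - δ) * Lg) = (D.card - g * δ) * Lg := by
    field_simp
  rw [h6]
  have h7 : ((D.card : ℝ) - g * δ) * Lg ≤ (D.card : ℝ) * (1 - δ) * Lg := by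
    refine mul_le_mul_of_nonneg_right ?_ hL
    nlinarith
  nlinarith [e3, key, h7]

end abstractDensity

/-! ### the bridge -/

open Fermat.Agent.Bridge in
/-- **Chebotarev, inverse-symmetric form, in the Prelude language.** -/
theorem chebotarev_bridge {M : Type} [Monoid M] (r : GQ →* M)
    (hr : GaloisFactorsThroughFiniteLevel r)
    (C : Set M) (hC : ∀ σ τ : GQ, r τ ∈ C → r (σ * τ * σ⁻¹) ∈ C)
    (hCinv : ∀ τ : GQ, r τ ∈ C → r τ⁻¹ ∈ C) (T : Finset ℕ) :
    S48.LowerDens (S48.FrobSet r C T)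
      ((Nat.card {x : Set.range r // (x : M) ∈ C} : ℝ) / (Nat.card (Set.range r) : ℝ)) := by
  classical
  obtain ⟨L, hL, hLr⟩ := hr
  let N : IntermediateField ℚ Qbar := IntermediateField.normalClosure ℚ L Qbar
  have hLN : L ≤ N := IntermediateField.le_normalClosure L
  have : FiniteDimensional ℚ L := hL
  have : FiniteDimensional ℚ N := normalClosure.is_finiteDimensional ℚ L Qbar
  have : Normal ℚ N := normalClosure.normal ℚ L Qbar
  have : NumberField N := { to_charZero := inferInstance, to_finiteDimensional := inferInstance }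
  have : IsGalois ℚ N := { }
  let φ : N →+* Qbar := algebraMap N Qbar
  -- `r` factors through `res φ`
  have hker : ∀ σ : GQ, res φ σ = 1 → r σ = 1 := fun σ h =>
    hLr σ fun x hx => ((res_eq_one_iff φ).mp h) ⟨x, hLN hx⟩
  have hfac : ∀ σ τ : GQ, res φ σ = res φ τ → r σ = r τ := by
    intro σ τ h
    have h1 : r (τ⁻¹ * σ) = 1 := hker _ (by rw [map_mul, map_inv, h, inv_mul_cancel])
    calc r σ = r (τ * (τ⁻¹ * σ)) := by rw [mul_inv_cancel_left]
      _ = r τ := by rw [map_mul, h1, mul_one]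
  let sec : (N ≃ₐ[ℚ] N) → GQ := Function.surjInv (res_surjective φ)
  have hsec : ∀ g, res φ (sec g) = g := Function.surjInv_eq _
  let rb : (N ≃ₐ[ℚ] N) → M := fun g => r (sec g)
  have hrb : ∀ τ, rb (res φ τ) = r τ := fun τ => hfac _ _ (hsec _)
  have hrb_mul : ∀ g h, rb (g * h) = rb g * rb h := by
    intro g h
    have h1 : g * h = res φ (sec g * sec h) := by rw [map_mul, hsec, hsec]
    rw [h1, hrb, map_mul]
  have hrb_one : rb 1 = 1 := by
    have h1 : (1 : N ≃ₐ[ℚ] N) = res φ 1 := (map_one _).symm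
    rw [h1, hrb, map_one]
  set D : Finset (N ≃ₐ[ℚ] N) := Finset.univ.filter fun g => rb g ∈ C with hD
  have hDmem : ∀ g, g ∈ D ↔ rb g ∈ C := fun g => by simp [hD]
  -- cardinalities
  let f : (N ≃ₐ[ℚ] N) → Set.range r := fun g => ⟨rb g, sec g, rfl⟩
  have hfsurj : Function.Surjective f := by
    rintro ⟨_, τ, rfl⟩
    exact ⟨res φ τ, Subtype.ext (hrb τ)⟩
  have : Finite (Set.range r) := Finite.of_surjective f hfsurj
  set κ : ℕ := Nat.card {g : N ≃ₐ[ℚ] N // rb g = 1} with hκ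
  have hκ0 : 0 < κ := by
    have : Nonempty {g : N ≃ₐ[ℚ] N // rb g = 1} := ⟨⟨1, hrb_one⟩⟩
    exact Nat.card_pos
  have hfib : ∀ b, Nat.card {g // f g = b} = κ := by
    intro b
    obtain ⟨g₀, rfl⟩ := hfsurj b
    have hinv0 : rb g₀⁻¹ * rb g₀ = 1 := by rw [← hrb_mul, inv_mul_cancel, hrb_one]
    refine Nat.card_congr
      { toFun := fun g => ⟨g₀⁻¹ * g.1, ?_⟩
        invFun := fun h => ⟨g₀ * h.1, ?_⟩
        left_inv := fun g => Subtype.ext (mul_inv_cancel_left _ _)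
        right_inv := fun h => Subtype.ext (inv_mul_cancel_left _ _) }
    · have h1 : rb g.1 = rb g₀ := congrArg Subtype.val g.2
      rw [hrb_mul, h1, hinv0]
    · apply Subtype.ext
      show rb (g₀ * h.1) = rb g₀
      rw [hrb_mul, h.2, mul_one]
  have hcard1 : D.card = κ * Nat.card {x : Set.range r // (x : M) ∈ C} := by
    rw [← card_subtype_comp_eq f κ hfib (fun x => (x : M) ∈ C), Nat.card_eq_fintype_card,
      Fintype.card_subtype]
  have hcard2 : Nat.card (N ≃ₐ[ℚ] N) = κ * Nat.card (Set.range r) :=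
    card_eq_mul_of_fibres f κ hfib
  have hratio : (Nat.card {x : Set.range r // (x : M) ∈ C} : ℝ) / (Nat.card (Set.range r) : ℝ) =
      (D.card : ℝ) / Nat.card (N ≃ₐ[ℚ] N) := by
    rw [hcard1, hcard2]
    push_cast
    rw [mul_div_mul_left _ _ (by exact_mod_cast hκ0.ne')]
  rw [hratio]
  refine lowerDens_of_hasLogGE _ _ fun δ hδ =>
    hasLogGE_indicator (frobSys N) D ?_ ?_ (fun σ k => hasLogGE_add_inv N σ k) _ T ?_ δ hδ
  · intro σ hσ g
    rw [hDmem] at hσ ⊢
    have h1 : g * σ * g⁻¹ = res φ (sec g * sec σ * (sec g)⁻¹) := by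
      rw [map_mul, map_mul, map_inv, hsec, hsec]
    rw [h1, hrb]
    exact hC _ _ hσ
  · intro σ hσ
    rw [hDmem] at hσ ⊢
    have h1 : σ⁻¹ = res φ (sec σ)⁻¹ := by rw [map_inv, hsec]
    rw [h1, hrb]
    exact hCinv _ hσ
  · intro p hpT hpD
    rw [hDmem] at hpD
    obtain ⟨Q, hQ, hmem, hfrob⟩ := isFrobOver_frobElt (L := N) p.2
    obtain ⟨A, hA, hAQ⟩ := exists_place φ p.2 Q hmem
    subst hAQ
    obtain ⟨τ, hτ, hτK⟩ := exists_lift_of_isArithFrobAt p.2 hA hfrob
    have hres : res φ τ = frobElt N p := (res_eq_iff φ).mpr hτK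
    refine ⟨p.2, hpT, A, τ, hA, hτ, ?_⟩
    rw [← hrb τ, hres]
    exact hpD

end Fermat.Agent.TCheb
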