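import Fermat.Agent.TCheb.LF

/-!
# TCheb / Abstract  (WP [D0], [D2]): the group theoretic / analytic part of the crossing
argument, for an abstract "Frobenius system" `φ : Nat.Primes → G`.
-/

set_option autoImplicit false

open Subgroup

namespace Fermat.Agent.TCheb

/-- `f s = c log (1/(s-1)) + O(1)` on `(1, 2]`. -/
def HasLog (f : ℝ → ℝ) (c : ℝ) : Prop :=
  ∃ C : ℝ, ∀ s : ℝ, 1 < s → s ≤ 2 → |f s - c * Real.log (1 / (s - 1))| ≤ C

/-- `f s ≥ c log (1/(s-1)) - O(1)` on `(1, 2]`. -/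
def HasLogGE (f : ℝ → ℝ) (c : ℝ) : Prop :=
  ∃ C : ℝ, ∀ s : ℝ, 1 < s → s ≤ 2 → c * Real.log (1 / (s - 1)) - C ≤ f s

variable {G : Type*} [Group G] [Finite G] (φ : Nat.Primes → G)

/-- the number of `g` conjugating `φ p` into `S`. -/
noncomputable def cnt (p : Nat.Primes) (S : Set G) : ℕ :=
  Nat.card {g : G // g * φ p * g⁻¹ ∈ S}

/-- `∑_p #{g : g φ_p g⁻¹ ∈ S} p^(-s)`. -/
noncomputable def Asum (S : Set G) (s : ℝ) : ℝ :=
  ∑' p : Nat.Primes, (cnt φ p S : ℝ) * ((p : ℕ) : ℝ) ^ (-s)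

theorem cnt_le (p : Nat.Primes) (S : Set G) : cnt φ p S ≤ Nat.card G := by
  unfold cnt
  exact Finite.card_subtype_le _

/-- summability (compare with `∑ n^(-s)`). -/
theorem summable_Asum (S : Set G) {s : ℝ} (hs : 1 < s) :
    Summable fun p : Nat.Primes => (cnt φ p S : ℝ) * ((p : ℕ) : ℝ) ^ (-s) := by
  have h1 : Summable fun p : Nat.Primes => (Nat.card G : ℝ) * ((p : ℕ) : ℝ) ^ (-s) :=
    (Nat.Primes.summable_rpow.2 (by linarith)).mul_left _
  refine Summable.of_nonneg_of_le (fun p => ?_) (fun p => ?_) h1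
  · exact mul_nonneg (Nat.cast_nonneg _) (Real.rpow_nonneg (Nat.cast_nonneg _) _)
  · exact mul_le_mul_of_nonneg_right (by exact_mod_cast cnt_le φ p S)
      (Real.rpow_nonneg (Nat.cast_nonneg _) _)

/-- additivity: `cnt` of a finite set is the sum of the `cnt` of its points. -/
theorem cnt_eq_sum (p : Nat.Primes) (S : Finset G) :
    cnt φ p (S : Set G) = ∑ u ∈ S, cnt φ p {u} := by
  classical
  have := Fintype.ofFinite G
  unfold cnt
  simp only [Nat.card_eq_fintype_card, Fintype.card_subtype, Finset.mem_coe,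
    Set.mem_singleton_iff]
  rw [Finset.card_eq_sum_card_fiberwise (f := fun g => g * φ p * g⁻¹) (t := S)]
  · refine Finset.sum_congr rfl fun u hu => ?_
    congr 1
    ext g
    simp only [Finset.mem_filter, Finset.mem_univ, true_and]
    constructor
    · rintro ⟨_, h⟩
      exact h
    · intro h
      exact ⟨h ▸ hu, h⟩
  · intro g hg
    simpa using hg

theorem Asum_eq_sum (S : Finset G) {s : ℝ} (hs : 1 < s) :
    Asum φ (S : Set G) s = ∑ u ∈ S, Asum φ {u} s := by
  unfold Asum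
  rw [← Summable.tsum_finsetSum (fun u _ => summable_Asum φ {u} hs)]
  refine tsum_congr fun p => ?_
  rw [cnt_eq_sum, Nat.cast_sum, Finset.sum_mul]

theorem cnt_mono (p : Nat.Primes) {S S' : Set G} (h : S ⊆ S') : cnt φ p S ≤ cnt φ p S' := by
  unfold cnt
  exact Nat.card_le_card_of_injective
    (fun g : {g : G // g * φ p * g⁻¹ ∈ S} => (⟨g.1, h g.2⟩ : {g : G // g * φ p * g⁻¹ ∈ S'}))
    (fun a b hab => Subtype.ext (congrArg (fun z : {g : G // g * φ p * g⁻¹ ∈ S'} => z.1) hab))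

theorem Asum_mono {S S' : Set G} (h : S ⊆ S') {s : ℝ} (hs : 1 < s) : Asum φ S s ≤ Asum φ S' s := by
  unfold Asum
  refine Summable.tsum_le_tsum (fun p => ?_) (summable_Asum φ S hs) (summable_Asum φ S' hs)
  exact mul_le_mul_of_nonneg_right (by exact_mod_cast cnt_mono φ p h)
    (Real.rpow_nonneg (Nat.cast_nonneg _) _)

/-- (D2) **descent** along a surjection `π : G' → G` compatible with the Frobenius systems. -/
theorem card_ker_mul_cnt {G' : Type*} [Group G'] [Finite G'] (φ' : Nat.Primes → G')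
    (π : G' →* G) (hπ : Function.Surjective π) (p : Nat.Primes) (hp : IsConj (π (φ' p)) (φ p))
    (S : Set G) : Nat.card π.ker * cnt φ p S = cnt φ' p (π ⁻¹' S) := by
  obtain ⟨c, hc⟩ := isConj_iff.1 hp
  unfold cnt
  rw [← Nat.card_prod]
  refine Nat.card_congr ?_
  refine
    { toFun := fun x => ⟨Function.surjInv hπ (x.2.1 * c) * x.1.1, ?_⟩
      invFun := fun g => (⟨(Function.surjInv hπ (π g.1))⁻¹ * g.1, ?_⟩, ⟨π g.1 * c⁻¹, ?_⟩)
      left_inv := ?_
      right_inv := ?_ }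
  · have hk : π x.1.1 = 1 := x.1.2
    show π _ ∈ S
    have h2 : x.2.1 * φ p * x.2.1⁻¹ ∈ S := x.2.2
    generalize x.2.1 = y at *
    rw [← hc] at h2
    simp only [map_mul, map_inv, Function.surjInv_eq hπ, hk, mul_one]
    convert h2 using 1
    group
  · rw [MonoidHom.mem_ker, map_mul, map_inv, Function.surjInv_eq hπ, inv_mul_cancel]
  · have h2 : π (g.1 * φ' p * g.1⁻¹) ∈ S := g.2
    rw [← hc]
    simp only [map_mul, map_inv] at h2
    convert h2 using 1
    group
  · rintro ⟨⟨k, hk⟩, ⟨g, hg⟩⟩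
    have hk' : π k = 1 := hk
    simp only [map_mul, Function.surjInv_eq hπ, hk', mul_one, inv_mul_cancel_left,
      mul_inv_cancel_right]
  · rintro ⟨g, hg⟩
    simp only [inv_mul_cancel_right, mul_inv_cancel_left]

end Fermat.Agent.TCheb
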