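import Fermat.Agent.TCheb.Equidist

/-!
# TCheb / Bound  (WP [A]): the twisted zeta function is bounded on `(1, 2]`
-/

set_option autoImplicit false

open NumberField NumberField.Units Module Ideal

open scoped Classical nonZeroDivisors

namespace Fermat.Agent.TCheb

variable (K : Type*) [Field K] [NumberField K]

variable {m : ℕ} (χ : DirichletCharacter ℂ m)

theorem tw_sub_inv_ne_zero {a : ℕ} (ha : a ≠ 0) (hχ : χ (a : ZMod m) ≠ 1) {s : ℝ} (hs : 1 ≤ s) :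
    tw χ s a - (a : ℂ)⁻¹ ≠ 0 := by
  intro h
  apply hχ
  have ha1 : (1 : ℝ) ≤ a := by exact_mod_cast Nat.one_le_iff_ne_zero.2 ha
  have ha0 : (0 : ℝ) < a := by linarith
  have hu : (0 : ℝ) < (a : ℝ) ^ (-s) := Real.rpow_pos_of_pos ha0 _
  rw [sub_eq_zero, tw] at h
  have h1 : χ (a : ZMod m) = (((a : ℝ)⁻¹ / (a : ℝ) ^ (-s) : ℝ) : ℂ) := by
    have hu' : (((a : ℝ) ^ (-s) : ℝ) : ℂ) ≠ 0 := by exact_mod_cast hu.ne'
    push_cast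
    rw [eq_div_iff hu', h]
  have h2 : (1 : ℝ) ≤ (a : ℝ)⁻¹ / (a : ℝ) ^ (-s) := by
    rw [le_div_iff₀ hu, one_mul, ← Real.rpow_neg_one]
    exact Real.rpow_le_rpow_of_exponent_le ha1 (by linarith)
  have h3 : ‖χ (a : ZMod m)‖ ≤ 1 := χ.norm_le_one _
  rw [h1, Complex.norm_real, Real.norm_of_nonneg (by linarith)] at h3
  rw [h1, le_antisymm h3 h2]
  simp

/-- (LB) the factor `χ(a) a^(-s) - 1/a` stays away from `0` on `[1, 2]` if `χ(a) ≠ 1`. -/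
theorem exists_lower_bound {a : ℕ} (ha : a ≠ 0) (hχ : χ (a : ZMod m) ≠ 1) :
    ∃ c : ℝ, 0 < c ∧ ∀ s : ℝ, 1 ≤ s → s ≤ 2 → c ≤ ‖tw χ s a - (a : ℂ)⁻¹‖ := by
  have hcont : Continuous fun s : ℝ => ‖tw χ s a - (a : ℂ)⁻¹‖ := by
    unfold tw
    have h1 : Continuous fun s : ℝ => (a : ℝ) ^ (-s) :=
      (Real.continuous_const_rpow (by exact_mod_cast ha)).comp continuous_neg
    fun_prop
  obtain ⟨s0, hs0, hmin⟩ := (isCompact_Icc (a := (1 : ℝ)) (b := 2)).exists_isMinOn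
    ⟨1, by norm_num⟩ hcont.continuousOn
  refine ⟨_, norm_pos_iff.2 (tw_sub_inv_ne_zero χ ha hχ hs0.1), fun s h1 h2 => ?_⟩
  exact hmin ⟨h1, h2⟩

/-- (A-class) the class-wise estimate. -/
theorem exists_bound_TC (C : ClassGroup (𝓞 K)) (J : (Ideal (𝓞 K))⁰)
    (hJ : ClassGroup.mk0 J = C⁻¹) {𝔞 : Ideal (𝓞 K)} (h𝔞 : 𝔞 ≠ ⊥)
    (hco : (absNorm 𝔞).Coprime (m * absNorm (J : Ideal (𝓞 K)))) :
    ∃ B : ℝ, ∀ s : ℝ, 1 < s → s ≤ 2 →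
      ‖TC K χ C 𝔞 s - (absNorm 𝔞 : ℂ)⁻¹ * TC K χ C ⊤ s‖ ≤ B := by
  have hJ0 : (J : Ideal (𝓞 K)) ≠ ⊥ := nonZeroDivisors.coe_ne_zero J
  obtain ⟨B, hB⟩ := exists_bound_equidist K χ hJ0 h𝔞 hco
  refine ⟨(absNorm (J : Ideal (𝓞 K)) : ℝ) ^ (2 : ℝ) * B, fun s hs hs2 => ?_⟩
  have h1 := torsionOrder_mul_TC K χ C J hJ 𝔞 h𝔞 hs
  have h2 := torsionOrder_mul_TC K χ C J hJ ⊤ top_ne_bot hs
  rw [Ideal.top_mul] at h2
  have hw : (1 : ℝ) ≤ (torsionOrder K : ℝ) := by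
    exact_mod_cast Nat.one_le_iff_ne_zero.2 (torsionOrder_ne_zero K)
  have hw0 : (torsionOrder K : ℂ) ≠ 0 := by exact_mod_cast torsionOrder_ne_zero K
  have hN𝔞 : absNorm 𝔞 ≠ 0 := by
    rw [Ne, Ideal.absNorm_eq_zero_iff]; exact h𝔞
  have hNJ : absNorm (J : Ideal (𝓞 K)) ≠ 0 := by
    rw [Ne, Ideal.absNorm_eq_zero_iff]; exact hJ0
  have hN1 : (1 : ℝ) ≤ (absNorm 𝔞 : ℝ) := by exact_mod_cast Nat.one_le_iff_ne_zero.2 hN𝔞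
  have hJ1 : (1 : ℝ) ≤ (absNorm (J : Ideal (𝓞 K)) : ℝ) := by
    exact_mod_cast Nat.one_le_iff_ne_zero.2 hNJ
  have hN0 : (absNorm 𝔞 : ℂ) ≠ 0 := by exact_mod_cast hN𝔞
  have key : TC K χ C 𝔞 s - (absNorm 𝔞 : ℂ)⁻¹ * TC K χ C ⊤ s =
      -((((absNorm (J : Ideal (𝓞 K)) : ℝ) ^ s : ℝ) : ℂ) * ((torsionOrder K : ℂ)⁻¹ *
        ((absNorm 𝔞 : ℂ)⁻¹ * (∑' γ : (J : Ideal (𝓞 K)), bt K χ J s (γ : 𝓞 K) -
        (absNorm 𝔞 : ℂ) * ∑' γ : ↥(𝔞 * (J : Ideal (𝓞 K))), bt K χ J s (γ : 𝓞 K))))) := by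
    have e1 : TC K χ C 𝔞 s = (torsionOrder K : ℂ)⁻¹ * ((torsionOrder K : ℂ) * TC K χ C 𝔞 s) := by
      field_simp
    have e2 : TC K χ C ⊤ s = (torsionOrder K : ℂ)⁻¹ * ((torsionOrder K : ℂ) * TC K χ C ⊤ s) := by
      field_simp
    rw [e1, e2, h1, h2]
    field_simp
    ring
  have hBs := hB s hs hs2
  have hB0 : 0 ≤ B := (norm_nonneg _).trans hBs
  rw [key, norm_neg, norm_mul, norm_mul, norm_mul, Complex.norm_real, norm_inv, norm_inv,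
    Complex.norm_natCast, Complex.norm_natCast,
    Real.norm_of_nonneg (Real.rpow_nonneg (by linarith) _)]
  refine mul_le_mul (Real.rpow_le_rpow_of_exponent_le hJ1 hs2) ?_ (by positivity)
    (Real.rpow_nonneg (by linarith) _)
  calc (torsionOrder K : ℝ)⁻¹ * ((absNorm 𝔞 : ℝ)⁻¹ * _) ≤ 1 * (1 * B) := by
        refine mul_le_mul (inv_le_one_of_one_le₀ hw) ?_ (by positivity) zero_le_one
        exact mul_le_mul (inv_le_one_of_one_le₀ hN1) hBs (norm_nonneg _) zero_le_one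
    _ = B := by ring

/-- (A) **boundedness of the twisted zeta function** near `s = 1`. -/
theorem exists_bound_LF [NeZero m]
    (h : ∀ M : ℕ, M ≠ 0 → ∃ 𝔞 : Ideal (𝓞 K), (absNorm 𝔞).Coprime M ∧
      χ (absNorm 𝔞 : ZMod m) ≠ 1) :
    ∃ B : ℝ, ∀ s : ℝ, 1 < s → s ≤ 2 → ‖LF χ K s‖ ≤ B := by
  have hrep : ∀ C : ClassGroup (𝓞 K), ∃ J : (Ideal (𝓞 K))⁰, ClassGroup.mk0 J = C⁻¹ := fun C =>
    ClassGroup.mk0_surjective C⁻¹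
  choose J hJ using hrep
  have hNJ : ∀ C, absNorm (J C : Ideal (𝓞 K)) ≠ 0 := by
    intro C
    rw [Ne, Ideal.absNorm_eq_zero_iff]; exact nonZeroDivisors.coe_ne_zero (J C)
  obtain ⟨𝔞, hco, hχ⟩ := h (m * ∏ C, absNorm (J C : Ideal (𝓞 K)))
    (mul_ne_zero (NeZero.ne m) (Finset.prod_ne_zero_iff.2 fun C _ => hNJ C))
  have h𝔞 : 𝔞 ≠ ⊥ := by
    rintro rfl
    apply hχ
    rw [Ideal.absNorm_bot, Nat.coprime_zero_left] at hco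
    have hm : m = 1 := Nat.eq_one_of_mul_eq_one_right hco
    subst hm
    rw [Subsingleton.elim ((absNorm (⊥ : Ideal (𝓞 K)) : ℕ) : ZMod 1) 1, map_one]
  have hN𝔞 : absNorm 𝔞 ≠ 0 := by
    rw [Ne, Ideal.absNorm_eq_zero_iff]; exact h𝔞
  have hcoC : ∀ C, (absNorm 𝔞).Coprime (m * absNorm (J C : Ideal (𝓞 K))) := fun C =>
    hco.coprime_dvd_right (mul_dvd_mul_left m (Finset.dvd_prod_of_mem (fun C => absNorm (J C : Ideal (𝓞 K))) (Finset.mem_univ C)))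
  have hex := fun C => exists_bound_TC K χ C (J C) (hJ C) h𝔞 (hcoC C)
  choose B hB using hex
  obtain ⟨c, hc, hlow⟩ := exists_lower_bound χ hN𝔞 hχ
  refine ⟨(∑ C, B C) / c, fun s hs hs2 => ?_⟩
  have h1 := sum_TC K χ 𝔞 h𝔞 hs
  have h2 := sum_TC K χ ⊤ top_ne_bot hs
  rw [Ideal.absNorm_top, tw_one, one_mul] at h2
  have h3 : (tw χ s (absNorm 𝔞) - (absNorm 𝔞 : ℂ)⁻¹) * LF χ K s =
      ∑ C, (TC K χ C 𝔞 s - (absNorm 𝔞 : ℂ)⁻¹ * TC K χ C ⊤ s) := by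
    rw [Finset.sum_sub_distrib, ← Finset.mul_sum, h1, h2]
    ring
  have h4 : ‖tw χ s (absNorm 𝔞) - (absNorm 𝔞 : ℂ)⁻¹‖ * ‖LF χ K s‖ ≤ ∑ C, B C := by
    rw [← norm_mul, h3]
    exact (norm_sum_le _ _).trans (Finset.sum_le_sum fun C _ => hB C s hs hs2)
  rw [le_div_iff₀ hc, mul_comm]
  exact (mul_le_mul_of_nonneg_right (hlow s hs.le hs2) (norm_nonneg _)).trans h4

end Fermat.Agent.TCheb
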