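import Fermat.Agent.TCheb.LF

/-!
# TCheb / ClassSum  (WP [CL]): decomposition of the twisted zeta function along the class group
-/

set_option autoImplicit false

open NumberField Module Ideal

open scoped nonZeroDivisors

namespace Fermat.Agent.TCheb

variable (K : Type*) [Field K] [NumberField K]

variable {m : ℕ} (χ : DirichletCharacter ℂ m)

/-- partial twisted zeta function: ideals of the class `C` divisible by `𝔞`. -/
noncomputable def TC (C : ClassGroup (𝓞 K)) (𝔞 : Ideal (𝓞 K)) (s : ℝ) : ℂ :=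
  ∑' I : {I : (Ideal (𝓞 K))⁰ // ClassGroup.mk0 I = C ∧ 𝔞 ∣ (I : Ideal (𝓞 K))},
    tw χ s (absNorm (I.1 : Ideal (𝓞 K)))

theorem absNorm_pos_of_mem (J : (Ideal (𝓞 K))⁰) : 0 < absNorm (J : Ideal (𝓞 K)) :=
  Nat.pos_of_ne_zero (absNorm_ne_zero_of_nonZeroDivisors J)

/-- (CL1) `I ↦ I * J` identifies the ideals of the class `C = [J]⁻¹` divisible by `𝔞` with the
nonzero principal ideals contained in `𝔞 * J`.  (`Equiv.tsum_eq` / `Function.Injective.tsum_eq`;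
cf. `NumberField.Ideal.tendsto_norm_le_and_mk_eq_div_atTop_aux₁` in Mathlib.) -/
theorem tsum_class_eq (C : ClassGroup (𝓞 K)) (J : (Ideal (𝓞 K))⁰) (hJ : ClassGroup.mk0 J = C⁻¹)
    (𝔞 : Ideal (𝓞 K)) (_h𝔞 : 𝔞 ≠ ⊥) (f : ℕ → ℂ) (hf : f 0 = 0) :
    ∑' I : {I : (Ideal (𝓞 K))⁰ // ClassGroup.mk0 I = C ∧ 𝔞 ∣ (I : Ideal (𝓞 K))},
        f (absNorm (I.1 : Ideal (𝓞 K))) =
      ∑' P : {P : Ideal (𝓞 K) // P.IsPrincipal ∧ P ≤ 𝔞 * (J : Ideal (𝓞 K))},
        f (absNorm P.1 / absNorm (J : Ideal (𝓞 K))) := by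
  have hJ0 : (J : Ideal (𝓞 K)) ≠ ⊥ := nonZeroDivisors.coe_ne_zero J
  let φ : {I : (Ideal (𝓞 K))⁰ // ClassGroup.mk0 I = C ∧ 𝔞 ∣ (I : Ideal (𝓞 K))} →
      {P : Ideal (𝓞 K) // P.IsPrincipal ∧ P ≤ 𝔞 * (J : Ideal (𝓞 K))} := fun I =>
    ⟨(I.1 : Ideal (𝓞 K)) * (J : Ideal (𝓞 K)), by
      have h1 : ClassGroup.mk0 (I.1 * J) = 1 := by rw [map_mul, I.2.1, hJ, mul_inv_cancel]
      exact (ClassGroup.mk0_eq_one_iff (I.1 * J).2).1 h1,
      Ideal.mul_mono_left (Ideal.le_of_dvd I.2.2)⟩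
  have hφ : Function.Injective φ := by
    intro I I' h
    have h1 : (I.1 : Ideal (𝓞 K)) * (J : Ideal (𝓞 K)) = (I'.1 : Ideal (𝓞 K)) * (J : Ideal (𝓞 K)) :=
      congrArg Subtype.val h
    exact Subtype.ext (Subtype.ext (mul_right_cancel₀ hJ0 h1))
  have hsupp : Function.support
      (fun P : {P : Ideal (𝓞 K) // P.IsPrincipal ∧ P ≤ 𝔞 * (J : Ideal (𝓞 K))} =>
        f (absNorm P.1 / absNorm (J : Ideal (𝓞 K)))) ⊆ Set.range φ := by
    rintro ⟨P, hP1, hP2⟩ hP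
    have hP0 : P ≠ ⊥ := by
      rintro rfl
      apply hP
      simp [hf]
    obtain ⟨Q, rfl⟩ := Ideal.dvd_iff_le.2 hP2
    have hI0 : 𝔞 * Q ≠ 0 := by
      intro h
      apply hP0
      rw [mul_right_comm, h, zero_mul]
      rfl
    have hI : 𝔞 * Q ∈ (Ideal (𝓞 K))⁰ := mem_nonZeroDivisors_of_ne_zero hI0
    refine ⟨⟨⟨𝔞 * Q, hI⟩, ?_, Dvd.intro _ rfl⟩, ?_⟩
    · have h1 : ClassGroup.mk0 ((⟨𝔞 * Q, hI⟩ : (Ideal (𝓞 K))⁰) * J) = 1 := by
        rw [ClassGroup.mk0_eq_one_iff]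
        show (𝔞 * Q * (J : Ideal (𝓞 K))).IsPrincipal
        rw [mul_right_comm]
        exact hP1
      rw [map_mul, hJ] at h1
      exact mul_inv_eq_one.1 h1
    · apply Subtype.ext
      show 𝔞 * Q * (J : Ideal (𝓞 K)) = 𝔞 * J * Q
      rw [mul_right_comm]
  rw [← hφ.tsum_eq hsupp]
  refine tsum_congr fun I => ?_
  show _ = f (absNorm ((I.1 : Ideal (𝓞 K)) * (J : Ideal (𝓞 K))) / absNorm (J : Ideal (𝓞 K)))
  rw [map_mul, Nat.mul_div_cancel _ (absNorm_pos_of_mem K J)]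

/-- (CL1') the corresponding summability statement. -/
theorem summable_principal (J : (Ideal (𝓞 K))⁰) (J' : Ideal (𝓞 K))
    (hJ' : J' ≤ (J : Ideal (𝓞 K))) {s : ℝ} (hs : 1 < s) :
    Summable fun P : {P : Ideal (𝓞 K) // P.IsPrincipal ∧ P ≤ J'} =>
      tw χ s (absNorm P.1 / absNorm (J : Ideal (𝓞 K))) := by
  have hJ0 : (J : Ideal (𝓞 K)) ≠ ⊥ := nonZeroDivisors.coe_ne_zero J
  have hex : ∀ P : {P : Ideal (𝓞 K) // P.IsPrincipal ∧ P ≤ J'},
      ∃ Q : Ideal (𝓞 K), P.1 = (J : Ideal (𝓞 K)) * Q := fun P =>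
    Ideal.dvd_iff_le.2 (P.2.2.trans hJ')
  choose ψ hψ using hex
  have hinj : Function.Injective ψ := by
    intro P P' h
    apply Subtype.ext
    rw [hψ P, hψ P', h]
  refine ((summable_tw_absNorm χ K hs).comp_injective hinj).congr fun P => ?_
  show tw χ s (absNorm (ψ P)) = _
  rw [hψ P, map_mul, Nat.mul_div_cancel_left _ (absNorm_pos_of_mem K J)]

/-- (CL2) the sum over all ideals divisible by `𝔞`, class by class.
(`∑_{𝔞 ∣ I} tw (N I) = tw (N 𝔞) * LF`; the zero ideal contributes `0`.) -/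
theorem sum_TC (𝔞 : Ideal (𝓞 K)) (h𝔞 : 𝔞 ≠ ⊥) {s : ℝ} (hs : 1 < s) :
    ∑ C : ClassGroup (𝓞 K), TC K χ C 𝔞 s = tw χ s (absNorm 𝔞) * LF χ K s := by
  classical
  let h : Ideal (𝓞 K) → ℂ := fun I => if 𝔞 ∣ I then tw χ s (absNorm I) else 0
  have hsum : Summable h := by
    refine Summable.of_norm_bounded (summable_tw_absNorm χ K hs).norm fun I => ?_
    show ‖if 𝔞 ∣ I then tw χ s (absNorm I) else 0‖ ≤ _
    split_ifs
    · exact le_rfl
    · rw [norm_zero]; exact norm_nonneg _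
  -- first evaluation
  have h1 : ∑' I, h I = tw χ s (absNorm 𝔞) * LF χ K s := by
    have hinj : Function.Injective (fun Q : Ideal (𝓞 K) => 𝔞 * Q) := fun Q Q' hQ =>
      mul_left_cancel₀ h𝔞 hQ
    have hsupp : Function.support h ⊆ Set.range (fun Q : Ideal (𝓞 K) => 𝔞 * Q) := by
      intro I hI
      have : 𝔞 ∣ I := by
        by_contra hn
        exact hI (if_neg hn)
      obtain ⟨Q, rfl⟩ := this
      exact ⟨Q, rfl⟩
    rw [← hinj.tsum_eq hsupp, LF, ← tsum_mul_left]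
    refine tsum_congr fun Q => ?_
    show (if 𝔞 ∣ 𝔞 * Q then tw χ s (absNorm (𝔞 * Q)) else 0) = _
    rw [if_pos (Dvd.intro _ rfl), map_mul, tw_mul]
  -- second evaluation
  let ι : (Σ C : ClassGroup (𝓞 K),
      {I : (Ideal (𝓞 K))⁰ // ClassGroup.mk0 I = C ∧ 𝔞 ∣ (I : Ideal (𝓞 K))}) → Ideal (𝓞 K) :=
    fun x => (x.2.1 : Ideal (𝓞 K))
  have hι : Function.Injective ι := by
    rintro ⟨C, ⟨I, rfl, hI⟩⟩ ⟨C', ⟨I', rfl, hI'⟩⟩ hh
    have : I = I' := Subtype.ext hh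
    subst this
    rfl
  have hsupp : Function.support h ⊆ Set.range ι := by
    intro I hI
    have hd : 𝔞 ∣ I := by
      by_contra hn
      exact hI (if_neg hn)
    have h0 : I ≠ 0 := by
      rintro rfl
      apply hI
      show (if 𝔞 ∣ (0 : Ideal (𝓞 K)) then tw χ s (absNorm (0 : Ideal (𝓞 K))) else 0) = 0
      rw [if_pos hd]
      have : absNorm (0 : Ideal (𝓞 K)) = 0 := by simp
      rw [this, tw_zero χ (by linarith)]
    exact ⟨⟨_, ⟨⟨I, mem_nonZeroDivisors_of_ne_zero h0⟩, rfl, hd⟩⟩, rfl⟩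
  have h2 := (hsum.comp_injective hι).tsum_sigma
  simp only [Function.comp] at h2
  rw [← h1, ← hι.tsum_eq hsupp, h2, tsum_fintype]
  refine Finset.sum_congr rfl fun C _ => ?_
  unfold TC
  refine tsum_congr fun I => ?_
  show _ = if 𝔞 ∣ (I.1 : Ideal (𝓞 K)) then tw χ s (absNorm (I.1 : Ideal (𝓞 K))) else 0
  rw [if_pos I.2.2]

end Fermat.Agent.TCheb
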