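import Mathlib

/-!
# TCheb / CyclicCount  (WP [D3])  (Mathlib only)
-/

set_option autoImplicit false

namespace Fermat.Agent.TCheb

/-- (D3) **counting**: in a cyclic group of order divisible by `n ^ k`, few elements have order not
divisible by `n`.  (For a prime `l ∣ n`: `l ^ v_l(n) ∤ orderOf t` forces `t` into the subgroup of
index `l ^ (v_l(|H|) - v_l(n) + 1) ≥ 2 ^ k`; at most `n` primes.) -/
theorem card_not_dvd_orderOf_le {H : Type*} [CommGroup H] [Finite H] [IsCyclic H] {n k : ℕ}
    (hn : 0 < n) (hk : n ^ k ∣ Nat.card H) :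
    2 ^ k * Nat.card {t : H // ¬ n ∣ orderOf t} ≤ n * Nat.card H := by
  classical
  have := Fintype.ofFinite H
  set N := Nat.card H with hN
  have hN0 : N ≠ 0 := Nat.card_pos.ne'
  -- key divisibility
  have key : ∀ t : H, ¬ n ∣ orderOf t → ∃ l ∈ n.primeFactors, t ^ (N / l ^ k) = 1 := by
    intro t ht
    have ho : orderOf t ≠ 0 := (orderOf_pos t).ne'
    have hoN : orderOf t ∣ N := orderOf_dvd_natCard t
    rw [← Nat.factorization_prime_le_iff_dvd hn.ne' ho] at ht
    push Not at ht
    obtain ⟨l, hl, hlt⟩ := ht
    have hln : l ∈ n.primeFactors := by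
      rw [← Nat.support_factorization, Finsupp.mem_support_iff]
      omega
    refine ⟨l, hln, ?_⟩
    have hlk : l ^ k ≠ 0 := pow_ne_zero _ hl.ne_zero
    have h1 : orderOf t * l ^ k ∣ N := by
      rw [← Nat.factorization_le_iff_dvd (mul_ne_zero ho hlk) hN0, Nat.factorization_mul ho hlk,
        hl.factorization_pow]
      intro p
      rw [Finsupp.add_apply]
      have hle : (orderOf t).factorization p ≤ N.factorization p :=
        (Nat.factorization_le_iff_dvd ho hN0).2 hoN p
      by_cases hp : p = l
      · subst hp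
        rw [Finsupp.single_eq_same]
        have h2 : n.factorization p * k ≤ N.factorization p := by
          have := (Nat.factorization_le_iff_dvd (pow_ne_zero _ hn.ne') hN0).2 hk p
          rwa [Nat.factorization_pow, Finsupp.smul_apply, smul_eq_mul, mul_comm] at this
        rcases Nat.eq_zero_or_pos k with rfl | hk0
        · simpa using hle
        · have h3 : (orderOf t).factorization p + 1 ≤ n.factorization p := hlt
          have h4 : ((orderOf t).factorization p + 1) * k ≤ n.factorization p * k :=
            Nat.mul_le_mul_right _ h3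
          have h5 : (orderOf t).factorization p ≤ (orderOf t).factorization p * k :=
            Nat.le_mul_of_pos_right _ hk0
          rw [add_mul, one_mul] at h4
          omega
      · rw [Finsupp.single_eq_of_ne hp, add_zero]
        exact hle
    have h2 : orderOf t ∣ N / l ^ k := by
      obtain ⟨c, hc⟩ := h1
      refine ⟨c, ?_⟩
      rw [hc, mul_right_comm, Nat.mul_div_cancel _ (Nat.pos_of_ne_zero hlk)]
    exact orderOf_dvd_iff_pow_eq_one.1 h2
  have hsub : (Finset.univ.filter fun t : H => ¬ n ∣ orderOf t) ⊆
      n.primeFactors.biUnion fun l => Finset.univ.filter fun t : H => t ^ (N / l ^ k) = 1 := by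
    intro t ht
    obtain ⟨l, hl, h⟩ := key t (Finset.mem_filter.1 ht).2
    exact Finset.mem_biUnion.2 ⟨l, hl, Finset.mem_filter.2 ⟨Finset.mem_univ _, h⟩⟩
  have hcard : Nat.card {t : H // ¬ n ∣ orderOf t}
      = (Finset.univ.filter fun t : H => ¬ n ∣ orderOf t).card := by
    rw [Nat.card_eq_fintype_card, Fintype.card_subtype]
  rw [hcard]
  calc 2 ^ k * (Finset.univ.filter fun t : H => ¬ n ∣ orderOf t).card
      ≤ 2 ^ k * ∑ l ∈ n.primeFactors, (Finset.univ.filter fun t : H => t ^ (N / l ^ k) = 1).card :=
        Nat.mul_le_mul_left _ ((Finset.card_le_card hsub).trans Finset.card_biUnion_le)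
    _ = ∑ l ∈ n.primeFactors, 2 ^ k * (Finset.univ.filter fun t : H => t ^ (N / l ^ k) = 1).card :=
        Finset.mul_sum _ _ _
    _ ≤ ∑ _l ∈ n.primeFactors, N := by
        refine Finset.sum_le_sum fun l hl => ?_
        have hlp := Nat.prime_of_mem_primeFactors hl
        have hldvd : l ^ k ∣ N := (pow_dvd_pow_of_dvd (Nat.dvd_of_mem_primeFactors hl) k).trans hk
        have hpos : 0 < N / l ^ k :=
          Nat.div_pos (Nat.le_of_dvd (Nat.pos_of_ne_zero hN0) hldvd) (Nat.pow_pos hlp.pos)
        calc 2 ^ k * (Finset.univ.filter fun t : H => t ^ (N / l ^ k) = 1).card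
            ≤ l ^ k * (N / l ^ k) :=
              Nat.mul_le_mul (Nat.pow_le_pow_left hlp.two_le k) (IsCyclic.card_pow_eq_one_le hpos)
          _ = N := Nat.mul_div_cancel' hldvd
    _ = n.primeFactors.card * N := by rw [Finset.sum_const, smul_eq_mul]
    _ ≤ n * N := by
        refine Nat.mul_le_mul_right _ ?_
        calc n.primeFactors.card ≤ n.divisors.card := Finset.card_le_card fun p hp =>
              Nat.mem_divisors.2 ⟨Nat.dvd_of_mem_primeFactors hp, hn.ne'⟩
          _ ≤ n := Nat.card_divisors_le_self n

end Fermat.Agent.TCheb
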