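import Mathlib

/-!
# TCheb / CycloExt  (WP [FE]): adjoining roots of unity to a Galois number field (Mathlib only)
-/

set_option autoImplicit false

open NumberField Module Ideal Subgroup

namespace Fermat.Agent.TCheb

universe u

/-- (FE) adjoining the `q`-th roots of unity.  `L' := CyclotomicField q L`;
`IsCyclotomicExtension.numberField`; Galois over `ℚ`: splitting field of `f * (X ^ q - 1)`
(`IsGalois.is_separable_splitting_field`, `Polynomial.IsSplittingField.mul`,
`IsCyclotomicExtension.isSplittingField_X_pow_sub_one`, `Normal.of_isSplittingField`). -/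
theorem exists_cyclo_ext (L : Type u) [Field L] [NumberField L] [IsGalois ℚ L] (q : ℕ) [NeZero q] :
    ∃ (L' : Type u) (_ : Field L') (_ : NumberField L') (_ : IsGalois ℚ L') (_ : Algebra L L')
      (ζ : L'), IsPrimitiveRoot ζ q ∧
        ∀ g : L' ≃ₐ[ℚ] L', AlgEquiv.restrictNormalHom L g = 1 → g ζ = ζ → g = 1 := by
  have hnf : NumberField (CyclotomicField q L) :=
    IsCyclotomicExtension.numberField {q} L (CyclotomicField q L)
  have hgal : IsGalois ℚ (CyclotomicField q L) := by
    obtain ⟨f, hf, hsplit⟩ := IsGalois.is_separable_splitting_field ℚ L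
    have h2 : Polynomial.IsSplittingField L (CyclotomicField q L)
        (Polynomial.map (algebraMap ℚ L) (Polynomial.X ^ q - 1)) := by
      have := IsCyclotomicExtension.isSplittingField_X_pow_sub_one q L (CyclotomicField q L)
      simpa using this
    have h3 : Polynomial.IsSplittingField ℚ (CyclotomicField q L)
        (f * (Polynomial.X ^ q - 1)) :=
      Polynomial.IsSplittingField.mul (K := L) (CyclotomicField q L) f (Polynomial.X ^ q - 1) hf.ne_zero
        (Polynomial.X_pow_sub_C_ne_zero (NeZero.pos q) (1 : ℚ))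
    have h4 : Normal ℚ (CyclotomicField q L) := Normal.of_isSplittingField _ (hFEp := h3)
    exact {}
  have hζ := IsCyclotomicExtension.zeta_spec q L (CyclotomicField q L)
  refine ⟨CyclotomicField q L, inferInstance, hnf, hgal, inferInstance,
    IsCyclotomicExtension.zeta q L (CyclotomicField q L), hζ, fun g hg hgζ => ?_⟩
  have hfix : ∀ x : L, g (algebraMap L (CyclotomicField q L) x) =
      algebraMap L (CyclotomicField q L) x := by
    intro x
    have h1 := AlgEquiv.restrictNormal_commutes g L x
    have h2 : g.restrictNormal L = 1 := hg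
    rw [← h1, h2]
    rfl
  let g' : CyclotomicField q L →ₐ[L] CyclotomicField q L :=
    { (g : CyclotomicField q L →+* CyclotomicField q L) with commutes' := hfix }
  have h5 : g' = AlgHom.id L _ := by
    refine AlgHom.ext_of_adjoin_eq_top
      (IsCyclotomicExtension.adjoin_primitive_root_eq_top (A := L) hζ) ?_
    intro x hx
    rw [Set.mem_singleton_iff] at hx
    subst hx
    exact hgζ
  ext x
  exact DFunLike.congr_fun h5 x

/-- (FS) the cyclotomic character of a Galois number field containing `ζ_q` is surjective.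
(`Polynomial.cyclotomic.irreducible_rat`, `IsCyclotomicExtension.autEquivPow` for `ℚ(ζ)`,
`AlgEquiv.restrictNormalHom_surjective`; or `IsPrimitiveRoot.minpoly` + `IsGalois` lifting.) -/
theorem autToPow_surjective {L : Type*} [Field L] [NumberField L] [IsGalois ℚ L] {q : ℕ} [NeZero q]
    {ζ : L} (hζ : IsPrimitiveRoot ζ q) : Function.Surjective (hζ.autToPow ℚ) := by
  intro u
  have hcop : Nat.Coprime (u : ZMod q).val q := ZMod.val_coe_unit_coprime u
  have hζ' : IsPrimitiveRoot (ζ ^ (u : ZMod q).val) q := hζ.pow_of_coprime _ hcop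
  have h1 : minpoly ℚ (ζ ^ (u : ZMod q).val) = minpoly ℚ ζ := by
    rw [← Polynomial.cyclotomic_eq_minpoly_rat hζ (NeZero.pos q),
      ← Polynomial.cyclotomic_eq_minpoly_rat hζ' (NeZero.pos q)]
  obtain ⟨σ, hσ⟩ := minpoly.exists_algEquiv_of_root (K := ℚ) (x := ζ) (y := ζ ^ (u : ZMod q).val)
    (Algebra.IsAlgebraic.isAlgebraic _) (by rw [h1]; exact minpoly.aeval ℚ ζ)
  refine ⟨σ, ?_⟩
  have h2 := hζ.autToPow_spec ℚ σ
  rw [hσ] at h2
  have h3 := hζ.pow_inj (ZMod.val_lt _) (ZMod.val_lt _) h2
  exact Units.ext (ZMod.val_injective q h3)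

end Fermat.Agent.TCheb
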