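import Fermat.Agent.TCheb.Cyclo
import Fermat.Agent.TCheb.CycloExt
import Fermat.Agent.TCheb.CyclicCount

/-!
# TCheb / Cross  (WP [F5]): Chebotarev's crossing argument
-/

set_option autoImplicit false

open NumberField Module Ideal Subgroup

namespace Fermat.Agent.TCheb

section abstractCross

variable {G : Type*} [Group G] [Finite G] (φ : Nat.Primes → G)

theorem Asum_nonneg (S : Set G) (s : ℝ) : 0 ≤ Asum φ S s :=
  tsum_nonneg fun _ => mul_nonneg (Nat.cast_nonneg _) (Real.rpow_nonneg (Nat.cast_nonneg _) _)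

/-- descent inequality: `A'_{π⁻¹ S} - O(1) ≤ |ker π| A_S`. -/
theorem Asum_preimage_sub_le {G' : Type*} [Group G'] [Finite G'] (φ' : Nat.Primes → G')
    (π : G' →* G) (hπ : Function.Surjective π) (T : Finset Nat.Primes)
    (hT : ∀ p, p ∉ T → IsConj (π (φ' p)) (φ p)) (S : Set G) {s : ℝ} (hs : 1 < s) :
    Asum φ' (π ⁻¹' S) s - (T.card * Nat.card G' : ℝ) ≤ Nat.card π.ker * Asum φ S s := by
  classical
  have hfin : Summable fun p : Nat.Primes => if p ∈ T then (Nat.card G' : ℝ) else 0 :=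
    summable_of_ne_finset_zero (s := T) fun p hp => if_neg hp
  have hsum : ∑' p : Nat.Primes, (if p ∈ T then (Nat.card G' : ℝ) else 0) =
      T.card * Nat.card G' := by
    rw [tsum_eq_sum (s := T) fun p hp => if_neg hp, Finset.sum_congr rfl fun p hp => if_pos hp,
      Finset.sum_const, nsmul_eq_mul]
  have h1 := (summable_Asum φ S hs).mul_left (Nat.card π.ker : ℝ)
  have key : Asum φ' (π ⁻¹' S) s ≤
      ∑' p : Nat.Primes, ((Nat.card π.ker : ℝ) * ((cnt φ p S : ℝ) * ((p : ℕ) : ℝ) ^ (-s)) +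
        if p ∈ T then (Nat.card G' : ℝ) else 0) := by
    refine (summable_Asum φ' (π ⁻¹' S) hs).tsum_le_tsum (fun p => ?_) (h1.add hfin)
    have hp0 : (0 : ℝ) ≤ ((p : ℕ) : ℝ) ^ (-s) := Real.rpow_nonneg (Nat.cast_nonneg _) _
    by_cases hp : p ∈ T
    · rw [if_pos hp]
      have h2 : ((p : ℕ) : ℝ) ^ (-s) ≤ 1 :=
        Real.rpow_le_one_of_one_le_of_nonpos (by exact_mod_cast p.2.one_lt.le) (by linarith)
      have h3 : (cnt φ' p (π ⁻¹' S) : ℝ) ≤ Nat.card G' := by exact_mod_cast cnt_le φ' p _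
      have h4 : (cnt φ' p (π ⁻¹' S) : ℝ) * ((p : ℕ) : ℝ) ^ (-s) ≤ Nat.card G' * 1 :=
        mul_le_mul h3 h2 hp0 (Nat.cast_nonneg _)
      have h5 : (0 : ℝ) ≤ (Nat.card π.ker : ℝ) * ((cnt φ p S : ℝ) * ((p : ℕ) : ℝ) ^ (-s)) :=
        mul_nonneg (Nat.cast_nonneg _) (mul_nonneg (Nat.cast_nonneg _) hp0)
      linarith
    · rw [if_neg hp, add_zero, ← card_ker_mul_cnt φ φ' π hπ p (hT p hp) S]
      push_cast
      rw [mul_assoc]
  rw [h1.tsum_add hfin, hsum, tsum_mul_left] at key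
  unfold Asum at key ⊢
  linarith

/-- the abstract crossing argument. -/
theorem hasLogGE_cross {G' H : Type*} [Group G'] [Finite G'] [CommGroup H] [Finite H] [IsCyclic H]
    (φ' : Nat.Primes → G') (π : G' →* G) (hπ : Function.Surjective π) (T : Finset Nat.Primes)
    (hT : ∀ p, p ∉ T → IsConj (π (φ' p)) (φ p))
    (κ : G' →* H) (hκ : Function.Surjective κ) (hinj : ∀ g, π g = 1 → κ g = 1 → g = 1)
    (σ : G) (k : ℕ) (hk : orderOf σ ^ k ∣ Nat.card H)
    (hlog : ∀ τ : G', (∀ u ∈ zpowers τ, κ u = 1 → u = 1) →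
      HasLog (fun s => Asum φ' {τ} s + Asum φ' {τ⁻¹} s) 2) :
    HasLogGE (fun s => Asum φ {σ} s + Asum φ {σ⁻¹} s)
      (2 * (1 - (orderOf σ * Nat.card G : ℝ) / 2 ^ k)) := by
  classical
  have := Fintype.ofFinite G'
  set n := orderOf σ with hn
  have hn0 : 0 < n := orderOf_pos σ
  set F : Finset G' := Finset.univ.filter fun τ => π τ = σ with hF
  have hFmem : ∀ τ, τ ∈ F ↔ π τ = σ := fun τ => by simp [hF]
  set K : ℕ := Nat.card π.ker with hK
  have hK0 : 0 < K := Nat.card_pos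
  -- the fibre has `K` elements
  have hFcard : F.card = K := by
    obtain ⟨τ₀, hτ₀⟩ := hπ σ
    rw [hK, Nat.card_eq_fintype_card, ← Finset.card_univ]
    symm
    refine Finset.card_bij (fun x _ => τ₀ * x.1) (fun x _ => ?_) (fun x _ y _ h => ?_)
      (fun τ hτ => ?_)
    · rw [hFmem, map_mul, hτ₀, MonoidHom.mem_ker.mp x.2, mul_one]
    · exact Subtype.ext (mul_left_cancel h)
    · refine ⟨⟨τ₀⁻¹ * τ, ?_⟩, Finset.mem_univ _, by simp⟩
      rw [MonoidHom.mem_ker, map_mul, map_inv, hτ₀, (hFmem τ).mp hτ, inv_mul_cancel]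
  -- cardinalities
  have hG' : Nat.card G' = Nat.card G * K := by
    rw [hK, ← Subgroup.card_mul_index π.ker, Subgroup.index_ker,
      MonoidHom.range_eq_top.mpr hπ, Subgroup.card_top, mul_comm]
  have hH : Nat.card H ≤ Nat.card G' := Nat.card_le_card_of_surjective κ hκ
  -- good and bad elements
  set Bad : Finset G' := F.filter fun τ => ¬ n ∣ orderOf (κ τ) with hBad
  set Good : Finset G' := F.filter fun τ => n ∣ orderOf (κ τ) with hGood
  have hcard : Good.card + Bad.card = K := by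
    rw [← hFcard, hGood, hBad]
    exact Finset.card_filter_add_card_filter_not _
  have hbad1 : Bad.card ≤ Nat.card {t : H // ¬ n ∣ orderOf t} := by
    have := Fintype.ofFinite H
    rw [Nat.card_eq_fintype_card, Fintype.card_subtype]
    refine Finset.card_le_card_of_injOn κ (fun τ hτ => ?_) (fun τ hτ τ' hτ' h => ?_)
    · simp only [hBad, Finset.coe_filter, Set.mem_ofPred_eq] at hτ
      simpa using hτ.2
    · simp only [hBad, Finset.coe_filter, Set.mem_ofPred_eq] at hτ hτ'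
      have h1 : τ⁻¹ * τ' = 1 := by
        refine hinj _ ?_ ?_
        · rw [map_mul, map_inv, (hFmem τ).mp hτ.1, (hFmem τ').mp hτ'.1, inv_mul_cancel]
        · rw [map_mul, map_inv, h, inv_mul_cancel]
      exact (inv_mul_eq_one.mp h1)
  have hbad2 : 2 ^ k * Bad.card ≤ n * (Nat.card G * K) := by
    calc 2 ^ k * Bad.card ≤ 2 ^ k * Nat.card {t : H // ¬ n ∣ orderOf t} :=
          Nat.mul_le_mul_left _ hbad1
      _ ≤ n * Nat.card H := card_not_dvd_orderOf_le hn0 hk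
      _ ≤ n * (Nat.card G * K) := Nat.mul_le_mul_left _ (hG' ▸ hH)
  -- the good elements satisfy the cyclotomic case
  have hgood : ∀ τ ∈ Good, HasLog (fun s => Asum φ' {τ} s + Asum φ' {τ⁻¹} s) 2 := by
    intro τ hτ
    simp only [hGood, Finset.mem_filter] at hτ
    refine hlog τ ?_
    rintro _ ⟨j, rfl⟩ hj
    simp only at hj ⊢
    rw [map_zpow] at hj
    have h1 : (n : ℤ) ∣ j := (Int.natCast_dvd_natCast.mpr hτ.2).trans (orderOf_dvd_iff_zpow_eq_one.mpr hj)
    refine hinj _ ?_ (by rw [map_zpow, hj])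
    rw [map_zpow, (hFmem τ).mp hτ.1]
    exact orderOf_dvd_iff_zpow_eq_one.mp h1
  choose! C hC using hgood
  -- decomposition of the fibres
  have hFσ : (F : Set G') = π ⁻¹' {σ} := by
    ext τ
    simp [hFmem]
  have hFσ' : ((F.image fun τ => τ⁻¹ : Finset G') : Set G') = π ⁻¹' {σ⁻¹} := by
    ext τ
    simp only [Finset.coe_image, Set.mem_image, Finset.mem_coe, hFmem, Set.mem_preimage,
      Set.mem_singleton_iff]
    constructor
    · rintro ⟨x, hx, rfl⟩
      rw [map_inv, hx]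
    · intro h
      exact ⟨τ⁻¹, by rw [map_inv, h, inv_inv], inv_inv τ⟩
  refine ⟨(∑ τ ∈ Good, C τ + 2 * (T.card * Nat.card G' : ℝ)) / K, fun s hs hs2 => ?_⟩
  have hL : 0 ≤ Real.log (1 / (s - 1)) := by
    apply Real.log_nonneg
    rw [le_div_iff₀ (by linarith)]
    linarith
  set Lg := Real.log (1 / (s - 1)) with hLg
  have e1 := Asum_preimage_sub_le φ φ' π hπ T hT {σ} hs
  have e2 := Asum_preimage_sub_le φ φ' π hπ T hT {σ⁻¹} hs
  rw [← hFσ, Asum_eq_sum φ' F hs] at e1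
  rw [← hFσ', Asum_eq_sum φ' _ hs, Finset.sum_image (fun x _ y _ h => inv_injective h)] at e2
  have e3 : ∑ τ ∈ Good, (2 * Lg - C τ) ≤ ∑ τ ∈ F, (Asum φ' {τ} s + Asum φ' {τ⁻¹} s) := by
    calc ∑ τ ∈ Good, (2 * Lg - C τ) ≤ ∑ τ ∈ Good, (Asum φ' {τ} s + Asum φ' {τ⁻¹} s) := by
          refine Finset.sum_le_sum fun τ hτ => ?_
          have := abs_le.mp (hC τ hτ s hs hs2)
          linarith [this.1]
      _ ≤ ∑ τ ∈ F, (Asum φ' {τ} s + Asum φ' {τ⁻¹} s) :=
          Finset.sum_le_sum_of_subset_of_nonneg (Finset.filter_subset _ _)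
            fun τ _ _ => add_nonneg (Asum_nonneg φ' _ s) (Asum_nonneg φ' _ s)
  rw [Finset.sum_sub_distrib, Finset.sum_const, nsmul_eq_mul, Finset.sum_add_distrib] at e3
  have hKR : (0 : ℝ) < K := by exact_mod_cast hK0
  have e4 : (Good.card : ℝ) + Bad.card = K := by exact_mod_cast hcard
  have e5 : (2 : ℝ) ^ k * Bad.card ≤ n * (Nat.card G * K) := by exact_mod_cast hbad2
  have h2k : (0 : ℝ) < 2 ^ k := by positivity
  have e6 : (K : ℝ) * (1 - (n * Nat.card G : ℝ) / 2 ^ k) ≤ Good.card := by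
    have : (Bad.card : ℝ) ≤ (n * Nat.card G : ℝ) / 2 ^ k * K := by
      rw [div_mul_eq_mul_div, le_div_iff₀ h2k]
      linarith
    linarith
  have e7 : (K : ℝ) * (1 - (n * Nat.card G : ℝ) / 2 ^ k) * (2 * Lg) ≤ Good.card * (2 * Lg) :=
    mul_le_mul_of_nonneg_right e6 (by linarith)
  show 2 * (1 - (n * Nat.card G : ℝ) / 2 ^ k) * Lg - _ ≤ Asum φ {σ} s + Asum φ {σ⁻¹} s
  rw [sub_le_iff_le_add, ← sub_le_iff_le_add', ← mul_le_mul_iff_right₀ hKR, mul_sub,
    mul_div_cancel₀ _ hKR.ne']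
  nlinarith [e1, e2, e3, e7]

end abstractCross

universe u

variable (L : Type u) [Field L] [NumberField L] [IsGalois ℚ L]

/-- (F5) **crossing**: for every `k`,
`A_σ + A_σ⁻¹ ≥ 2 (1 - n |G| / 2^k) log (1/(s-1)) - O(1)`, `n = orderOf σ`.
Proof: `q` prime, `q ≡ 1 mod n ^ k` (`Nat.exists_prime_gt_modEq_one`); `L'`, `ζ` from
`exists_cyclo_ext`; `G' = Gal(L'/ℚ)`, `π = restrictNormalHom L` (surjective), `κ = autToPow`;
`(π, κ)` injective.  For `τ ∈ π⁻¹ σ` with `n ∣ orderOf (κ τ)`, `κ` is injective on `⟨τ⟩`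
(if `κ τ^j = 1` then `n ∣ j`, so `π τ^j = 1`), so `hasLog_of_injOn_autToPow` applies.
`|ker π| A_σ = ∑_{τ ∈ π⁻¹ σ} A'_τ + O(1)` (`card_ker_mul_cnt`, `IsFrobOver.restrict`,
`isConj_of_isFrobOver`).  `κ` is injective on `π⁻¹ σ`, so the number of bad `τ` is at most
`n (q - 1) / 2 ^ k` (`card_not_dvd_orderOf_le`, `(ZMod q)ˣ` cyclic), and
`q - 1 ≤ |G'| = |G| |ker π|` (`autToPow_surjective`). -/
theorem hasLogGE_add_inv (σ : L ≃ₐ[ℚ] L) (k : ℕ) :
    HasLogGE (fun s => Asum (frobSys L) {σ} s + Asum (frobSys L) {σ⁻¹} s)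
      (2 * (1 - (orderOf σ * Nat.card (L ≃ₐ[ℚ] L) : ℝ) / 2 ^ k)) := by
  classical
  have hn : 0 < orderOf σ := orderOf_pos σ
  obtain ⟨q, hq, _, hq1⟩ := Nat.exists_prime_gt_modEq_one (k := orderOf σ ^ k) 1
    (pow_ne_zero _ hn.ne')
  have : Fact q.Prime := ⟨hq⟩
  obtain ⟨L', _, _, _, _, ζ, hζ, hinj⟩ := exists_cyclo_ext L q
  set T : Finset Nat.Primes :=
    ((Cheb.finite_dvd_discr L).preimage (f := fun p : Nat.Primes => (p : ℕ))
      (Subtype.val_injective.injOn)).toFinset with hT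
  refine hasLogGE_cross (frobSys L) (frobSys L') (AlgEquiv.restrictNormalHom L)
    (AlgEquiv.restrictNormalHom_surjective L') T (fun p hp => ?_) (hζ.autToPow ℚ)
    (autToPow_surjective hζ) (fun g h1 h2 => hinj g h1 ?_) σ k ?_
    (fun τ h => hasLog_of_injOn_autToPow hζ τ h)
  · have hp' : ¬ ((p : ℕ) : ℤ) ∣ discr L := by
      intro h
      apply hp
      rw [hT, Set.Finite.mem_toFinset]
      exact h
    exact isConj_of_isFrobOver p.2 hp' (isFrobOver_frobElt p.2).restrict (isFrobOver_frobElt p.2)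
  · have h3 := hζ.autToPow_spec ℚ g
    rw [h2, Units.val_one, ZMod.val_one, pow_one] at h3
    exact h3.symm
  · rw [Nat.card_eq_fintype_card, ZMod.card_units_eq_totient, Nat.totient_prime hq]
    exact (Nat.modEq_iff_dvd' hq.one_le).mp hq1.symm

end Fermat.Agent.TCheb
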