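import Fermat.Agent.TCheb.LF

/-!
# TCheb / EulerTw  (WP [B]): twisted Euler sieve
Copy of `Cheb/Euler.lean`, `Cheb/PrimeIdealSum.lean`, `Cheb/ZetaLog.lean` with the completely
multiplicative weight `tw χ s (absNorm I)`.
-/

set_option autoImplicit false

open NumberField Module Ideal IsDedekindDomain

namespace Fermat.Agent.TCheb

variable (K : Type*) [Field K] [NumberField K]

variable {m : ℕ} (χ : DirichletCharacter ℂ m)

/-- the weight `χ(N I) N I^(-s)` -/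
noncomputable def twI (s : ℝ) (I : Ideal (𝓞 K)) : ℂ := tw χ s (absNorm I)

theorem twI_mul (s : ℝ) (I J : Ideal (𝓞 K)) : twI K χ s (I * J) = twI K χ s I * twI K χ s J := by
  unfold twI
  rw [map_mul, tw_mul]

theorem twI_top (s : ℝ) : twI K χ s ⊤ = 1 := by
  unfold twI
  rw [absNorm_top, tw_one]

theorem norm_twI_le (s : ℝ) (I : Ideal (𝓞 K)) : ‖twI K χ s I‖ ≤ Cheb.nrm K s I :=
  norm_tw_le χ s _

theorem summable_twI {s : ℝ} (hs : 1 < s) : Summable (twI K χ s) := summable_tw_absNorm χ K hs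

open Classical in
/-- the twisted sieved term -/
noncomputable def svT (s : ℝ) (S : Finset (HeightOneSpectrum (𝓞 K))) (I : Ideal (𝓞 K)) : ℂ :=
  if ∀ 𝔮 ∈ S, ¬ I ≤ 𝔮.asIdeal then twI K χ s I else 0

theorem norm_svT_le (s : ℝ) (S : Finset (HeightOneSpectrum (𝓞 K))) (I : Ideal (𝓞 K)) :
    ‖svT K χ s S I‖ ≤ Cheb.sv K s S I := by
  unfold svT Cheb.sv
  split_ifs
  · exact norm_twI_le K χ s I
  · simp

theorem summable_svT {s : ℝ} (hs : 1 < s) (S : Finset (HeightOneSpectrum (𝓞 K))) :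
    Summable (svT K χ s S) :=
  Summable.of_norm_bounded (Cheb.summable_sv K hs S) (norm_svT_le K χ s S)

theorem svT_empty (s : ℝ) : svT K χ s ∅ = twI K χ s := by
  funext I; simp [svT]

theorem svT_top (s : ℝ) (S : Finset (HeightOneSpectrum (𝓞 K))) : svT K χ s S ⊤ = 1 := by
  unfold svT
  rw [if_pos, twI_top]
  intro 𝔮 _ h
  exact 𝔮.isPrime.ne_top (top_le_iff.mp h)

theorem svT_mul (s : ℝ) (S : Finset (HeightOneSpectrum (𝓞 K))) (𝔭 : HeightOneSpectrum (𝓞 K))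
    (h𝔭 : 𝔭 ∉ S) (J : Ideal (𝓞 K)) :
    svT K χ s S (𝔭.asIdeal * J) = twI K χ s 𝔭.asIdeal * svT K χ s S J := by
  have key : (∀ 𝔮 ∈ S, ¬ 𝔭.asIdeal * J ≤ 𝔮.asIdeal) ↔ (∀ 𝔮 ∈ S, ¬ J ≤ 𝔮.asIdeal) := by
    refine forall₂_congr fun 𝔮 h𝔮 => ?_
    rw [𝔮.isPrime.mul_le, not_or]
    refine ⟨fun h => h.2, fun h => ⟨fun h' => ?_, h⟩⟩
    have : 𝔭 = 𝔮 := HeightOneSpectrum.ext (𝔭.isMaximal.eq_of_le 𝔮.isPrime.ne_top h')
    exact h𝔭 (this ▸ h𝔮)
  unfold svT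
  by_cases h : ∀ 𝔮 ∈ S, ¬ J ≤ 𝔮.asIdeal
  · rw [if_pos h, if_pos (key.mpr h), twI_mul]
  · rw [if_neg h, if_neg (fun h' => h (key.mp h')), mul_zero]

open Classical in
theorem svT_insert (s : ℝ) (S : Finset (HeightOneSpectrum (𝓞 K))) (𝔭 : HeightOneSpectrum (𝓞 K))
    (I : Ideal (𝓞 K)) :
    svT K χ s (insert 𝔭 S) I = svT K χ s S I - (if I ≤ 𝔭.asIdeal then svT K χ s S I else 0) := by
  unfold svT
  by_cases h1 : I ≤ 𝔭.asIdeal
  · simp [h1]
  · simp [h1]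

open Classical in
theorem tsum_svT_dvd {s : ℝ} (S : Finset (HeightOneSpectrum (𝓞 K)))
    (𝔭 : HeightOneSpectrum (𝓞 K)) (h𝔭 : 𝔭 ∉ S) :
    ∑' I, (if I ≤ 𝔭.asIdeal then svT K χ s S I else 0)
      = twI K χ s 𝔭.asIdeal * ∑' I, svT K χ s S I := by
  have hinj : Function.Injective (fun J : Ideal (𝓞 K) => 𝔭.asIdeal * J) :=
    mul_right_injective₀ 𝔭.ne_bot
  rw [← hinj.tsum_eq (f := fun I => if I ≤ 𝔭.asIdeal then svT K χ s S I else 0), ← tsum_mul_left]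
  · refine tsum_congr fun J => ?_
    show (if 𝔭.asIdeal * J ≤ 𝔭.asIdeal then svT K χ s S (𝔭.asIdeal * J) else 0) = _
    rw [if_pos Ideal.mul_le_left, svT_mul K χ s S 𝔭 h𝔭]
  · intro I hI
    have hle : I ≤ 𝔭.asIdeal := by
      by_contra h
      simp [h] at hI
    obtain ⟨J, rfl⟩ := Ideal.dvd_iff_le.mpr hle
    exact ⟨J, rfl⟩

open Classical in
theorem tsum_svT_insert {s : ℝ} (hs : 1 < s) (S : Finset (HeightOneSpectrum (𝓞 K)))
    (𝔭 : HeightOneSpectrum (𝓞 K)) (h𝔭 : 𝔭 ∉ S) :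
    ∑' I, svT K χ s (insert 𝔭 S) I = (1 - twI K χ s 𝔭.asIdeal) * ∑' I, svT K χ s S I := by
  have h1 : Summable (fun I => if I ≤ 𝔭.asIdeal then svT K χ s S I else 0) := by
    refine Summable.of_norm_bounded (Cheb.summable_sv K hs S) (fun I => ?_)
    split_ifs
    · exact norm_svT_le K χ s S I
    · simpa using Cheb.sv_nonneg K s S I
  rw [funext (svT_insert K χ s S 𝔭), (summable_svT K χ hs S).tsum_sub h1,
    tsum_svT_dvd K χ S 𝔭 h𝔭]
  ring

/-- twisted sieve identity. -/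
theorem tsum_svT_eq {s : ℝ} (hs : 1 < s) (S : Finset (HeightOneSpectrum (𝓞 K))) :
    ∑' I, svT K χ s S I = (∏ 𝔭 ∈ S, (1 - twI K χ s 𝔭.asIdeal)) * LF χ K s := by
  classical
  induction S using Finset.induction_on with
  | empty => simp [svT_empty, LF, twI]
  | insert 𝔭 S h𝔭 ih => rw [tsum_svT_insert K χ hs S 𝔭 h𝔭, ih, Finset.prod_insert h𝔭, mul_assoc]

/-- the untwisted sieved sum is close to `1` for large `S`. -/
theorem exists_tsum_sv_le {s : ℝ} (hs : 1 < s) {ε : ℝ} (hε : 0 < ε)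
    (S₀ : Finset (HeightOneSpectrum (𝓞 K))) :
    ∃ S : Finset (HeightOneSpectrum (𝓞 K)), S₀ ⊆ S ∧ ∑' I, Cheb.sv K s S I ≤ 1 + ε := by
  classical
  have hsum := Cheb.summable_nrm K hs
  obtain ⟨A, hA⟩ : ∃ A : Finset (Ideal (𝓞 K)), Cheb.zetaR K s - ε < ∑ I ∈ A, Cheb.nrm K s I := by
    by_contra h
    push Not at h
    have := hsum.tsum_le_of_sum_le h
    rw [← Cheb.zetaR_eq_tsum_nrm] at this
    linarith
  obtain ⟨S₁, hS₁⟩ := Cheb.exists_cover K A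
  refine ⟨S₀ ∪ S₁, Finset.subset_union_left, ?_⟩
  set S := S₀ ∪ S₁ with hSdef
  have hS : ∀ I ∈ A, I ≠ ⊤ → I ≠ ⊥ → ∃ 𝔮 ∈ S, I ≤ 𝔮.asIdeal := fun I hI h1 h2 => by
    obtain ⟨𝔮, h𝔮, hle⟩ := hS₁ I hI h1 h2
    exact ⟨𝔮, Finset.mem_union_right _ h𝔮, hle⟩
  have hpt : ∀ I, Cheb.sv K s S I ≤
      Cheb.nrm K s I - (if I ∈ A.erase ⊤ then Cheb.nrm K s I else 0) := by
    intro I
    by_cases hI : I ∈ A.erase ⊤
    · rw [if_pos hI, sub_self]
      obtain ⟨hne, hIA⟩ := Finset.mem_erase.mp hI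
      rcases eq_or_ne I ⊥ with rfl | hbot
      · exact (Cheb.sv_le K s S ⊥).trans (Cheb.nrm_bot K hs).le
      · obtain ⟨𝔮, h𝔮, hle⟩ := hS I hIA hne hbot
        unfold Cheb.sv
        rw [if_neg]
        intro h
        exact h 𝔮 h𝔮 hle
    · rw [if_neg hI, sub_zero]
      exact Cheb.sv_le K s S I
  have hfin : Summable (fun I => if I ∈ A.erase ⊤ then Cheb.nrm K s I else 0) :=
    summable_of_hasFiniteSupport ((A.erase ⊤).finite_toSet.subset (fun I hI => by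
      by_contra h
      rw [Finset.mem_coe] at h
      rw [Function.mem_support, if_neg h] at hI
      exact hI rfl))
  have h1 : ∑' I, Cheb.sv K s S I ≤
      ∑' I, (Cheb.nrm K s I - (if I ∈ A.erase ⊤ then Cheb.nrm K s I else 0)) :=
    (Cheb.summable_sv K hs S).tsum_le_tsum hpt (hsum.sub hfin)
  rw [hsum.tsum_sub hfin, ← Cheb.zetaR_eq_tsum_nrm] at h1
  have h2 : ∑' I, (if I ∈ A.erase ⊤ then Cheb.nrm K s I else 0)
      = ∑ I ∈ A.erase ⊤, Cheb.nrm K s I := by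
    rw [tsum_eq_sum (s := A.erase ⊤) (fun I hI => by rw [if_neg hI])]
    exact Finset.sum_congr rfl (fun I hI => by rw [if_pos hI])
  have h3 : ∑ I ∈ A, Cheb.nrm K s I ≤ ∑ I ∈ A.erase ⊤, Cheb.nrm K s I + 1 := by
    by_cases htop : ⊤ ∈ A
    · rw [← Finset.sum_erase_add A _ htop, Cheb.nrm_top]
    · rw [Finset.erase_eq_of_notMem htop]; linarith
  linarith

/-- `‖∑ svT - 1‖ ≤ ∑ sv - 1`. -/
theorem norm_tsum_svT_sub_one_le {s : ℝ} (hs : 1 < s) (S : Finset (HeightOneSpectrum (𝓞 K))) :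
    ‖∑' I, svT K χ s S I - 1‖ ≤ ∑' I, Cheb.sv K s S I - 1 := by
  classical
  have h1 := summable_svT K χ hs S
  have h2 := Cheb.summable_sv K hs S
  rw [h1.tsum_eq_add_tsum_ite ⊤, h2.tsum_eq_add_tsum_ite ⊤, svT_top, Cheb.sv_top,
    add_sub_cancel_left, add_sub_cancel_left]
  have h3 : Summable (fun I => if I = ⊤ then 0 else Cheb.sv K s S I) := by
    refine Summable.of_nonneg_of_le (fun I => ?_) (fun I => ?_) h2
    · split_ifs
      · exact le_rfl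
      · exact Cheb.sv_nonneg K s S I
    · split_ifs
      · exact Cheb.sv_nonneg K s S I
      · exact le_rfl
  refine tsum_of_norm_bounded h3.hasSum (fun I => ?_)
  split_ifs
  · simp
  · exact norm_svT_le K χ s S I

theorem exists_half_le_prod_mul {s : ℝ} (hs : 1 < s) (S₀ : Finset (HeightOneSpectrum (𝓞 K))) :
    ∃ S : Finset (HeightOneSpectrum (𝓞 K)), S₀ ⊆ S ∧
      1 / 2 ≤ ‖∏ 𝔭 ∈ S, (1 - tw χ s (absNorm 𝔭.asIdeal))‖ * ‖LF χ K s‖ := by
  obtain ⟨S, hS₀, hS⟩ := exists_tsum_sv_le K hs (ε := 1 / 2) (by norm_num) S₀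
  refine ⟨S, hS₀, ?_⟩
  have h1 := norm_tsum_svT_sub_one_le K χ hs S
  have h2 := tsum_svT_eq K χ hs S
  rw [← norm_mul]
  have h3 : (∏ 𝔭 ∈ S, (1 - tw χ s (absNorm 𝔭.asIdeal))) * LF χ K s = ∑' I, svT K χ s S I :=
    h2.symm
  rw [h3]
  have h4 : ‖(1 : ℂ)‖ - ‖∑' I, svT K χ s S I‖ ≤ ‖(1 : ℂ) - ∑' I, svT K χ s S I‖ :=
    norm_sub_norm_le _ _
  rw [norm_one, norm_sub_rev] at h4
  linarith

/-- (B2) elementary: `‖1 - z‖ ≤ exp (-Re z + ‖z‖^2)`. -/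
theorem norm_one_sub_le_exp (z : ℂ) : ‖1 - z‖ ≤ Real.exp (-z.re + ‖z‖ ^ 2) := by
  have h1 : ‖1 - z‖ ^ 2 = 1 - 2 * z.re + ‖z‖ ^ 2 := by
    rw [Complex.sq_norm, Complex.sq_norm, Complex.normSq_apply, Complex.normSq_apply]
    simp
    ring
  have h2 : ‖1 - z‖ ^ 2 ≤ Real.exp (-z.re + ‖z‖ ^ 2) ^ 2 := by
    rw [h1, ← Real.exp_nat_mul]
    have h3 := Real.add_one_le_exp (-2 * z.re + ‖z‖ ^ 2)
    have h4 : Real.exp (-2 * z.re + ‖z‖ ^ 2) ≤ Real.exp (((2 : ℕ) : ℝ) * (-z.re + ‖z‖ ^ 2)) := by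
      apply Real.exp_le_exp.2
      push_cast
      nlinarith [sq_nonneg ‖z‖]
    linarith
  exact (pow_le_pow_iff_left₀ (norm_nonneg _) (Real.exp_pos _).le (by norm_num)).1 h2


/-- the twisted sum over all prime ideals. -/
noncomputable def primeIdealSumTw (s : ℝ) : ℂ :=
  ∑' 𝔭 : HeightOneSpectrum (𝓞 K), tw χ s (absNorm 𝔭.asIdeal)

theorem summable_tw_prime {s : ℝ} (hs : 1 < s) :
    Summable (fun 𝔭 : HeightOneSpectrum (𝓞 K) => tw χ s (absNorm 𝔭.asIdeal)) :=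
  Summable.of_norm_bounded (Cheb.summable_nrm_prime K hs) fun 𝔭 => norm_twI_le K χ s 𝔭.asIdeal

/-- finite version of (B3) -/
theorem exp_re_sum_le {s : ℝ} (hs : 1 < s) (S : Finset (HeightOneSpectrum (𝓞 K)))
    (hS : 1 / 2 ≤ ‖∏ 𝔭 ∈ S, (1 - tw χ s (absNorm 𝔭.asIdeal))‖ * ‖LF χ K s‖) :
    Real.exp (∑ 𝔭 ∈ S, tw χ s (absNorm 𝔭.asIdeal)).re ≤
      2 * Real.exp (Cheb.primeIdealSum K 2) * ‖LF χ K s‖ := by
  have h1 : ‖∏ 𝔭 ∈ S, (1 - tw χ s (absNorm 𝔭.asIdeal))‖ ≤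
      Real.exp (-(∑ 𝔭 ∈ S, tw χ s (absNorm 𝔭.asIdeal)).re + Cheb.primeIdealSum K 2) := by
    rw [norm_prod]
    calc ∏ 𝔭 ∈ S, ‖1 - tw χ s (absNorm 𝔭.asIdeal)‖
        ≤ ∏ 𝔭 ∈ S, Real.exp (-(tw χ s (absNorm 𝔭.asIdeal)).re
            + ‖tw χ s (absNorm 𝔭.asIdeal)‖ ^ 2) :=
          Finset.prod_le_prod (fun _ _ => norm_nonneg _) (fun 𝔭 _ => norm_one_sub_le_exp _)
      _ = Real.exp (∑ 𝔭 ∈ S, (-(tw χ s (absNorm 𝔭.asIdeal)).re
            + ‖tw χ s (absNorm 𝔭.asIdeal)‖ ^ 2)) := (Real.exp_sum _ _).symm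
      _ ≤ _ := by
          apply Real.exp_le_exp.2
          rw [Finset.sum_add_distrib, Finset.sum_neg_distrib, Complex.re_sum]
          refine add_le_add_right ?_ _
          calc ∑ 𝔭 ∈ S, ‖tw χ s (absNorm 𝔭.asIdeal)‖ ^ 2
              ≤ ∑ 𝔭 ∈ S, Cheb.nrm K 2 𝔭.asIdeal := by
                refine Finset.sum_le_sum fun 𝔭 _ => ?_
                refine le_trans ?_ (Cheb.nrm_sq_le K hs 𝔭.asIdeal)
                exact pow_le_pow_left₀ (norm_nonneg _) (norm_twI_le K χ s 𝔭.asIdeal) 2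
            _ ≤ Cheb.primeIdealSum K 2 :=
                (Cheb.summable_nrm_prime K (by norm_num)).sum_le_tsum S
                  (fun 𝔭 _ => Cheb.nrm_nonneg K 2 _)
  have h2 : 1 / 2 ≤ Real.exp (-(∑ 𝔭 ∈ S, tw χ s (absNorm 𝔭.asIdeal)).re
      + Cheb.primeIdealSum K 2) * ‖LF χ K s‖ :=
    hS.trans (mul_le_mul_of_nonneg_right h1 (norm_nonneg _))
  rw [Real.exp_add, Real.exp_neg] at h2
  have hpos := Real.exp_pos (∑ 𝔭 ∈ S, tw χ s (absNorm 𝔭.asIdeal)).re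
  have h3 : Real.exp (∑ 𝔭 ∈ S, tw χ s (absNorm 𝔭.asIdeal)).re * (1 / 2) ≤
      Real.exp (∑ 𝔭 ∈ S, tw χ s (absNorm 𝔭.asIdeal)).re *
      ((Real.exp (∑ 𝔭 ∈ S, tw χ s (absNorm 𝔭.asIdeal)).re)⁻¹ *
        Real.exp (Cheb.primeIdealSum K 2) * ‖LF χ K s‖) :=
    mul_le_mul_of_nonneg_left h2 hpos.le
  rw [← mul_assoc, ← mul_assoc, mul_inv_cancel₀ hpos.ne', one_mul] at h3
  linarith

/-- (B3) `exp (Re ∑_𝔭 χ(N𝔭) N𝔭^(-s)) ≤ C ‖LF‖`. -/
theorem exists_exp_re_primeIdealSumTw_le :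
    ∃ C : ℝ, ∀ s : ℝ, 1 < s → s ≤ 2 →
      Real.exp (primeIdealSumTw K χ s).re ≤ C * ‖LF χ K s‖ := by
  refine ⟨2 * Real.exp (Cheb.primeIdealSum K 2), fun s hs _ => ?_⟩
  have hsum := (summable_tw_prime K χ hs).hasSum
  have htend : Filter.Tendsto
      (fun S : Finset (HeightOneSpectrum (𝓞 K)) =>
        Real.exp (∑ 𝔭 ∈ S, tw χ s (absNorm 𝔭.asIdeal)).re) Filter.atTop
      (nhds (Real.exp (primeIdealSumTw K χ s).re)) :=
    (Real.continuous_exp.comp Complex.continuous_re).continuousAt.tendsto.comp hsum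
  refine le_of_tendsto_of_frequently htend ?_
  rw [Filter.frequently_atTop]
  intro S₀
  obtain ⟨S, hS₀, hS⟩ := exists_half_le_prod_mul K χ hs S₀
  exact ⟨S, hS₀, exp_re_sum_le K χ hs S hS⟩


open Classical in
theorem primeSumTw_eq_tsum_nat (s : ℝ) :
    primeSumTw χ K s =
      ∑' n : ℕ, (if n.Prime then (Cheb.idealCount K n : ℂ) * tw χ s n else 0) := by
  unfold primeSumTw
  have := tsum_subtype {n : ℕ | n.Prime} (fun n : ℕ => (Cheb.idealCount K n : ℂ) * tw χ s n)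
  refine Eq.trans ?_ (this.trans (tsum_congr fun n => ?_))
  · rfl
  · by_cases h : n.Prime
    · rw [Set.indicator_of_mem (by exact h), if_pos h]
    · rw [Set.indicator_of_notMem (by exact h), if_neg h]

theorem tsum_fiber_tw (s : ℝ) (n : ℕ) :
    ∑' x : {I : Ideal (𝓞 K) // Ideal.absNorm I = n}, tw χ s (Ideal.absNorm x.1) =
      (Cheb.idealCount K n : ℂ) * tw χ s n := by
  have := Fintype.ofFinite {I : Ideal (𝓞 K) // Ideal.absNorm I = n}
  rw [tsum_fintype, Finset.sum_congr rfl (fun x _ => by rw [x.2]), Finset.sum_const,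
    Finset.card_univ, nsmul_eq_mul, Cheb.idealCount, Nat.card_eq_fintype_card]

open Classical in
theorem tsum_ideal_prime_norm_tw {s : ℝ} (hs : 1 < s) :
    ∑' I : Ideal (𝓞 K), (if (Ideal.absNorm I).Prime then tw χ s (absNorm I) else 0)
      = primeSumTw χ K s := by
  have hsum : Summable (fun I : Ideal (𝓞 K) =>
      if (Ideal.absNorm I).Prime then tw χ s (absNorm I) else 0) := by
    refine Summable.of_norm_bounded (Cheb.summable_nrm K hs) (fun I => ?_)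
    split_ifs
    · exact norm_twI_le K χ s I
    · simpa using Cheb.nrm_nonneg K s I
  rw [← (Equiv.sigmaFiberEquiv (fun I : Ideal (𝓞 K) => Ideal.absNorm I)).summable_iff] at hsum
  rw [primeSumTw_eq_tsum_nat,
    ← (Equiv.sigmaFiberEquiv (fun I : Ideal (𝓞 K) => Ideal.absNorm I)).tsum_eq]
  refine (hsum.tsum_sigma).trans (tsum_congr fun n => ?_)
  by_cases h : n.Prime
  · rw [if_pos h, ← tsum_fiber_tw K χ s n]
    refine tsum_congr fun x => ?_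
    show (if (Ideal.absNorm x.1).Prime then tw χ s (absNorm x.1) else 0) = _
    rw [if_pos (by rw [x.2]; exact h)]
  · rw [if_neg h]
    refine (tsum_congr fun x => ?_).trans tsum_zero
    show (if (Ideal.absNorm x.1).Prime then tw χ s (absNorm x.1) else 0) = _
    rw [if_neg (by rw [x.2]; exact h)]

open Classical in
theorem tsum_prime_degOne_tw {s : ℝ} (hs : 1 < s) :
    ∑' 𝔭 : HeightOneSpectrum (𝓞 K),
      (if (Ideal.absNorm 𝔭.asIdeal).Prime then tw χ s (absNorm 𝔭.asIdeal) else 0)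
      = primeSumTw χ K s := by
  rw [← tsum_ideal_prime_norm_tw K χ hs]
  have hinj : Function.Injective (fun 𝔭 : HeightOneSpectrum (𝓞 K) => 𝔭.asIdeal) :=
    fun _ _ h => HeightOneSpectrum.ext h
  refine hinj.tsum_eq
    (f := fun I : Ideal (𝓞 K) => if (Ideal.absNorm I).Prime then tw χ s (absNorm I) else 0) ?_
  intro I hI
  have hp : (Ideal.absNorm I).Prime := by
    by_contra h
    rw [Function.mem_support, if_neg h] at hI
    exact hI rfl
  have hbot : I ≠ ⊥ := by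
    rintro rfl
    rw [Ideal.absNorm_bot] at hp
    exact Nat.not_prime_zero hp
  exact ⟨⟨I, Ideal.isPrime_of_irreducible_absNorm hp, hbot⟩, rfl⟩

open Classical in
theorem primeIdealSumTw_eq {s : ℝ} (hs : 1 < s) :
    primeIdealSumTw K χ s = primeSumTw χ K s +
      ∑' 𝔭 : HeightOneSpectrum (𝓞 K),
        (if (Ideal.absNorm 𝔭.asIdeal).Prime then 0 else tw χ s (absNorm 𝔭.asIdeal)) := by
  have h0 := Cheb.summable_nrm_prime K hs
  have h1 : Summable (fun 𝔭 : HeightOneSpectrum (𝓞 K) =>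
      if (Ideal.absNorm 𝔭.asIdeal).Prime then tw χ s (absNorm 𝔭.asIdeal) else 0) := by
    refine Summable.of_norm_bounded h0 (fun 𝔭 => ?_)
    split_ifs
    · exact norm_twI_le K χ s 𝔭.asIdeal
    · simpa using Cheb.nrm_nonneg K s 𝔭.asIdeal
  have h2 : Summable (fun 𝔭 : HeightOneSpectrum (𝓞 K) =>
      if (Ideal.absNorm 𝔭.asIdeal).Prime then 0 else tw χ s (absNorm 𝔭.asIdeal)) := by
    refine Summable.of_norm_bounded h0 (fun 𝔭 => ?_)
    split_ifs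
    · simpa using Cheb.nrm_nonneg K s 𝔭.asIdeal
    · exact norm_twI_le K χ s 𝔭.asIdeal
  rw [← tsum_prime_degOne_tw K χ hs, ← h1.tsum_add h2]
  refine tsum_congr fun 𝔭 => ?_
  split_ifs <;> simp

/-- (B4) primes of degree `≥ 2` contribute `O(1)` (as in `Cheb/ZetaLog.lean`). -/
theorem exists_norm_primeIdealSumTw_sub_le :
    ∃ C : ℝ, ∀ s : ℝ, 1 < s → s ≤ 2 → ‖primeIdealSumTw K χ s - primeSumTw χ K s‖ ≤ C := by
  classical
  refine ⟨Cheb.degTwoConst K, fun s hs _ => ?_⟩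
  rw [primeIdealSumTw_eq K χ hs, add_sub_cancel_left]
  have h0 := Cheb.summable_nrm_prime K hs
  have h2 : Summable (fun 𝔭 : HeightOneSpectrum (𝓞 K) =>
      if (Ideal.absNorm 𝔭.asIdeal).Prime then 0 else Cheb.nrm K s 𝔭.asIdeal) := by
    refine Summable.of_nonneg_of_le (fun 𝔭 => ?_) (fun 𝔭 => ?_) h0
    · split_ifs
      · exact le_rfl
      · exact Cheb.nrm_nonneg K s _
    · split_ifs
      · exact Cheb.nrm_nonneg K s _
      · exact le_rfl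
  refine le_trans (tsum_of_norm_bounded h2.hasSum (fun 𝔭 => ?_))
    (h2.tsum_le_of_sum_le (Cheb.sum_nonprime_le K hs))
  split_ifs
  · simp
  · exact norm_twI_le K χ s 𝔭.asIdeal

/-- (B) a bound for the twisted zeta function gives an upper bound for the real part of the
twisted prime sum. -/
theorem exists_re_primeSumTw_le (h : ∃ B : ℝ, ∀ s : ℝ, 1 < s → s ≤ 2 → ‖LF χ K s‖ ≤ B) :
    ∃ C : ℝ, ∀ s : ℝ, 1 < s → s ≤ 2 → (primeSumTw χ K s).re ≤ C := by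
  obtain ⟨B, hB⟩ := h
  obtain ⟨C₁, h₁⟩ := exists_exp_re_primeIdealSumTw_le K χ
  obtain ⟨C₂, h₂⟩ := exists_norm_primeIdealSumTw_sub_le K χ
  refine ⟨Real.log (|C₁| * B) + C₂, fun s hs hs2 => ?_⟩
  have e1 := h₁ s hs hs2
  have e2 := h₂ s hs hs2
  have e3 := hB s hs hs2
  have e4 : Real.exp (primeIdealSumTw K χ s).re ≤ |C₁| * B :=
    e1.trans (mul_le_mul (le_abs_self _) e3 (norm_nonneg _) (abs_nonneg _))
  have e5 : (primeIdealSumTw K χ s).re ≤ Real.log (|C₁| * B) := by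
    rw [← Real.log_exp (primeIdealSumTw K χ s).re]
    exact Real.log_le_log (Real.exp_pos _) e4
  have e6 : (primeSumTw χ K s - primeIdealSumTw K χ s).re ≤ C₂ := by
    refine (Complex.re_le_norm _).trans ?_
    rwa [norm_sub_rev]
  rw [Complex.sub_re] at e6
  linarith

end Fermat.Agent.TCheb
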