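import Fermat.Agent.TCheb.Abstract

/-!
# TCheb / Ortho  (WP [D1]): orthogonality of Dirichlet characters on a cyclic group of Frobenius
elements
-/

set_option autoImplicit false
set_option linter.unusedSectionVars false

open Subgroup

namespace Fermat.Agent.TCheb

namespace Ortho

/-- bounded on `(1, 2]` -/
def Bdd (f : ℝ → ℝ) : Prop := ∃ C : ℝ, ∀ s : ℝ, 1 < s → s ≤ 2 → |f s| ≤ C

lemma Bdd.add {f g : ℝ → ℝ} (hf : Bdd f) (hg : Bdd g) : Bdd (fun s => f s + g s) := by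
  obtain ⟨C, hC⟩ := hf
  obtain ⟨D, hD⟩ := hg
  exact ⟨C + D, fun s h1 h2 => (abs_add_le _ _).trans (add_le_add (hC s h1 h2) (hD s h1 h2))⟩

lemma Bdd.const_mul {f : ℝ → ℝ} (hf : Bdd f) (c : ℝ) : Bdd (fun s => c * f s) := by
  obtain ⟨C, hC⟩ := hf
  exact ⟨|c| * C, fun s h1 h2 => by
    rw [abs_mul]; exact mul_le_mul_of_nonneg_left (hC s h1 h2) (abs_nonneg _)⟩

lemma Bdd.congr {f g : ℝ → ℝ} (hf : Bdd f) (h : ∀ s, 1 < s → s ≤ 2 → g s = f s) : Bdd g := by
  obtain ⟨C, hC⟩ := hf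
  exact ⟨C, fun s h1 h2 => by rw [h s h1 h2]; exact hC s h1 h2⟩

lemma Bdd.sub {f g : ℝ → ℝ} (hf : Bdd f) (hg : Bdd g) : Bdd (fun s => f s - g s) :=
  (hf.add (hg.const_mul (-1))).congr fun s _ _ => by ring

lemma Bdd.sum {ι : Type*} (t : Finset ι) (f : ι → ℝ → ℝ) (h : ∀ i ∈ t, Bdd (f i)) :
    Bdd (fun s => ∑ i ∈ t, f i s) := by
  classical
  induction t using Finset.induction_on with
  | empty => exact ⟨0, fun s _ _ => by simp⟩
  | insert a t ha ih =>
    have h1 := (h a (Finset.mem_insert_self _ _)).add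
      (ih fun i hi => h i (Finset.mem_insert_of_mem hi))
    exact h1.congr fun s _ _ => Finset.sum_insert ha

lemma Bdd.of_sum_of_le {ι : Type*} (t : Finset ι) (f : ι → ℝ → ℝ)
    (hsum : Bdd (fun s => ∑ i ∈ t, f i s))
    (hle : ∀ i ∈ t, ∃ C : ℝ, ∀ s : ℝ, 1 < s → s ≤ 2 → f i s ≤ C) : ∀ i ∈ t, Bdd (f i) := by
  classical
  obtain ⟨C₀, hC₀⟩ := hsum
  choose! C hC using hle
  intro i hi
  refine ⟨max (C i) (C₀ + ∑ j ∈ t.erase i, C j), fun s h1 h2 => ?_⟩
  rw [abs_le]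
  constructor
  · have e : f i s = ∑ j ∈ t, f j s - ∑ j ∈ t.erase i, f j s := by
      rw [← Finset.add_sum_erase t _ hi]; ring
    have e1 : ∑ j ∈ t.erase i, f j s ≤ ∑ j ∈ t.erase i, C j :=
      Finset.sum_le_sum fun j hj => hC j (Finset.mem_of_mem_erase hj) s h1 h2
    have e2 := (abs_le.1 (hC₀ s h1 h2)).1
    have e3 := le_max_right (C i) (C₀ + ∑ j ∈ t.erase i, C j)
    rw [e]
    linarith
  · exact (hC i hi s h1 h2).trans (le_max_left _ _)

lemma abstract_step {X ι : Type*} [Fintype X] [DecidableEq ι] (U : Finset ι) (e t t' : ι)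
    (he : e ∈ U) (ht : t ∈ U) (ht' : t' ∈ U)
    (c : X → ι → ℝ) (A : ι → ℝ → ℝ) (L : ℝ → ℝ) (Φ : ℝ) (hΦ : 0 < Φ)
    (triv : X → Prop) [DecidablePred triv]
    (ha : ∀ u ∈ U, ∑ χ, c χ u = if u = e then Φ else 0)
    (hb : ∀ χ, triv χ → ∀ u ∈ U, c χ u = 1)
    (hc : ∀ u ∈ U, ∑ χ, c χ t * c χ u
      = Φ / 2 * ((if u = t then 1 else 0) + (if u = t' then 1 else 0)))
    (hd : ((Finset.univ.filter triv).card : ℝ) * U.card = Φ)
    (he1 : Bdd (fun s => A e s - L s))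
    (heU : Bdd (fun s => ∑ u ∈ U, A u s - U.card * L s))
    (hf : ∀ χ, ¬ triv χ → ∃ C : ℝ, ∀ s : ℝ, 1 < s → s ≤ 2 → ∑ u ∈ U, c χ u * A u s ≤ C) :
    Bdd (fun s => A t s + A t' s - 2 * L s) := by
  set R : X → ℝ → ℝ := fun χ s => ∑ u ∈ U, c χ u * A u s with hR
  set X₀ := Finset.univ.filter triv with hX₀
  set X₁ := Finset.univ.filter (fun χ => ¬ triv χ) with hX₁
  have hsplit : ∀ F : X → ℝ, ∑ χ, F χ = ∑ χ ∈ X₀, F χ + ∑ χ ∈ X₁, F χ := fun F =>
    (Finset.sum_filter_add_sum_filter_not _ _ _).symm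
  have h1 : ∀ χ ∈ X₀, ∀ s, R χ s = ∑ u ∈ U, A u s := by
    intro χ hχ s
    exact Finset.sum_congr rfl fun u hu => by rw [hb χ (Finset.mem_filter.1 hχ).2 u hu, one_mul]
  have h2 : ∀ s, ∑ χ, R χ s = Φ * A e s := by
    intro s
    rw [Finset.sum_comm]
    have : ∀ u ∈ U, ∑ χ, c χ u * A u s = if u = e then Φ * A e s else 0 := fun u hu => by
      rw [← Finset.sum_mul, ha u hu]
      split_ifs with h
      · rw [h]
      · rw [zero_mul]
    rw [Finset.sum_congr rfl this, Finset.sum_ite_eq' U e, if_pos he]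
  have h3 : Bdd (fun s => ∑ χ ∈ X₁, R χ s) := by
    have e : ∀ s, ∑ χ ∈ X₁, R χ s
        = Φ * (A e s - L s) - X₀.card * (∑ u ∈ U, A u s - U.card * L s) := by
      intro s
      have := hsplit (fun χ => R χ s)
      rw [h2, Finset.sum_congr rfl (fun χ hχ => h1 χ hχ s), Finset.sum_const, nsmul_eq_mul] at this
      linear_combination (-1) * this - L s * hd
    exact ((he1.const_mul Φ).sub (heU.const_mul _)).congr (fun s _ _ => e s)
  have h4 : ∀ χ ∈ X₁, Bdd (R χ) :=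
    Bdd.of_sum_of_le X₁ R h3 (fun χ hχ => hf χ (Finset.mem_filter.1 hχ).2)
  have h5 : ∀ s, ∑ χ, c χ t * R χ s = Φ / 2 * (A t s + A t' s) := by
    intro s
    simp only [hR, Finset.mul_sum]
    rw [Finset.sum_comm]
    have : ∀ u ∈ U, ∑ χ, c χ t * (c χ u * A u s)
        = (if u = t then Φ / 2 * A t s else 0) + (if u = t' then Φ / 2 * A t' s else 0) := by
      intro u hu
      have e : ∑ χ, c χ t * (c χ u * A u s) = (∑ χ, c χ t * c χ u) * A u s := by
        rw [Finset.sum_mul]; exact Finset.sum_congr rfl fun _ _ => by ring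
      have k1 : ∀ x : ι, Φ / 2 * (if u = x then (1 : ℝ) else 0) * A u s
          = if u = x then Φ / 2 * A x s else 0 := by
        intro x
        split_ifs with h
        · rw [h, mul_one]
        · rw [mul_zero, zero_mul]
      rw [e, hc u hu, mul_add, add_mul, k1, k1]
    rw [Finset.sum_congr rfl this, Finset.sum_add_distrib, Finset.sum_ite_eq' U t,
      Finset.sum_ite_eq' U t', if_pos ht, if_pos ht']
    ring
  have h6 : ∀ s, A t s + A t' s - 2 * L s = 2 / Φ * (X₀.card * (∑ u ∈ U, A u s - U.card * L s)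
      + ∑ χ ∈ X₁, c χ t * R χ s) := by
    intro s
    have := hsplit (fun χ => c χ t * R χ s)
    rw [h5, Finset.sum_congr rfl (fun χ hχ => by
      rw [hb χ (Finset.mem_filter.1 hχ).2 t ht, one_mul, h1 χ hχ s]), Finset.sum_const,
      nsmul_eq_mul] at this
    field_simp
    linear_combination 2 * this + 2 * L s * hd
  exact (((heU.const_mul _).add (Bdd.sum X₁ _ fun χ hχ => (h4 χ hχ).const_mul (c χ t))).const_mul
    (2 / Φ)).congr fun s _ _ => h6 s

section chars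

variable {G : Type*} [Group G] {q : ℕ} [NeZero q] (κ : G →* (ZMod q)ˣ)

/-- `χ (κ u)` -/
noncomputable def zz (χ : DirichletCharacter ℂ q) (u : G) : ℂ := χ ((κ u : (ZMod q)ˣ) : ZMod q)

lemma zz_mul (χ : DirichletCharacter ℂ q) (u w : G) : zz κ χ (u * w) = zz κ χ u * zz κ χ w := by
  unfold zz
  rw [map_mul, Units.val_mul, map_mul]

lemma zz_one (χ : DirichletCharacter ℂ q) : zz κ χ 1 = 1 := by
  unfold zz
  rw [map_one, Units.val_one, map_one]

lemma norm_zz (χ : DirichletCharacter ℂ q) (u : G) : ‖zz κ χ u‖ = 1 :=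
  DirichletCharacter.unit_norm_eq_one χ (κ u)

lemma zz_inv (χ : DirichletCharacter ℂ q) (u : G) :
    zz κ χ u⁻¹ = (starRingEnd ℂ) (zz κ χ u) := by
  have h0 : zz κ χ u ≠ 0 := by
    intro h
    have := norm_zz κ χ u
    rw [h, norm_zero] at this
    exact zero_ne_one this
  have h1 : zz κ χ u * zz κ χ u⁻¹ = 1 := by rw [← zz_mul, mul_inv_cancel, zz_one]
  have h2 : zz κ χ u * (starRingEnd ℂ) (zz κ χ u) = 1 := by
    rw [Complex.mul_conj, Complex.normSq_eq_norm_sq, norm_zz]; simp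
  exact mul_left_cancel₀ h0 (h1.trans h2.symm)

lemma re_mul_re (χ : DirichletCharacter ℂ q) (u w : G) :
    (zz κ χ u).re * (zz κ χ w).re = ((zz κ χ (u * w)).re + (zz κ χ (u * w⁻¹)).re) / 2 := by
  rw [zz_mul, zz_mul, zz_inv, Complex.mul_re, Complex.mul_re, Complex.conj_re, Complex.conj_im]
  ring

lemma sum_zz (u : G) :
    ∑ χ : DirichletCharacter ℂ q, zz κ χ u = if κ u = 1 then (q.totient : ℂ) else 0 := by
  have := DirichletCharacter.sum_characters_eq ℂ ((κ u : (ZMod q)ˣ) : ZMod q)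
  simp only [Units.val_eq_one] at this
  exact this

lemma sum_re_zz (u : G) :
    ∑ χ : DirichletCharacter ℂ q, (zz κ χ u).re = if κ u = 1 then (q.totient : ℝ) else 0 := by
  rw [← Complex.re_sum, sum_zz]
  split_ifs <;> simp

lemma sum_zz_subgroup [Fintype G] (H : Subgroup G) [DecidablePred (· ∈ H)]
    (χ : DirichletCharacter ℂ q) (h : ¬ ∀ u ∈ H, zz κ χ u = 1) :
    ∑ u ∈ Finset.univ.filter (· ∈ H), zz κ χ u = 0 := by
  push Not at h
  obtain ⟨u₀, hu₀, hne⟩ := h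
  refine eq_zero_of_mul_eq_self_left hne ?_
  rw [Finset.mul_sum]
  refine Finset.sum_nbij' (fun u => u₀ * u) (fun u => u₀⁻¹ * u) ?_ ?_ ?_ ?_ ?_
  · intro a ha
    rw [Finset.mem_filter] at ha ⊢
    exact ⟨Finset.mem_univ _, H.mul_mem hu₀ ha.2⟩
  · intro a ha
    rw [Finset.mem_filter] at ha ⊢
    exact ⟨Finset.mem_univ _, H.mul_mem (H.inv_mem hu₀) ha.2⟩
  · intro a _; simp
  · intro a _; simp
  · intro a _; rw [zz_mul]

lemma card_triv_mul_card [Fintype G] [DecidableEq G] (H : Subgroup G) [DecidablePred (· ∈ H)]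
    [DecidablePred fun χ : DirichletCharacter ℂ q => ∀ u ∈ H, zz κ χ u = 1]
    (hinj : ∀ u ∈ H, κ u = 1 → u = 1) :
    ((Finset.univ.filter fun χ : DirichletCharacter ℂ q => ∀ u ∈ H, zz κ χ u = 1).card : ℝ)
      * (Finset.univ.filter (· ∈ H)).card = q.totient := by
  have h1 : ∑ χ : DirichletCharacter ℂ q, ∑ u ∈ Finset.univ.filter (· ∈ H), zz κ χ u
      = q.totient := by
    rw [Finset.sum_comm]
    have : ∀ u ∈ Finset.univ.filter (· ∈ H), ∑ χ : DirichletCharacter ℂ q, zz κ χ u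
        = if u = 1 then (q.totient : ℂ) else 0 := by
      intro u hu
      rw [sum_zz]
      have : κ u = 1 ↔ u = 1 :=
        ⟨hinj u (Finset.mem_filter.1 hu).2, fun h => by rw [h, map_one]⟩
      simp only [this]
    rw [Finset.sum_congr rfl this, Finset.sum_ite_eq', if_pos]
    exact Finset.mem_filter.2 ⟨Finset.mem_univ _, H.one_mem⟩
  have h2 : ∀ χ : DirichletCharacter ℂ q, ∑ u ∈ Finset.univ.filter (· ∈ H), zz κ χ u
      = if (∀ u ∈ H, zz κ χ u = 1) then ((Finset.univ.filter (· ∈ H)).card : ℂ) else 0 := by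
    intro χ
    split_ifs with h
    · rw [Finset.sum_congr rfl fun u hu => h u (Finset.mem_filter.1 hu).2, Finset.sum_const,
        nsmul_eq_mul, mul_one]
    · exact sum_zz_subgroup κ H χ h
  rw [Finset.sum_congr rfl fun χ _ => h2 χ, ← Finset.sum_filter, Finset.sum_const,
    nsmul_eq_mul] at h1
  exact_mod_cast h1

end chars

section tsums

variable {G : Type*} [Group G] [Finite G] (φ : Nat.Primes → G) {q : ℕ} [NeZero q]
  (κ : G →* (ZMod q)ˣ)

lemma re_zz_mul_cnt (T : Finset ℕ)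
    (hκ : ∀ p : Nat.Primes, (p : ℕ) ∉ T → ((κ (φ p) : (ZMod q)ˣ) : ZMod q) = ((p : ℕ) : ZMod q))
    (χ : DirichletCharacter ℂ q) (p : Nat.Primes) (hp : (p : ℕ) ∉ T) (u : G) :
    (zz κ χ u).re * (cnt φ p {u} : ℝ) = (χ ((p : ℕ) : ZMod q)).re * (cnt φ p {u} : ℝ) := by
  by_cases h0 : cnt φ p {u} = 0
  · rw [h0]; simp
  · have hne : Nonempty {g : G // g * φ p * g⁻¹ ∈ ({u} : Set G)} := by
      by_contra hne
      rw [not_nonempty_iff] at hne
      exact h0 Nat.card_of_isEmpty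
    obtain ⟨g, hg⟩ := hne
    have hu : u = g * φ p * g⁻¹ := (Set.mem_singleton_iff.1 hg).symm
    have : κ u = κ (φ p) := by
      rw [hu, map_mul, map_mul, map_inv, mul_comm, inv_mul_cancel_left]
    unfold zz
    rw [this, hκ p hp]

lemma abs_re_zz_le (χ : DirichletCharacter ℂ q) (u : G) : |(zz κ χ u).re| ≤ 1 :=
  (Complex.abs_re_le_norm _).trans (norm_zz κ χ u).le

lemma sum_le_re_tsum (T : Finset ℕ)
    (hκ : ∀ p : Nat.Primes, (p : ℕ) ∉ T → ((κ (φ p) : (ZMod q)ˣ) : ZMod q) = ((p : ℕ) : ZMod q))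
    (U : Finset G) (χ : DirichletCharacter ℂ q) {s : ℝ} (hs : 1 < s) :
    ∑ u ∈ U, (zz κ χ u).re * Asum φ {u} s
      ≤ (∑' p : Nat.Primes, (cnt φ p (U : Set G) : ℂ) * tw χ s p).re
        + 2 * Nat.card G * T.card := by
  classical
  set w : Nat.Primes → ℝ := fun p => ((p : ℕ) : ℝ) ^ (-s) with hw
  have hw0 : ∀ p, 0 ≤ w p := fun p => Real.rpow_nonneg (Nat.cast_nonneg _) _
  have hw1 : ∀ p, w p ≤ 1 := fun p =>
    Real.rpow_le_one_of_one_le_of_nonpos (by exact_mod_cast p.2.one_lt.le) (by linarith)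
  set b : Nat.Primes → ℝ := fun p => (∑ u ∈ U, (zz κ χ u).re * (cnt φ p {u} : ℝ)) * w p with hb
  set a : Nat.Primes → ℝ := fun p => (cnt φ p (U : Set G) : ℝ) * (χ ((p : ℕ) : ZMod q)).re * w p
    with ha
  set T' : Finset Nat.Primes := T.subtype Nat.Prime with hT'
  set ε : Nat.Primes → ℝ := fun p => if p ∈ T' then 2 * (Nat.card G : ℝ) else 0 with hε
  have hsumU := summable_Asum φ (U : Set G) hs
  have hcntU : ∀ p, (cnt φ p (U : Set G) : ℝ) = ∑ u ∈ U, (cnt φ p {u} : ℝ) := fun p => by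
    rw [cnt_eq_sum]; push_cast; rfl
  have hcntle : ∀ p, (cnt φ p (U : Set G) : ℝ) ≤ Nat.card G := fun p => by
    exact_mod_cast cnt_le φ p _
  -- LHS
  have hL : ∑ u ∈ U, (zz κ χ u).re * Asum φ {u} s = ∑' p, b p := by
    have h1 : ∀ u ∈ U, Summable fun p : Nat.Primes =>
        (zz κ χ u).re * ((cnt φ p {u} : ℝ) * ((p : ℕ) : ℝ) ^ (-s)) :=
      fun u _ => (summable_Asum φ {u} hs).mul_left _
    have h2 : ∀ u ∈ U, (zz κ χ u).re * Asum φ {u} s
        = ∑' p : Nat.Primes, (zz κ χ u).re * ((cnt φ p {u} : ℝ) * ((p : ℕ) : ℝ) ^ (-s)) :=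
      fun u _ => by rw [Asum, tsum_mul_left]
    rw [Finset.sum_congr rfl h2, ← Summable.tsum_finsetSum h1]
    refine tsum_congr fun p => ?_
    rw [hb]
    simp only
    rw [Finset.sum_mul]
    exact Finset.sum_congr rfl fun u _ => by ring
  have hbsum : Summable b := by
    have h1 : ∀ u ∈ U, Summable fun p : Nat.Primes =>
        (zz κ χ u).re * ((cnt φ p {u} : ℝ) * ((p : ℕ) : ℝ) ^ (-s)) :=
      fun u _ => (summable_Asum φ {u} hs).mul_left _
    refine (summable_sum h1).congr fun p => ?_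
    rw [hb]
    simp only
    rw [Finset.sum_mul]
    exact Finset.sum_congr rfl fun u _ => by ring
  -- RHS
  have hcs : Summable fun p : Nat.Primes => (cnt φ p (U : Set G) : ℂ) * tw χ s p := by
    refine Summable.of_norm_bounded hsumU fun p => ?_
    rw [norm_mul, Complex.norm_natCast]
    exact mul_le_mul_of_nonneg_left (norm_tw_le χ s _) (Nat.cast_nonneg _)
  have hterm : ∀ p : Nat.Primes, ((cnt φ p (U : Set G) : ℂ) * tw χ s p).re = a p := by
    intro p
    rw [ha]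
    simp only [tw, Complex.mul_re, Complex.natCast_re, Complex.natCast_im, Complex.ofReal_re,
      Complex.ofReal_im, hw]
    ring
  have hR : (∑' p : Nat.Primes, (cnt φ p (U : Set G) : ℂ) * tw χ s p).re = ∑' p, a p := by
    rw [Complex.re_tsum hcs]
    exact tsum_congr hterm
  have hasum : Summable a := by
    have := (Complex.hasSum_re hcs.hasSum).summable
    exact this.congr fun p => (hterm p)
  have hεsum : Summable ε := summable_of_ne_finset_zero (s := T') fun p hp => if_neg hp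
  have hεval : ∑' p, ε p ≤ 2 * Nat.card G * T.card := by
    rw [tsum_eq_sum (s := T') fun p hp => if_neg hp,
      Finset.sum_congr rfl fun p hp => if_pos hp, Finset.sum_const, nsmul_eq_mul, mul_comm]
    refine mul_le_mul_of_nonneg_left ?_ (by positivity)
    have : T'.card ≤ T.card :=
      (Finset.card_subtype Nat.Prime T).le.trans (Finset.card_filter_le _ _)
    exact_mod_cast this
  have hpt : ∀ p, b p ≤ a p + ε p := by
    intro p
    by_cases hp : p ∈ T'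
    · have hb1 : b p ≤ Nat.card G := by
        have h1 : ∑ u ∈ U, (zz κ χ u).re * (cnt φ p {u} : ℝ) ≤ Nat.card G := by
          refine le_trans (Finset.sum_le_sum fun u _ => ?_) ((hcntU p).symm.le.trans (hcntle p))
          exact mul_le_of_le_one_left (Nat.cast_nonneg _) (abs_le.1 (abs_re_zz_le κ χ u)).2
        by_cases hneg : 0 ≤ ∑ u ∈ U, (zz κ χ u).re * (cnt φ p {u} : ℝ)
        · exact (mul_le_of_le_one_right hneg (hw1 p)).trans h1
        · exact (mul_nonpos_of_nonpos_of_nonneg (not_le.1 hneg).le (hw0 p)).trans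
            (Nat.cast_nonneg _)
      have ha1 : -(Nat.card G : ℝ) ≤ a p := by
        have h1 : |a p| ≤ Nat.card G := by
          rw [ha]
          simp only
          rw [abs_mul, abs_mul, abs_of_nonneg (hw0 p), abs_of_nonneg (Nat.cast_nonneg _)]
          have h2 : |(χ ((p : ℕ) : ZMod q)).re| ≤ 1 :=
            (Complex.abs_re_le_norm _).trans (χ.norm_le_one _)
          calc (cnt φ p (U : Set G) : ℝ) * |(χ ((p : ℕ) : ZMod q)).re| * w p
              ≤ (cnt φ p (U : Set G) : ℝ) * 1 * 1 := by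
                gcongr
                exact hw1 p
            _ ≤ Nat.card G := by rw [mul_one, mul_one]; exact hcntle p
        exact (abs_le.1 h1).1
      have : ε p = 2 * (Nat.card G : ℝ) := if_pos hp
      rw [this]
      linarith
    · have hp' : (p : ℕ) ∉ T := fun h => hp (Finset.mem_subtype.2 h)
      have : ε p = 0 := if_neg hp
      rw [this, add_zero]
      apply le_of_eq
      rw [hb, ha]
      simp only
      rw [Finset.sum_congr rfl fun u _ => re_zz_mul_cnt φ κ T hκ χ p hp' u, ← Finset.mul_sum,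
        ← hcntU, mul_comm (χ _).re]
  rw [hL, hR]
  calc ∑' p, b p ≤ ∑' p, (a p + ε p) := hbsum.tsum_le_tsum hpt (hasum.add hεsum)
    _ = ∑' p, a p + ∑' p, ε p := hasum.tsum_add hεsum
    _ ≤ _ := by gcongr

end tsums

end Ortho

variable {G : Type*} [Group G] [Finite G] (φ : Nat.Primes → G)

/-- (D1) **orthogonality step**.  `κ` is the cyclotomic character, injective on `⟨τ⟩`.
Write `A_u = Asum {u}`, `S_χ = ∑_p cnt_p(U) χ(p) p^(-s) = ∑_{u ∈ U} χ(κ u) A_u + O(1)`.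
* `∑_χ χ(κ u) conj χ(κ τ) = φ(q) 1[u = τ]` (`DirichletCharacter.sum_char_inv_mul_char_eq`);
* `#{χ : χ ∘ κ = 1 on U} * |U| = φ(q)` (double counting of `∑_χ ∑_{u ∈ U} χ(κ u)`);
* `∑_χ S_χ = φ(q) A_1 + O(1)`, `A_1 = log + O(1)`, `S_χ = |U| log + O(1)` for `χ ∘ κ = 1` on `U`, so
  `∑_{χ nontrivial} Re S_χ = O(1)`; with the upper bounds `hχ` each `Re S_χ` is `O(1)`;
* `φ(q) (A_τ + A_τ⁻¹) = ∑_χ 2 Re χ(κ τ) Re S_χ + O(1) = 2 φ(q) log + O(1)`. -/
theorem hasLog_add_inv {q : ℕ} [NeZero q] (κ : G →* (ZMod q)ˣ) (T : Finset ℕ)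
    (hκ : ∀ p : Nat.Primes, (p : ℕ) ∉ T → ((κ (φ p) : (ZMod q)ˣ) : ZMod q) = ((p : ℕ) : ZMod q))
    (τ : G) (hinj : ∀ u ∈ zpowers τ, κ u = 1 → u = 1)
    (h1 : HasLog (Asum φ {1}) 1)
    (hU : HasLog (Asum φ (zpowers τ : Set G)) (Nat.card (zpowers τ)))
    (hχ : ∀ χ : DirichletCharacter ℂ q, (∃ u ∈ zpowers τ, χ ((κ u : (ZMod q)ˣ) : ZMod q) ≠ 1) →
      ∃ C : ℝ, ∀ s : ℝ, 1 < s → s ≤ 2 →
        (∑' p : Nat.Primes, (cnt φ p (zpowers τ : Set G) : ℂ) * tw χ s p).re ≤ C) :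
    HasLog (fun s => Asum φ {τ} s + Asum φ {τ⁻¹} s) 2 := by
  classical
  have := Fintype.ofFinite G
  set U : Finset G := Finset.univ.filter (· ∈ zpowers τ) with hUdef
  have hmem : ∀ u, u ∈ U ↔ u ∈ zpowers τ := fun u => by simp [hUdef]
  have hcoe : (U : Set G) = (zpowers τ : Set G) := by ext u; simp [hUdef]
  have hcard : Nat.card (zpowers τ) = U.card := by
    rw [Nat.card_eq_fintype_card, Fintype.card_subtype]
  have hκ1 : ∀ u ∈ zpowers τ, (κ u = 1 ↔ u = 1) := fun u hu =>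
    ⟨hinj u hu, fun h => by rw [h, map_one]⟩
  have hτ : τ ∈ zpowers τ := mem_zpowers τ
  have hΦ : (0 : ℝ) < (q.totient : ℝ) := by
    exact_mod_cast Nat.totient_pos.2 (Nat.pos_of_ne_zero (NeZero.ne q))
  change Ortho.Bdd (fun s => Asum φ {τ} s + Asum φ {τ⁻¹} s - 2 * Real.log (1 / (s - 1)))
  refine Ortho.abstract_step (X := DirichletCharacter ℂ q) U 1 τ τ⁻¹
    ((hmem _).2 (one_mem _)) ((hmem _).2 hτ) ((hmem _).2 (inv_mem hτ))
    (fun χ u => (Ortho.zz κ χ u).re) (fun u s => Asum φ {u} s)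
    (fun s => Real.log (1 / (s - 1))) (q.totient : ℝ) hΦ
    (fun χ => ∀ u ∈ zpowers τ, Ortho.zz κ χ u = 1) ?_ ?_ ?_ ?_ ?_ ?_ ?_
  · intro u hu
    rw [Ortho.sum_re_zz]
    simp only [hκ1 u ((hmem u).1 hu)]
  · intro χ h u hu
    simp only [h u ((hmem u).1 hu), Complex.one_re]
  · intro u hu
    have hu' := (hmem u).1 hu
    simp only [Ortho.re_mul_re]
    rw [← Finset.sum_div, Finset.sum_add_distrib, Ortho.sum_re_zz, Ortho.sum_re_zz]
    have e1 : κ (τ * u) = 1 ↔ u = τ⁻¹ := by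
      rw [hκ1 _ (mul_mem hτ hu'), mul_eq_one_iff_eq_inv', eq_comm]
    have e2 : κ (τ * u⁻¹) = 1 ↔ u = τ := by
      rw [hκ1 _ (mul_mem hτ (inv_mem hu')), mul_inv_eq_one, eq_comm]
    simp only [e1, e2]
    split_ifs <;> ring
  · exact Ortho.card_triv_mul_card κ (zpowers τ) hinj
  · obtain ⟨C, hC⟩ := h1
    exact ⟨C, fun s hs1 hs2 => by simpa using hC s hs1 hs2⟩
  · obtain ⟨C, hC⟩ := hU
    refine ⟨C, fun s hs1 hs2 => ?_⟩
    have := hC s hs1 hs2
    rw [← hcoe, Asum_eq_sum φ U hs1, hcard] at this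
    exact this
  · intro χ hχ'
    push Not at hχ'
    obtain ⟨C, hC⟩ := hχ χ hχ'
    refine ⟨C + 2 * Nat.card G * T.card, fun s hs1 hs2 => ?_⟩
    have h2 := Ortho.sum_le_re_tsum φ κ T hκ U χ hs1
    rw [hcoe] at h2
    exact h2.trans (add_le_add_left (hC s hs1 hs2) _)

end Fermat.Agent.TCheb
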