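import Fermat.Agent.TCheb.CycloB
import Fermat.Agent.TCheb.Ortho
import Fermat.Agent.TCheb.Bound
import Fermat.Agent.TCheb.EulerTw

/-!
# TCheb / Cyclo  (WP [F4]): the "cyclotomic case": elements on whose cyclic group the
cyclotomic character is injective
-/

set_option autoImplicit false

open NumberField Module Ideal Subgroup

namespace Fermat.Agent.TCheb

variable {L : Type*} [Field L] [NumberField L] [IsGalois ℚ L]

/-- (F4) **the cyclotomic case of (inverse-symmetric) Chebotarev**.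
(`hasLog_add_inv` with `κ = hζ.autToPow ℚ`; `hasLog_Asum_subgroup` for `⊥` and `zpowers τ`;
`exists_bound_LF`, `exists_re_primeSumTw_le`, `exists_norm_tsum_cnt_tw_sub_le`,
`exists_ideal_chi_ne_one`.) -/
theorem hasLog_of_injOn_autToPow {q : ℕ} [NeZero q] {ζ : L} (hζ : IsPrimitiveRoot ζ q)
    (τ : L ≃ₐ[ℚ] L) (hinj : ∀ u ∈ zpowers τ, hζ.autToPow ℚ u = 1 → u = 1) :
    HasLog (fun s => Asum (frobSys L) {τ} s + Asum (frobSys L) {τ⁻¹} s) 2 := by
  refine hasLog_add_inv (frobSys L) (hζ.autToPow ℚ) q.divisors ?_ τ hinj ?_ ?_ ?_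
  · intro p hp
    refine autToPow_frobSys hζ p fun hpq => hp ?_
    exact Nat.mem_divisors.mpr ⟨hpq, NeZero.ne q⟩
  · have h := hasLog_Asum_subgroup L (⊥ : Subgroup (L ≃ₐ[ℚ] L))
    rw [Subgroup.coe_bot, Nat.card_eq_one_iff_unique.mpr ⟨inferInstance, inferInstance⟩] at h
    simpa using h
  · exact hasLog_Asum_subgroup L (zpowers τ)
  · intro χ hχ
    obtain ⟨C₁, hC₁⟩ := exists_re_primeSumTw_le (Cheb.fixF L (zpowers τ)) χ
      (exists_bound_LF (Cheb.fixF L (zpowers τ)) χ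
        fun M hM => exists_ideal_chi_ne_one hζ χ (zpowers τ) hχ M hM)
    obtain ⟨C₂, hC₂⟩ := exists_norm_tsum_cnt_tw_sub_le L χ (zpowers τ)
    refine ⟨C₂ + (Nat.card (zpowers τ) : ℝ) * C₁, fun s hs hs2 => ?_⟩
    set X : ℂ := ∑' p : Nat.Primes,
      (cnt (frobSys L) p (zpowers τ : Set (L ≃ₐ[ℚ] L)) : ℂ) * tw χ s p with hX
    set Y : ℂ := primeSumTw χ (Cheb.fixF L (zpowers τ)) s with hY
    have h1 : (X - (Nat.card (zpowers τ) : ℂ) * Y).re ≤ C₂ :=
      (Complex.re_le_norm _).trans (hC₂ s hs hs2)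
    have h2 : Y.re ≤ C₁ := hC₁ s hs hs2
    have h3 : ((Nat.card (zpowers τ) : ℂ) * Y).re = (Nat.card (zpowers τ) : ℝ) * Y.re := by
      simp
    rw [Complex.sub_re, h3] at h1
    have h4 : (Nat.card (zpowers τ) : ℝ) * Y.re ≤ (Nat.card (zpowers τ) : ℝ) * C₁ :=
      mul_le_mul_of_nonneg_left h2 (Nat.cast_nonneg _)
    linarith

end Fermat.Agent.TCheb
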