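import Fermat.Agent.Cheb.Main

/-!
# TCheb / FrobSys  (WP [C]): Frobenius elements over rational primes, counting formula
-/

set_option autoImplicit false
set_option linter.unusedSectionVars false

open NumberField Module Ideal
open scoped Pointwise

namespace Fermat.Agent.TCheb

variable (L : Type*) [Field L] [NumberField L] [IsGalois ℚ L]

/-- `σ` is an arithmetic Frobenius at some prime of `L` above the rational prime `p`. -/
def IsFrobOver (p : ℕ) (σ : L ≃ₐ[ℚ] L) : Prop :=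
  ∃ Q : Ideal (𝓞 L), Q.IsPrime ∧ (p : 𝓞 L) ∈ Q ∧ IsArithFrobAt ℤ σ Q

open Classical in
/-- a choice of Frobenius element over `p`. -/
noncomputable def frobElt (p : ℕ) : L ≃ₐ[ℚ] L :=
  if h : ∃ σ, IsFrobOver L p σ then h.choose else 1

variable {L}

namespace FrobSys

omit [IsGalois ℚ L] in
theorem liesOver_of_mem {p : ℕ} (hp : p.Prime) (Q : Ideal (𝓞 L)) [hQ : Q.IsPrime]
    (hpQ : (p : 𝓞 L) ∈ Q) : Q.LiesOver (span {(p : ℤ)}) := by
  refine ⟨?_⟩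
  have hmax : (span {(p : ℤ)}).IsMaximal :=
    (Cheb.isPrime_span_natCast hp).isMaximal (by simpa using hp.ne_zero)
  refine hmax.eq_of_le (hQ.under ℤ).ne_top ?_
  rw [span_singleton_le_iff_mem, mem_comap]
  simpa using hpQ

omit [IsGalois ℚ L] in
theorem mem_of_liesOver {p : ℕ} (Q : Ideal (𝓞 L)) [h : Q.LiesOver (span {(p : ℤ)})] :
    (p : 𝓞 L) ∈ Q := by
  have h1 : (p : ℤ) ∈ Q.under ℤ := by
    rw [← h.over]; exact Ideal.mem_span_singleton_self _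
  simpa [Ideal.under_def] using h1

omit [IsGalois ℚ L] in
theorem card_quot_under {p : ℕ} (hp : p.Prime) (Q : Ideal (𝓞 L)) [hQ : Q.IsPrime]
    (hpQ : (p : 𝓞 L) ∈ Q) : Nat.card (ℤ ⧸ Q.under ℤ) = p := by
  have := liesOver_of_mem hp Q hpQ
  rw [← this.over, Nat.card_congr (Int.quotientSpanEquivZMod (p : ℤ)).toEquiv, Int.natAbs_natCast,
    Nat.card_zmod]

omit [IsGalois ℚ L] in
theorem ne_bot_of_mem {p : ℕ} (hp : p.Prime) (Q : Ideal (𝓞 L)) (hpQ : (p : 𝓞 L) ∈ Q) : Q ≠ ⊥ := by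
  rintro rfl
  rw [Ideal.mem_bot] at hpQ
  exact hp.ne_zero (by exact_mod_cast hpQ)

end FrobSys

open FrobSys

/-- (C0) -/
theorem isFrobOver_frobElt {p : ℕ} (hp : p.Prime) : IsFrobOver L p (frobElt L p) := by
  have hex : ∃ σ, IsFrobOver L p σ := by
    have hpl := Cheb.isPrime_span_natCast hp
    obtain ⟨⟨Q, hQ1, hQ2⟩⟩ :=
      (inferInstance : Nonempty (Ideal.primesOver (Ideal.span {(p : ℤ)}) (𝓞 L)))
    have hpQ : (p : 𝓞 L) ∈ Q := mem_of_liesOver Q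
    obtain ⟨φ, hφ⟩ := Cheb.exists_isArithFrobAt Q (ne_bot_of_mem hp Q hpQ)
    exact ⟨φ, Q, hQ1, hpQ, hφ⟩
  rw [frobElt, dif_pos hex]
  exact hex.choose_spec

/-- conjugates of Frobenius elements are Frobenius elements. -/
theorem IsFrobOver.conj {p : ℕ} {σ : L ≃ₐ[ℚ] L} (hσ : IsFrobOver L p σ) (g : L ≃ₐ[ℚ] L) :
    IsFrobOver L p (g * σ * g⁻¹) := by
  open scoped Pointwise in
  obtain ⟨Q, hQ, hpQ, h⟩ := hσ
  refine ⟨g • Q, inferInstance, ?_, h.conj g⟩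
  have := Ideal.smul_mem_pointwise_smul g _ Q hpQ
  have h1 : g • (p : 𝓞 L) = p := map_natCast (MulSemiringAction.toRingHom _ (𝓞 L) g) p
  rwa [h1] at this

/-- (C4) at an unramified prime all Frobenius elements are conjugate.
(`Algebra.IsInvariant.exists_smul_of_under_eq`, `IsArithFrobAt.conj`,
`AlgHom.IsArithFrobAt.eq_of_isUnramifiedAt`, `Cheb.isUnramifiedAt_of_not_dvd_discr`.) -/
theorem isConj_of_isFrobOver {p : ℕ} (hp : p.Prime) (hunr : ¬ (p : ℤ) ∣ discr L)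
    {σ τ : L ≃ₐ[ℚ] L} (hσ : IsFrobOver L p σ) (hτ : IsFrobOver L p τ) : IsConj σ τ := by
  open scoped Pointwise in
  obtain ⟨Q, hQ, hpQ, h⟩ := hσ
  obtain ⟨Q', hQ', hpQ', h'⟩ := hτ
  have h1 := liesOver_of_mem hp Q hpQ
  have h2 := liesOver_of_mem hp Q' hpQ'
  obtain ⟨g, rfl⟩ := Algebra.IsInvariant.exists_smul_of_under_eq ℤ (𝓞 L) (L ≃ₐ[ℚ] L) Q Q'
    (h1.over.symm.trans h2.over)
  have h3 := h.conj g
  have hur := Cheb.isUnramifiedAt_of_not_dvd_discr hp hunr (g • Q) hpQ'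
  have h4 := AlgHom.IsArithFrobAt.eq_of_isUnramifiedAt h3 h' (by
    intro x hx
    exact mem_nonZeroDivisors_of_ne_zero (fun h0 => hx (h0 ▸ zero_mem _)))
  rw [isConj_iff]
  refine ⟨g, ?_⟩
  have hf : FaithfulSMul (L ≃ₐ[ℚ] L) (𝓞 L) := (inferInstance : IsGaloisGroup (L ≃ₐ[ℚ] L) ℤ (𝓞 L)).faithful
  apply hf.eq_of_smul_eq_smul
  intro x
  exact DFunLike.congr_fun h4 x

/-- (C2) action on roots of unity. (`AlgHom.IsArithFrobAt.apply_of_pow_eq_one`) -/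
theorem IsFrobOver.apply_of_pow_eq_one {p : ℕ} (hp : p.Prime) {σ : L ≃ₐ[ℚ] L}
    (hσ : IsFrobOver L p σ) {q : ℕ} (hpq : ¬ p ∣ q) {ζ : L} (hζ : ζ ^ q = 1) : σ ζ = ζ ^ p := by
  obtain ⟨Q, hQ, hpQ, h⟩ := hσ
  have hq0 : q ≠ 0 := by
    rintro rfl
    exact hpq (dvd_zero p)
  have hint : IsIntegral ℤ ζ :=
    ⟨Polynomial.X ^ q - 1, Polynomial.monic_X_pow_sub_C 1 hq0, by simp [hζ]⟩
  let ζ' : 𝓞 L := ⟨ζ, hint⟩
  have hζ' : ζ' ^ q = 1 := by
    apply FaithfulSMul.algebraMap_injective (𝓞 L) L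
    rw [map_pow, map_one]
    exact hζ
  have hqQ : (q : 𝓞 L) ∉ Q := by
    intro hq
    have hcop : Nat.Coprime p q := (Nat.Prime.coprime_iff_not_dvd hp).mpr hpq
    obtain ⟨a, b, hab⟩ := Nat.isCoprime_iff_coprime.mpr hcop
    have h7 : (1 : 𝓞 L) = (a : 𝓞 L) * (p : 𝓞 L) + (b : 𝓞 L) * (q : 𝓞 L) := by
      have := congrArg (Int.cast : ℤ → 𝓞 L) hab
      push_cast at this
      exact this.symm
    exact hQ.ne_top ((Ideal.eq_top_iff_one _).mpr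
      (h7 ▸ add_mem (Ideal.mul_mem_left _ _ hpQ) (Ideal.mul_mem_left _ _ hq)))
  have h1 := AlgHom.IsArithFrobAt.apply_of_pow_eq_one h hζ' hqQ
  rw [card_quot_under hp Q hpQ] at h1
  have h2 := congrArg (algebraMap (𝓞 L) L) h1
  rw [map_pow] at h2
  exact h2

/-- (C3) restriction to a Galois subfield. -/
theorem IsFrobOver.restrict {L' : Type*} [Field L'] [NumberField L'] [IsGalois ℚ L']
    [Algebra L L'] {p : ℕ} {σ : L' ≃ₐ[ℚ] L'} (hσ : IsFrobOver L' p σ) :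
    IsFrobOver L p (AlgEquiv.restrictNormalHom L σ) := by
  obtain ⟨Q, hQ, hpQ, h⟩ := hσ
  refine ⟨Q.under (𝓞 L), inferInstance, ?_, fun x => ?_⟩
  · rw [Ideal.under_def, Ideal.mem_comap, map_natCast]
    exact hpQ
  · rw [Ideal.under_under, Ideal.under_def, Ideal.mem_comap, map_sub, map_pow]
    have h1 := h (algebraMap (𝓞 L) (𝓞 L') x)
    have h2 : algebraMap (𝓞 L) (𝓞 L')
        ((MulSemiringAction.toAlgHom ℤ (𝓞 L) (AlgEquiv.restrictNormalHom L σ)) x) =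
        (MulSemiringAction.toAlgHom ℤ (𝓞 L') σ) (algebraMap (𝓞 L) (𝓞 L') x) := by
      apply FaithfulSMul.algebraMap_injective (𝓞 L') L'
      exact AlgEquiv.restrictNormal_commutes σ L (x : L)
    rw [h2]
    exact h1

/-- (C5) a Frobenius element lying in `U` gives a prime of degree one of the fixed field.
(`Cheb.stabilizer_le_iff`, `Cheb.inertiaDeg_eq_one_iff`, `Cheb.zpowers_eq_stabilizer`.) -/
theorem exists_ideal_absNorm_eq {p : ℕ} (hp : p.Prime) (hunr : ¬ (p : ℤ) ∣ discr L)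
    (U : Subgroup (L ≃ₐ[ℚ] L)) {σ : L ≃ₐ[ℚ] L} (hσ : IsFrobOver L p σ) (hU : σ ∈ U) :
    ∃ 𝔞 : Ideal (𝓞 (Cheb.fixF L U)), absNorm 𝔞 = p := by
  obtain ⟨Q, hQ, hpQ, h⟩ := hσ
  have h1 := liesOver_of_mem hp Q hpQ
  have hur := Cheb.isUnramifiedAt_of_not_dvd_discr hp hunr Q hpQ
  have h2 : MulAction.stabilizer (L ≃ₐ[ℚ] L) Q ≤ U := by
    rw [← Cheb.zpowers_eq_stabilizer Q hur σ h, Subgroup.zpowers_le]
    exact hU
  rw [Cheb.stabilizer_le_iff U hp Q (Ideal.ramificationIdx_eq_one_iff.2 hur)] at h2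
  have h3 : (Q.under (𝓞 (Cheb.fixF L U))).LiesOver (span {(p : ℤ)}) :=
    LiesOver.tower_bot Q _ _
  exact ⟨_, (Cheb.inertiaDeg_eq_one_iff hp _).mp h2⟩

/-- (C1) **counting formula**: `|U| c_{L^U}(p) = #{g : g Frob_p g⁻¹ ∈ U}`.
(`Cheb.card_mul_idealCount`, `Cheb.zpowers_eq_stabilizer`, orbit-stabiliser for
`g ↦ g • Q₀` onto `primesOver`, `MulAction.stabilizer_smul_eq_stabilizer_map_conj`.) -/
theorem card_mul_idealCount_eq {p : ℕ} (hp : p.Prime) (hunr : ¬ (p : ℤ) ∣ discr L)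
    (U : Subgroup (L ≃ₐ[ℚ] L)) :
    Nat.card U * Cheb.idealCount (Cheb.fixF L U) p =
      Nat.card {g : L ≃ₐ[ℚ] L // g * frobElt L p * g⁻¹ ∈ U} := by
  classical
  rw [Cheb.card_mul_idealCount U hp (Cheb.ramificationIdxIn_eq_one_of_not_dvd_discr hp hunr)]
  obtain ⟨Q₀, hQ₀, hpQ₀, hφ⟩ := isFrobOver_frobElt (L := L) hp
  set φ := frobElt L p with hφdef
  have hpl := Cheb.isPrime_span_natCast hp
  have hlo := liesOver_of_mem hp Q₀ hpQ₀
  have hur := Cheb.isUnramifiedAt_of_not_dvd_discr hp hunr Q₀ hpQ₀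
  have hstab := Cheb.zpowers_eq_stabilizer Q₀ hur φ hφ
  have hcard : Nat.card (MulAction.stabilizer (L ≃ₐ[ℚ] L) Q₀) =
      (span {(p : ℤ)}).inertiaDegIn (𝓞 L) := by
    rw [Cheb.card_stabilizer_of_isUnramifiedAt Q₀ hur,
      Ideal.inertiaDegIn_eq_inertiaDeg (span {(p : ℤ)}) Q₀ (L ≃ₐ[ℚ] L)]
  have hiff : ∀ g : L ≃ₐ[ℚ] L,
      MulAction.stabilizer (L ≃ₐ[ℚ] L) (g • Q₀) ≤ U ↔ g * φ * g⁻¹ ∈ U := by
    intro g
    rw [MulAction.stabilizer_smul_eq_stabilizer_map_conj, ← hstab, MonoidHom.map_zpowers,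
      Subgroup.zpowers_le]
    rfl
  have hlo' : ∀ g : L ≃ₐ[ℚ] L, (g • Q₀).LiesOver (span {(p : ℤ)}) := fun g => inferInstance
  have hfinX : Finite (primesOver (span {(p : ℤ)}) (𝓞 L)) :=
    Algebra.QuasiFinite.finite_primesOver _
  have := Fintype.ofFinite
    {Q : primesOver (span {(p : ℤ)}) (𝓞 L) // MulAction.stabilizer Gal(L/ℚ) Q.1 ≤ U}
  let π : {g : L ≃ₐ[ℚ] L // g * φ * g⁻¹ ∈ U} →
      {Q : primesOver (span {(p : ℤ)}) (𝓞 L) // MulAction.stabilizer Gal(L/ℚ) Q.1 ≤ U} :=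
    fun g => ⟨⟨g.1 • Q₀, inferInstance, hlo' g.1⟩, (hiff g.1).mpr g.2⟩
  have hfib : ∀ y, Nat.card {x // π x = y} = (span {(p : ℤ)}).inertiaDegIn (𝓞 L) := by
    intro y
    have hy1 := y.1.2.1
    have hy2 := y.1.2.2
    obtain ⟨g₀, hg₀⟩ := Algebra.IsInvariant.exists_smul_of_under_eq ℤ (𝓞 L) (L ≃ₐ[ℚ] L) Q₀ y.1.1
      (hlo.over.symm.trans hy2.over)
    rw [← hcard]
    refine Nat.card_congr
      { toFun := fun x => ⟨g₀⁻¹ * x.1.1, ?_⟩
        invFun := fun h => ⟨⟨g₀ * h.1, ?_⟩, ?_⟩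
        left_inv := fun x => ?_
        right_inv := fun h => ?_ }
    · rw [MulAction.mem_stabilizer_iff, mul_smul, inv_smul_eq_iff, ← hg₀]
      exact congrArg (fun z => z.1.1) x.2
    · rw [← hiff, mul_smul, h.2, ← hg₀]
      exact y.2
    · apply Subtype.ext
      apply Subtype.ext
      show (g₀ * h.1) • Q₀ = y.1.1
      rw [mul_smul, h.2, ← hg₀]
    · apply Subtype.ext
      apply Subtype.ext
      simp
    · apply Subtype.ext
      simp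
  have hsum : Nat.card {g : L ≃ₐ[ℚ] L // g * φ * g⁻¹ ∈ U} = ∑ y, Nat.card {x // π x = y} := by
    rw [← Nat.card_sigma]
    exact Nat.card_congr (Equiv.sigmaFiberEquiv π).symm
  rw [hsum, Finset.sum_congr rfl (fun y _ => hfib y), Finset.sum_const, Finset.card_univ,
    smul_eq_mul, mul_comm, Nat.card_eq_fintype_card]

end Fermat.Agent.TCheb
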