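import Fermat.Agent.TCheb.Abstract
import Fermat.Agent.TCheb.FrobSys

/-!
# TCheb / CycloA  (WP [F1F2]): the Frobenius system of a Galois number field, prime sums
-/

set_option autoImplicit false

open NumberField Module Ideal Subgroup

namespace Fermat.Agent.TCheb

/-- two weighted sums whose coefficients agree outside a finite set differ by `O(1)`. -/
theorem norm_tsum_mul_sub_le {𝕜 : Type*} [NormedField 𝕜] {ι : Type*} {a b w : ι → 𝕜}
    (B : Finset ι) (h : ∀ p, p ∉ B → a p = b p) (hw : ∀ p, ‖w p‖ ≤ 1)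
    (ha : Summable fun p => a p * w p) (hb : Summable fun p => b p * w p) :
    ‖∑' p, a p * w p - ∑' p, b p * w p‖ ≤ ∑ p ∈ B, ‖a p - b p‖ := by
  rw [← ha.tsum_sub hb, tsum_eq_sum (s := B) (fun p hp => by rw [h p hp, sub_self])]
  refine (norm_sum_le _ _).trans (Finset.sum_le_sum fun p _ => ?_)
  rw [← sub_mul, norm_mul]
  exact mul_le_of_le_one_right (norm_nonneg _) (hw p)

variable (L : Type*) [Field L] [NumberField L] [IsGalois ℚ L]

/-- the Frobenius system of `L`. -/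
noncomputable def frobSys : Nat.Primes → (L ≃ₐ[ℚ] L) := fun p => frobElt L p

/-- the (finite) set of ramified primes -/
noncomputable def ramPrimes : Finset Nat.Primes :=
  ((Cheb.finite_dvd_discr L).preimage (f := fun p : Nat.Primes => (p : ℕ))
    Subtype.val_injective.injOn).toFinset

theorem not_dvd_discr_of_notMem_ramPrimes {p : Nat.Primes} (hp : p ∉ ramPrimes L) :
    ¬ (((p : ℕ) : ℤ) ∣ discr L) := by
  intro h
  apply hp
  simp only [ramPrimes, Set.Finite.mem_toFinset, Set.mem_preimage, Set.mem_ofPred_eq]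
  exact h

theorem cnt_frobSys_eq (U : Subgroup (L ≃ₐ[ℚ] L)) {p : Nat.Primes} (hp : p ∉ ramPrimes L) :
    cnt (frobSys L) p (U : Set (L ≃ₐ[ℚ] L)) = Nat.card U * Cheb.idealCount (Cheb.fixF L U) p :=
  (card_mul_idealCount_eq p.2 (not_dvd_discr_of_notMem_ramPrimes L hp) U).symm

theorem rpow_neg_le_one_of_prime (p : Nat.Primes) {s : ℝ} (hs : 1 < s) :
    ((p : ℕ) : ℝ) ^ (-s) ≤ 1 :=
  Real.rpow_le_one_of_one_le_of_nonpos (by exact_mod_cast p.2.one_lt.le) (by linarith)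

/-- (F1) Frobenius density for subgroups. (`card_mul_idealCount_eq`, `Cheb.primeSum_asymp` for
`Cheb.fixF L U`, `Cheb.finite_dvd_discr`: the ramified primes contribute `O(1)`.) -/
theorem hasLog_Asum_subgroup (U : Subgroup (L ≃ₐ[ℚ] L)) :
    HasLog (Asum (frobSys L) (U : Set (L ≃ₐ[ℚ] L))) (Nat.card U) := by
  obtain ⟨C, hC⟩ := Cheb.primeSum_asymp (Cheb.fixF L U)
  refine ⟨∑ p ∈ ramPrimes L, ‖(cnt (frobSys L) p (U : Set (L ≃ₐ[ℚ] L)) : ℝ) -
    (Nat.card U : ℝ) * (Cheb.idealCount (Cheb.fixF L U) p : ℝ)‖ + Nat.card U * C,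
    fun s hs hs2 => ?_⟩
  have h1 := norm_tsum_mul_sub_le (𝕜 := ℝ)
    (a := fun p : Nat.Primes => (cnt (frobSys L) p (U : Set (L ≃ₐ[ℚ] L)) : ℝ))
    (b := fun p : Nat.Primes => (Nat.card U : ℝ) * (Cheb.idealCount (Cheb.fixF L U) p : ℝ))
    (w := fun p : Nat.Primes => ((p : ℕ) : ℝ) ^ (-s)) (ramPrimes L)
    (fun p hp => by
      show (cnt (frobSys L) p (U : Set (L ≃ₐ[ℚ] L)) : ℝ) = _
      rw [cnt_frobSys_eq L U hp]; push_cast; ring)
    (fun p => by
      rw [Real.norm_of_nonneg (Real.rpow_nonneg (Nat.cast_nonneg _) _)]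
      exact rpow_neg_le_one_of_prime p hs)
    (summable_Asum _ _ hs)
    (by
      have := (Cheb.summable_primeSum (Cheb.fixF L U) hs).mul_left (Nat.card U : ℝ)
      simpa only [mul_assoc] using this)
  have h2 : ∑' p : Nat.Primes, (Nat.card U : ℝ) * (Cheb.idealCount (Cheb.fixF L U) p : ℝ) *
      ((p : ℕ) : ℝ) ^ (-s) = Nat.card U * Cheb.primeSum (Cheb.fixF L U) s := by
    unfold Cheb.primeSum
    rw [← tsum_mul_left]
    simp only [mul_assoc]
  rw [h2, Real.norm_eq_abs] at h1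
  have h3 := hC s hs hs2
  have h4 : |(Nat.card U : ℝ) * Cheb.primeSum (Cheb.fixF L U) s -
      (Nat.card U : ℝ) * Real.log (1 / (s - 1))| ≤ Nat.card U * C := by
    rw [← mul_sub, abs_mul, Nat.abs_cast]
    exact mul_le_mul_of_nonneg_left h3 (Nat.cast_nonneg _)
  calc |Asum (frobSys L) (U : Set (L ≃ₐ[ℚ] L)) s - (Nat.card U : ℝ) * Real.log (1 / (s - 1))|
      = |(Asum (frobSys L) (U : Set (L ≃ₐ[ℚ] L)) s -
          (Nat.card U : ℝ) * Cheb.primeSum (Cheb.fixF L U) s) +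
          ((Nat.card U : ℝ) * Cheb.primeSum (Cheb.fixF L U) s -
          (Nat.card U : ℝ) * Real.log (1 / (s - 1)))| := by ring_nf
    _ ≤ _ := (abs_add_le _ _).trans (add_le_add h1 h4)

/-- (F2) the twisted version of the counting formula. -/
theorem exists_norm_tsum_cnt_tw_sub_le {q : ℕ} (χ : DirichletCharacter ℂ q)
    (U : Subgroup (L ≃ₐ[ℚ] L)) :
    ∃ C : ℝ, ∀ s : ℝ, 1 < s → s ≤ 2 →
      ‖∑' p : Nat.Primes, (cnt (frobSys L) p (U : Set (L ≃ₐ[ℚ] L)) : ℂ) * tw χ s p -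
        (Nat.card U : ℂ) * primeSumTw χ (Cheb.fixF L U) s‖ ≤ C := by
  refine ⟨∑ p ∈ ramPrimes L, ‖(cnt (frobSys L) p (U : Set (L ≃ₐ[ℚ] L)) : ℂ) -
    (Nat.card U : ℂ) * (Cheb.idealCount (Cheb.fixF L U) p : ℂ)‖, fun s hs _ => ?_⟩
  have hsum1 : Summable fun p : Nat.Primes =>
      (cnt (frobSys L) p (U : Set (L ≃ₐ[ℚ] L)) : ℂ) * tw χ s p := by
    refine Summable.of_norm_bounded (summable_Asum (frobSys L) (U : Set (L ≃ₐ[ℚ] L)) hs)
      fun p => ?_
    rw [norm_mul, Complex.norm_natCast]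
    exact mul_le_mul_of_nonneg_left (norm_tw_le χ s _) (Nat.cast_nonneg _)
  have hsum2 : Summable fun p : Nat.Primes =>
      (Cheb.idealCount (Cheb.fixF L U) p : ℂ) * tw χ s p := by
    refine Summable.of_norm_bounded (Cheb.summable_primeSum (Cheb.fixF L U) hs) fun p => ?_
    rw [norm_mul, Complex.norm_natCast]
    exact mul_le_mul_of_nonneg_left (norm_tw_le χ s _) (Nat.cast_nonneg _)
  have h1 := norm_tsum_mul_sub_le (𝕜 := ℂ)
    (a := fun p : Nat.Primes => (cnt (frobSys L) p (U : Set (L ≃ₐ[ℚ] L)) : ℂ))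
    (b := fun p : Nat.Primes => (Nat.card U : ℂ) * (Cheb.idealCount (Cheb.fixF L U) p : ℂ))
    (w := fun p : Nat.Primes => tw χ s p) (ramPrimes L)
    (fun p hp => by
      show (cnt (frobSys L) p (U : Set (L ≃ₐ[ℚ] L)) : ℂ) = _
      rw [cnt_frobSys_eq L U hp]; push_cast; ring)
    (fun p => (norm_tw_le χ s _).trans (rpow_neg_le_one_of_prime p hs))
    hsum1
    (by
      have := hsum2.mul_left (Nat.card U : ℂ)
      simpa only [mul_assoc] using this)
  have h2 : ∑' p : Nat.Primes, (Nat.card U : ℂ) * (Cheb.idealCount (Cheb.fixF L U) p : ℂ) *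
      tw χ s p = Nat.card U * primeSumTw χ (Cheb.fixF L U) s := by
    unfold primeSumTw
    rw [← tsum_mul_left]
    simp only [mul_assoc]
  rw [h2] at h1
  exact h1

end Fermat.Agent.TCheb
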