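import Fermat.Agent.TCheb.CycloA

/-!
# TCheb / CycloB  (WP [F0F3]): cyclotomic character on Frobenius elements, non-triviality
-/

set_option autoImplicit false

open NumberField Module Ideal Subgroup

namespace Fermat.Agent.TCheb

variable (L : Type*) [Field L] [NumberField L] [IsGalois ℚ L]

variable {L}

/-- the cyclotomic character of a Frobenius element over `p`. -/
theorem autToPow_of_isFrobOver {q : ℕ} [NeZero q] {ζ : L} (hζ : IsPrimitiveRoot ζ q) {p : ℕ}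
    (hp : p.Prime) (hpq : ¬ p ∣ q) {σ : L ≃ₐ[ℚ] L} (hσ : IsFrobOver L p σ) :
    ((hζ.autToPow ℚ σ : (ZMod q)ˣ) : ZMod q) = (p : ZMod q) := by
  have h1 : σ ζ = ζ ^ p := hσ.apply_of_pow_eq_one hp hpq hζ.pow_eq_one
  have h2 := hζ.autToPow_spec ℚ σ
  rw [h1] at h2
  have h3 : ((hζ.autToPow ℚ σ : (ZMod q)ˣ) : ZMod q).val = p % q :=
    hζ.pow_inj (ZMod.val_lt _) (Nat.mod_lt _ (NeZero.pos q))
      (by rw [h2, pow_eq_pow_mod p hζ.pow_eq_one])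
  rw [← ZMod.natCast_zmod_val ((hζ.autToPow ℚ σ : (ZMod q)ˣ) : ZMod q), h3, ZMod.natCast_mod]

/-- (F0) the cyclotomic character on Frobenius elements. -/
theorem autToPow_frobSys {q : ℕ} [NeZero q] {ζ : L} (hζ : IsPrimitiveRoot ζ q) (p : Nat.Primes)
    (hpq : ¬ (p : ℕ) ∣ q) :
    ((hζ.autToPow ℚ (frobSys L p) : (ZMod q)ˣ) : ZMod q) = ((p : ℕ) : ZMod q) :=
  autToPow_of_isFrobOver hζ p.2 hpq (isFrobOver_frobElt p.2)

/-- (F3) non-triviality of `χ ∘ N` on the ideals of the fixed field, from generator-Chebotarev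
(`Cheb.exists_frob_generator` with `T` = primes dividing `M * q * discr L`,
`exists_ideal_absNorm_eq`, `IsFrobOver.apply_of_pow_eq_one`). -/
theorem exists_ideal_chi_ne_one {q : ℕ} [NeZero q] {ζ : L} (hζ : IsPrimitiveRoot ζ q)
    (χ : DirichletCharacter ℂ q) (U : Subgroup (L ≃ₐ[ℚ] L))
    (h : ∃ u ∈ U, χ ((hζ.autToPow ℚ u : (ZMod q)ˣ) : ZMod q) ≠ 1) (M : ℕ) (hM : M ≠ 0) :
    ∃ 𝔞 : Ideal (𝓞 (Cheb.fixF L U)), (absNorm 𝔞).Coprime M ∧ χ (absNorm 𝔞 : ZMod q) ≠ 1 := by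
  obtain ⟨u, huU, hu⟩ := h
  have hD : (discr L).natAbs ≠ 0 := Int.natAbs_ne_zero.mpr (discr_ne_zero L)
  have hprod : M * q * (discr L).natAbs ≠ 0 := mul_ne_zero (mul_ne_zero hM (NeZero.ne q)) hD
  obtain ⟨ℓ, Q, hQ, τ, hℓ, hℓT, hℓQ, -, hfrob, hzp⟩ :=
    Cheb.exists_frob_generator u (M * q * (discr L).natAbs).primeFactors
  have hndvd : ¬ ℓ ∣ M * q * (discr L).natAbs := fun hd =>
    hℓT (Nat.mem_primeFactors.mpr ⟨hℓ, hd, hprod⟩)
  have hℓM : ¬ ℓ ∣ M := fun hd => hndvd (Dvd.dvd.mul_right (Dvd.dvd.mul_right hd _) _)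
  have hℓq : ¬ ℓ ∣ q := fun hd => hndvd (Dvd.dvd.mul_right (Dvd.dvd.mul_left hd _) _)
  have hℓD : ¬ (ℓ : ℤ) ∣ discr L := fun hd =>
    hndvd (Dvd.dvd.mul_left (Int.natCast_dvd.mp hd) _)
  have hτ : IsFrobOver L ℓ τ := ⟨Q, hQ, hℓQ, hfrob⟩
  have hτU : τ ∈ U := by
    have h1 : τ ∈ Subgroup.zpowers u := hzp ▸ Subgroup.mem_zpowers τ
    exact (Subgroup.zpowers_le.mpr huU) h1
  obtain ⟨k, hk⟩ : u ∈ Subgroup.zpowers τ := hzp ▸ Subgroup.mem_zpowers u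
  obtain ⟨𝔞, h𝔞⟩ := exists_ideal_absNorm_eq hℓ hℓD U hτ hτU
  refine ⟨𝔞, ?_, ?_⟩
  · rw [h𝔞]
    exact (Nat.Prime.coprime_iff_not_dvd hℓ).mpr hℓM
  · rw [h𝔞, ← autToPow_of_isFrobOver hζ hℓ hℓq hτ]
    intro h1
    apply hu
    have h2 : (MulChar.toUnitHom χ).comp (hζ.autToPow ℚ) τ = 1 := by
      apply Units.ext
      rw [MonoidHom.comp_apply, MulChar.coe_toUnitHom, h1, Units.val_one]
    have h3 : (MulChar.toUnitHom χ).comp (hζ.autToPow ℚ) u = 1 := by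
      rw [← hk]
      show (MulChar.toUnitHom χ).comp (hζ.autToPow ℚ) (τ ^ k) = 1
      rw [map_zpow, h2, one_zpow]
    have h4 := congrArg Units.val h3
    rwa [MonoidHom.comp_apply, MulChar.coe_toUnitHom, Units.val_one] at h4

end Fermat.Agent.TCheb
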