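import Fermat.Agent.TCheb.Kernel

/-!
# TCheb / NormSign  (WP [NS]): sign of the norm, congruences for the norm
-/

set_option autoImplicit false

open NumberField NumberField.mixedEmbedding NumberField.InfinitePlace Module

open scoped Classical

namespace Fermat.Agent.TCheb

variable (K : Type*) [Field K] [NumberField K]

/-- the product of the conjugates of `x` lying over one infinite place. -/
theorem prod_filter_mk_eq (x : K) (w : InfinitePlace K) :
    ∏ φ ∈ (Finset.univ.filter fun φ : K →+* ℂ => mk φ = w), φ x =
      if hw : IsReal w then ((embedding_of_isReal hw x : ℝ) : ℂ)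
      else ((Complex.normSq (embedding w x) : ℝ) : ℂ) := by
  have hset : (Finset.univ.filter fun φ : K →+* ℂ => mk φ = w) =
      {embedding w} ∪ {ComplexEmbedding.conjugate (embedding w)} := by
    ext φ
    simp only [Finset.mem_filter, Finset.mem_univ, true_and, Finset.mem_union,
      Finset.mem_singleton]
    conv_lhs => rw [← mk_embedding w, mk_eq_iff]
    constructor
    · rintro (h | h)
      · exact Or.inl h
      · right
        rw [← h]
        ext y
        simp [ComplexEmbedding.conjugate]
    · rintro (h | h)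
      · exact Or.inl h
      · right
        rw [h]
        ext y
        simp [ComplexEmbedding.conjugate]
  rw [hset]
  split_ifs with hw
  · rw [ComplexEmbedding.isReal_iff.mp (isReal_iff.mp hw), Finset.union_idempotent,
      Finset.prod_singleton, embedding_of_isReal_apply]
  · have hne : embedding w ≠ ComplexEmbedding.conjugate (embedding w) := by
      rwa [Ne, eq_comm, ← ComplexEmbedding.isReal_iff, ← isReal_iff]
    rw [← Finset.insert_eq, Finset.prod_pair hne, ComplexEmbedding.conjugate_coe_eq,
      Complex.mul_conj]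

/-- the norm as a product over the infinite places. -/
theorem norm_eq_prod_places (x : K) :
    ((Algebra.norm ℚ x : ℚ) : ℝ) =
      (∏ w : {w : InfinitePlace K // IsReal w}, embedding_of_isReal w.2 x) *
        ∏ w : {w : InfinitePlace K // IsComplex w}, Complex.normSq (embedding w.1 x) := by
  have h1 : ((Algebra.norm ℚ x : ℚ) : ℂ) = ∏ φ : K →+* ℂ, φ x := by
    have := Algebra.norm_eq_prod_embeddings ℚ ℂ x
    rw [eq_ratCast] at this
    rw [this, ← Fintype.prod_equiv (RingHom.equivRatAlgHom K ℂ) (fun f => f x)
      (fun φ => φ x) fun _ => by simp [RingHom.equivRatAlgHom_apply]]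
  rw [← Finset.prod_fiberwise Finset.univ mk (fun φ => φ x)] at h1
  simp_rw [prod_filter_mk_eq] at h1
  rw [prod_eq_prod_mul_prod] at h1
  have h2 : ∀ w : {w : InfinitePlace K // IsReal w},
      (if hw : IsReal w.1 then ((embedding_of_isReal hw x : ℝ) : ℂ)
        else ((Complex.normSq (embedding w.1 x) : ℝ) : ℂ)) =
        ((embedding_of_isReal w.2 x : ℝ) : ℂ) := fun w => dif_pos w.2
  have h3 : ∀ w : {w : InfinitePlace K // IsComplex w},
      (if hw : IsReal w.1 then ((embedding_of_isReal hw x : ℝ) : ℂ)
        else ((Complex.normSq (embedding w.1 x) : ℝ) : ℂ)) =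
        ((Complex.normSq (embedding w.1 x) : ℝ) : ℂ) :=
    fun w => dif_neg (not_isReal_iff_isComplex.mpr w.2)
  simp_rw [h2, h3] at h1
  have h4 : (((Algebra.norm ℚ x : ℚ) : ℝ) : ℂ) =
      (((∏ w : {w : InfinitePlace K // IsReal w}, embedding_of_isReal w.2 x) *
        ∏ w : {w : InfinitePlace K // IsComplex w}, Complex.normSq (embedding w.1 x) : ℝ) : ℂ) := by
    push_cast
    exact h1
  exact_mod_cast h4

/-- (NS1) the sign of the norm is the product of the signs at the real places.
Proof: `Algebra.norm_eq_prod_embeddings ℚ ℂ`, group the embeddings by infinite place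
(as in the proof of `InfinitePlace.prod_eq_abs_norm`); a complex place contributes
`φ x * conj (φ x) > 0`. -/
theorem sign_norm_eq_sgn {x : K} (hx : x ≠ 0) :
    SignType.sign (Algebra.norm ℚ x) = sgn K (mixedEmbedding K x) := by
  have h0 : SignType.sign (Algebra.norm ℚ x) = SignType.sign ((Algebra.norm ℚ x : ℚ) : ℝ) := by
    rcases lt_trichotomy (Algebra.norm ℚ x) 0 with h | h | h
    · rw [sign_neg h, sign_neg (by exact_mod_cast h)]
    · rw [h]; simp
    · rw [sign_pos h, sign_pos (by exact_mod_cast h)]
  have hpos : 0 < ∏ w : {w : InfinitePlace K // IsComplex w},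
      Complex.normSq (embedding w.1 x) :=
    Finset.prod_pos fun w _ => Complex.normSq_pos.mpr (by simpa using hx)
  rw [h0, norm_eq_prod_places, sign_mul, sign_pos hpos, mul_one, sgn]
  rw [← signHom_apply, map_prod]
  refine Finset.prod_congr rfl fun w _ => ?_
  rw [mixedEmbedding_apply_isReal]

/-- (NS2) congruent integers have congruent norms.
Proof: `Algebra.norm_eq_matrix_det` for an integral basis, reduce the matrices mod `M`
(`RingHom.map_det`, `Int.castRingHom (ZMod _)`), or expand `norm (b + M c)`. -/
theorem dvd_norm_sub_norm (M : ℤ) {a b : 𝓞 K} (h : a - b ∈ Ideal.span {(M : 𝓞 K)}) :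
    M ∣ Algebra.norm ℤ a - Algebra.norm ℤ b := by
  obtain ⟨c, hc⟩ := Ideal.mem_span_singleton'.mp h
  have ha : a = b + M • c := by
    rw [zsmul_eq_mul, mul_comm, hc]; ring
  let B := RingOfIntegers.basis K
  rw [Algebra.norm_eq_matrix_det B, Algebra.norm_eq_matrix_det B]
  let φ : ℤ →+* ℤ ⧸ Ideal.span {M} := Ideal.Quotient.mk _
  rw [← Ideal.mem_span_singleton, ← Ideal.Quotient.eq]
  change φ _ = φ _
  rw [RingHom.map_det, RingHom.map_det]
  congr 1
  have hM : φ M = 0 := Ideal.Quotient.eq_zero_iff_mem.mpr (Ideal.mem_span_singleton_self M)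
  rw [ha, map_add, map_zsmul]
  ext i j
  rw [RingHom.mapMatrix_apply, RingHom.mapMatrix_apply, Matrix.map_apply, Matrix.map_apply,
    Matrix.add_apply, Matrix.smul_apply, map_add, smul_eq_mul, map_mul, hM, zero_mul, add_zero]

end Fermat.Agent.TCheb
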