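import Mathlib

/-!
# TCheb / Reps  (WP [CR]): coset representatives of `J / 𝔞 J` inside `M 𝓞`
-/

set_option autoImplicit false

open NumberField Module Ideal

namespace Fermat.Agent.TCheb

/-- abstract form: representatives of `J / I` with a property `P`. -/
theorem exists_reps_aux {O : Type*} [CommRing O] (I J : Ideal O) (hle : I ≤ J) (P : O → Prop)
    (n : ℕ) (hn0 : n ≠ 0)
    (hidx : (Submodule.toAddSubgroup I).relIndex (Submodule.toAddSubgroup J) = n)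
    (hP : ∀ y ∈ J, ∃ z ∈ J, P z ∧ y - z ∈ I) :
    ∃ (R : Finset O) (e : (R × ↥I) ≃ ↥J), R.card = n ∧ (∀ ρ ∈ R, P ρ) ∧
      ∀ p : R × ↥I, ((e p : ↥J) : O) = (p.1 : O) + (p.2 : O) := by
  classical
  let Hs : AddSubgroup O := Submodule.toAddSubgroup I
  let Ks : AddSubgroup O := Submodule.toAddSubgroup J
  let Q := ↥Ks ⧸ Hs.addSubgroupOf Ks
  have hQcard : Nat.card Q = n := hidx
  have : Finite Q := Nat.finite_of_card_ne_zero (by rw [hQcard]; exact hn0)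
  have : Fintype Q := Fintype.ofFinite Q
  have hrep : ∀ c : Q, ∃ y : ↥Ks, (QuotientAddGroup.mk y : Q) = c ∧ P (y : O) := by
    intro c
    obtain ⟨y, rfl⟩ := QuotientAddGroup.mk_surjective c
    obtain ⟨z, hzJ, hPz, hyz⟩ := hP y y.2
    refine ⟨⟨z, hzJ⟩, ?_, hPz⟩
    rw [QuotientAddGroup.eq]
    show -z + (y : O) ∈ I
    rw [neg_add_eq_sub]
    exact hyz
  choose s hs1 hs2 using hrep
  have hsinj : Function.Injective (fun c : Q => ((s c : ↥Ks) : O)) := by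
    intro c c' h
    rw [← hs1 c, ← hs1 c']
    congr 1
    exact Subtype.ext h
  let R : Finset O := Finset.univ.image (fun c : Q => ((s c : ↥Ks) : O))
  have hRJ : ∀ ρ ∈ R, ρ ∈ J := by
    intro ρ hρ
    obtain ⟨c, -, rfl⟩ := Finset.mem_image.1 hρ
    exact (s c).2
  have hRcls : ∀ ρ ρ' : R, (ρ : O) - (ρ' : O) ∈ I → ρ = ρ' := by
    rintro ⟨ρ, hρ⟩ ⟨ρ', hρ'⟩ h
    obtain ⟨c, -, rfl⟩ := Finset.mem_image.1 hρ
    obtain ⟨c', -, rfl⟩ := Finset.mem_image.1 hρ'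
    have : c' = c := by
      rw [← hs1 c, ← hs1 c', QuotientAddGroup.eq]
      show -((s c' : ↥Ks) : O) + ((s c : ↥Ks) : O) ∈ I
      rw [neg_add_eq_sub]
      exact h
    subst this
    rfl
  let f : (R × ↥I) → ↥J := fun p =>
    ⟨(p.1 : O) + (p.2 : O), J.add_mem (hRJ _ p.1.2) (hle p.2.2)⟩
  have hf : Function.Bijective f := by
    constructor
    · rintro ⟨ρ, x⟩ ⟨ρ', x'⟩ h
      have h1 : (ρ : O) + (x : O) = (ρ' : O) + (x' : O) := congrArg Subtype.val h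
      have h2 : ρ = ρ' := by
        apply hRcls
        have : (ρ : O) - (ρ' : O) = (x' : O) - (x : O) := by
          linear_combination h1
        rw [this]
        exact I.sub_mem x'.2 x.2
      subst h2
      have h3 : x = x' := Subtype.ext (add_left_cancel h1)
      rw [h3]
    · intro y
      let c : Q := QuotientAddGroup.mk (⟨(y : O), y.2⟩ : ↥Ks)
      have hc : (y : O) - ((s c : ↥Ks) : O) ∈ I := by
        have := hs1 c
        rw [QuotientAddGroup.eq] at this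
        have h' : -((s c : ↥Ks) : O) + (y : O) ∈ I := this
        rwa [neg_add_eq_sub] at h'
      refine ⟨(⟨((s c : ↥Ks) : O), Finset.mem_image.2 ⟨c, Finset.mem_univ _, rfl⟩⟩, ⟨_, hc⟩), ?_⟩
      apply Subtype.ext
      show ((s c : ↥Ks) : O) + ((y : O) - ((s c : ↥Ks) : O)) = (y : O)
      ring
  refine ⟨R, Equiv.ofBijective f hf, ?_, ?_, fun p => rfl⟩
  · rw [Finset.card_image_of_injective _ hsinj, Finset.card_univ, ← Nat.card_eq_fintype_card,
      hQcard]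
  · intro ρ hρ
    obtain ⟨c, -, rfl⟩ := Finset.mem_image.1 hρ
    exact hs2 c

variable {K : Type*} [Field K] [NumberField K]

theorem relIndex_mul_eq_absNorm {J 𝔞 : Ideal (𝓞 K)} (hJ : J ≠ ⊥) :
    (Submodule.toAddSubgroup (𝔞 * J)).relIndex (Submodule.toAddSubgroup J) = absNorm 𝔞 := by
  have hJ0 : absNorm J ≠ 0 := by
    rw [Ne, Ideal.absNorm_eq_zero_iff]
    exact hJ
  have hle : Submodule.toAddSubgroup (𝔞 * J) ≤ Submodule.toAddSubgroup J :=
    fun x hx => Ideal.mul_le_right hx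
  have h1 := AddSubgroup.relIndex_mul_index hle
  have h2 : (Submodule.toAddSubgroup J).index = absNorm J := by
    rw [Ideal.absNorm_apply, Submodule.cardQuot_apply]
    rfl
  have h3 : (Submodule.toAddSubgroup (𝔞 * J)).index = absNorm (𝔞 * J) := by
    rw [Ideal.absNorm_apply, Submodule.cardQuot_apply]
    rfl
  rw [h2, h3, map_mul] at h1
  exact Nat.eq_of_mul_eq_mul_right (Nat.pos_of_ne_zero hJ0) h1

/-- (CR) if `N 𝔞` is prime to `M`, then `J = 𝔞 J + M J`, so `J / 𝔞 J` (of cardinality `N 𝔞`) has a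
system of representatives divisible by `M`. -/
theorem exists_reps {J 𝔞 : Ideal (𝓞 K)} (hJ : J ≠ ⊥) (h𝔞 : 𝔞 ≠ ⊥) (M : ℕ)
    (hco : (absNorm 𝔞).Coprime M) :
    ∃ (R : Finset (𝓞 K)) (e : (R × ↥(𝔞 * J)) ≃ ↥J), R.card = absNorm 𝔞 ∧
      (∀ ρ ∈ R, ρ ∈ Ideal.span {(M : 𝓞 K)}) ∧
      ∀ p : R × ↥(𝔞 * J), ((e p : ↥J) : 𝓞 K) = (p.1 : 𝓞 K) + (p.2 : 𝓞 K) := by
  have hn0 : absNorm 𝔞 ≠ 0 := by
    rw [Ne, Ideal.absNorm_eq_zero_iff]
    exact h𝔞
  refine exists_reps_aux (𝔞 * J) J Ideal.mul_le_right (fun ρ => ρ ∈ Ideal.span {(M : 𝓞 K)})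
    (absNorm 𝔞) hn0 (relIndex_mul_eq_absNorm hJ) ?_
  intro y hy
  set n := absNorm 𝔞 with hn
  have hb : (n : ℤ) * Nat.gcdA n M + M * Nat.gcdB n M = 1 := by
    have h := Nat.gcd_eq_gcd_ab n M
    rw [Nat.Coprime.gcd_eq_one hco] at h
    push_cast at h
    linarith
  have hb' : (n : 𝓞 K) * ((Nat.gcdA n M : ℤ) : 𝓞 K) + (M : 𝓞 K) * ((Nat.gcdB n M : ℤ) : 𝓞 K)
      = 1 := by
    have := congrArg (fun z : ℤ => (z : 𝓞 K)) hb
    push_cast at this
    exact this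
  refine ⟨(M : 𝓞 K) * ((Nat.gcdB n M : ℤ) : 𝓞 K) * y, J.mul_mem_left _ hy, ?_, ?_⟩
  · show _ ∈ Ideal.span {(M : 𝓞 K)}
    rw [Ideal.mem_span_singleton]
    exact ⟨_, mul_assoc _ _ _⟩
  · have h1 : y - (M : 𝓞 K) * ((Nat.gcdB n M : ℤ) : 𝓞 K) * y =
        ((n : 𝓞 K) * ((Nat.gcdA n M : ℤ) : 𝓞 K)) * y := by
      linear_combination (-y) * hb'
    rw [h1]
    exact Ideal.mul_mem_mul (𝔞.mul_mem_right _ (Ideal.absNorm_mem 𝔞)) hy

end Fermat.Agent.TCheb
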