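import Fermat.Agent.TCheb.Unfold
import Fermat.Agent.TCheb.ClassSum
import Fermat.Agent.TCheb.Reps
import Fermat.Agent.TCheb.NormSign

/-!
# TCheb / Equidist  (WPs [PT], [AE]): equidistribution of the multiples of `𝔞` in a class
-/

set_option autoImplicit false

open NumberField NumberField.mixedEmbedding NumberField.Units Module Ideal

open scoped Classical nonZeroDivisors

namespace Fermat.Agent.TCheb

variable (K : Type*) [Field K] [NumberField K]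

variable {m : ℕ} (χ : DirichletCharacter ℂ m)

/-- the periodic coefficient: `χ(e) χ(N γ / N J)`. -/
noncomputable def cf (J : Ideal (𝓞 K)) (γ : 𝓞 K) (e : SignType) : ℂ :=
  χ (((e : ℤ) : ZMod m)) * χ (((Algebra.norm ℤ γ / (absNorm J : ℤ) : ℤ) : ZMod m))

/-- the summand attached to a lattice point. -/
noncomputable def bt (J : Ideal (𝓞 K)) (s : ℝ) (γ : 𝓞 K) : ℂ :=
  ∑ e : SignType, cf K χ J γ e * (ker K e s (emb K γ) : ℂ)

theorem norm_cf_le (J : Ideal (𝓞 K)) (γ : 𝓞 K) (e : SignType) : ‖cf K χ J γ e‖ ≤ 1 := by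
  unfold cf
  rw [norm_mul]
  exact mul_le_one₀ (χ.norm_le_one _) (norm_nonneg _) (χ.norm_le_one _)

theorem bt_eq (J : Ideal (𝓞 K)) (s : ℝ) (γ : 𝓞 K) :
    bt K χ J s γ = cf K χ J γ (sgn K (emb K γ)) *
      ((wt K (emb K γ) * (mixedEmbedding.norm (emb K γ)) ^ (-s) : ℝ) : ℂ) := by
  unfold bt
  rw [Finset.sum_eq_single (sgn K (emb K γ))]
  · simp [ker]
  · intro e _ he
    simp [ker, Ne.symm he]
  · intro h
    exact absurd (Finset.mem_univ _) h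

theorem wt_mul_tw_eq {J : Ideal (𝓞 K)} (hJ : J ≠ ⊥) {s : ℝ} (hs : 0 < s) {γ : 𝓞 K} (hγ : γ ∈ J) :
    (wt K (emb K γ) : ℂ) * tw χ s (absNorm (Ideal.span {γ}) / absNorm J) =
      (((absNorm J : ℝ) ^ s : ℝ) : ℂ) * bt K χ J s γ := by
  rw [bt_eq]
  have hNJ : absNorm J ≠ 0 := by
    rw [Ne, Ideal.absNorm_eq_zero_iff]; exact hJ
  rcases eq_or_ne γ 0 with rfl | h0
  · have h1 : mixedEmbedding.norm (emb K (0 : 𝓞 K)) = 0 := by
      simp [emb]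
    rw [h1, Real.zero_rpow (by linarith)]
    have h2 : absNorm (Ideal.span {(0 : 𝓞 K)}) = 0 := by simp
    rw [h2, Nat.zero_div, tw_zero χ hs]
    simp
  · set N : ℤ := Algebra.norm ℤ γ with hN
    have hN0 : N ≠ 0 := by
      rw [hN, Ne, Algebra.norm_eq_zero_iff]; exact h0
    have hnorm : mixedEmbedding.norm (emb K γ) = ((N.natAbs : ℕ) : ℝ) := by
      rw [emb, mixedEmbedding.norm_eq_norm, ← Algebra.coe_norm_int, ← hN]
      rw [Nat.cast_natAbs]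
      push_cast
      rfl
    have hsgn : sgn K (emb K γ) = SignType.sign N := by
      rw [emb, ← sign_norm_eq_sgn K (by exact_mod_cast h0 : (γ : K) ≠ 0), ← Algebra.coe_norm_int,
        ← hN]
      exact sign_intCast N
    obtain ⟨q, hq⟩ : (absNorm J : ℤ) ∣ N := Ideal.absNorm_dvd_norm_of_mem hγ
    have hNJpos : (0 : ℤ) < (absNorm J : ℤ) := by exact_mod_cast Nat.pos_of_ne_zero hNJ
    have hsq : SignType.sign N = SignType.sign q := by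
      rw [hq, sign_mul, sign_pos hNJpos, one_mul]
    have hdiv : N / (absNorm J : ℤ) = q := by
      rw [hq, Int.mul_ediv_cancel_left _ hNJpos.ne']
    have habs : N.natAbs = absNorm J * q.natAbs := by
      rw [hq, Int.natAbs_mul, Int.natAbs_natCast]
    have hdiv' : absNorm (Ideal.span {γ}) / absNorm J = q.natAbs := by
      rw [Ideal.absNorm_span_singleton, ← hN, habs, Nat.mul_div_cancel_left _ (Nat.pos_of_ne_zero hNJ)]
    have hχ : χ ((q.natAbs : ℕ) : ZMod m) = cf K χ J γ (sgn K (emb K γ)) := by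
      unfold cf
      rw [hsgn, ← hN, hdiv, ← map_mul, hsq, ← Int.cast_mul, sign_mul_self, Int.abs_eq_natAbs]
      simp
    rw [hdiv', hnorm, habs, tw, hχ]
    have hJr : (0 : ℝ) < (absNorm J : ℝ) := by exact_mod_cast Nat.pos_of_ne_zero hNJ
    have h3 : (((absNorm J * q.natAbs : ℕ) : ℝ)) ^ (-s) =
        ((absNorm J : ℝ) ^ s)⁻¹ * ((q.natAbs : ℕ) : ℝ) ^ (-s) := by
      rw [Nat.cast_mul, Real.mul_rpow hJr.le (Nat.cast_nonneg _), Real.rpow_neg hJr.le]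
    rw [h3]
    have h4 : (absNorm J : ℝ) ^ s ≠ 0 := (Real.rpow_pos_of_pos hJr s).ne'
    have h5 : (((absNorm J : ℝ) ^ s : ℝ) : ℂ) ≠ 0 := by exact_mod_cast h4
    push_cast
    field_simp

theorem cf_add_eq {J : Ideal (𝓞 K)} (hJ : J ≠ ⊥) {γ ρ : 𝓞 K} (hγ : γ ∈ J) (hρJ : ρ ∈ J)
    (hρ : ρ ∈ Ideal.span {((m * absNorm J : ℕ) : 𝓞 K)}) (e : SignType) :
    cf K χ J (ρ + γ) e = cf K χ J γ e := by
  have hNJ : absNorm J ≠ 0 := by
    rw [Ne, Ideal.absNorm_eq_zero_iff]; exact hJ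
  have hNJpos : (0 : ℤ) < (absNorm J : ℤ) := by exact_mod_cast Nat.pos_of_ne_zero hNJ
  obtain ⟨q1, hq1⟩ : (absNorm J : ℤ) ∣ Algebra.norm ℤ (ρ + γ) :=
    Ideal.absNorm_dvd_norm_of_mem (J.add_mem hρJ hγ)
  obtain ⟨q2, hq2⟩ : (absNorm J : ℤ) ∣ Algebra.norm ℤ γ := Ideal.absNorm_dvd_norm_of_mem hγ
  have h1 : ((m * absNorm J : ℕ) : ℤ) ∣ Algebra.norm ℤ (ρ + γ) - Algebra.norm ℤ γ := by
    apply dvd_norm_sub_norm K
    rw [add_sub_cancel_right, Int.cast_natCast]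
    exact hρ
  rw [hq1, hq2, ← mul_sub, Nat.cast_mul, mul_comm (m : ℤ)] at h1
  have h2 : (m : ℤ) ∣ q1 - q2 := (mul_dvd_mul_iff_left hNJpos.ne').1 h1
  unfold cf
  rw [hq1, hq2, Int.mul_ediv_cancel_left _ hNJpos.ne', Int.mul_ediv_cancel_left _ hNJpos.ne']
  have h3 : ((q1 : ℤ) : ZMod m) = ((q2 : ℤ) : ZMod m) := by
    rw [← sub_eq_zero, ← Int.cast_sub, ZMod.intCast_zmod_eq_zero_iff_dvd]
    exact h2
  rw [h3]

theorem torsionOrder_mul_TC (C : ClassGroup (𝓞 K)) (J : (Ideal (𝓞 K))⁰)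
    (hJ : ClassGroup.mk0 J = C⁻¹) (𝔞 : Ideal (𝓞 K)) (h𝔞 : 𝔞 ≠ ⊥) {s : ℝ} (hs : 1 < s) :
    (torsionOrder K : ℂ) * TC K χ C 𝔞 s =
      (((absNorm (J : Ideal (𝓞 K)) : ℝ) ^ s : ℝ) : ℂ) *
        ∑' γ : ↥(𝔞 * (J : Ideal (𝓞 K))), bt K χ J s (γ : 𝓞 K) := by
  have hs0 : 0 < s := by linarith
  have hJ0 : (J : Ideal (𝓞 K)) ≠ ⊥ := nonZeroDivisors.coe_ne_zero J
  have hle : 𝔞 * (J : Ideal (𝓞 K)) ≤ (J : Ideal (𝓞 K)) := Ideal.mul_le_right
  have h1 := hasSum_wt_mul K (𝔞 * (J : Ideal (𝓞 K)))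
    (fun P => tw χ s (absNorm P / absNorm (J : Ideal (𝓞 K))))
    (by simp [tw_zero χ hs0]) (summable_principal K χ J _ hle hs)
  rw [TC, tsum_class_eq K C J hJ 𝔞 h𝔞 (tw χ s) (tw_zero χ hs0), ← h1.tsum_eq, ← tsum_mul_left]
  refine tsum_congr fun γ => ?_
  exact wt_mul_tw_eq K χ hJ0 hs0 (hle γ.2)

theorem summable_bt (J : Ideal (𝓞 K)) {J' : Ideal (𝓞 K)} (hJ' : J' ≠ ⊥) {s : ℝ} (hs : 1 < s) :
    Summable fun γ : J' => bt K χ J s (γ : 𝓞 K) := by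
  unfold bt
  refine summable_sum fun e _ => ?_
  have h1 := summable_ker hJ' e hs (0 : mixedSpace K)
  simp only [add_zero] at h1
  refine Summable.of_norm_bounded h1 fun γ => ?_
  rw [norm_mul, Complex.norm_real, Real.norm_of_nonneg (ker_nonneg K e s _)]
  exact mul_le_of_le_one_left (ker_nonneg K e s _) (norm_cf_le K χ J _ e)

omit [NumberField K] in
theorem emb_add (a b : 𝓞 K) : emb K (a + b) = emb K a + emb K b := by
  simp [emb]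

theorem summable_bt_add (J : Ideal (𝓞 K)) {J' : Ideal (𝓞 K)} (hJ' : J' ≠ ⊥) {s : ℝ} (hs : 1 < s)
    (ρ : 𝓞 K) : Summable fun γ : J' => bt K χ J s (ρ + (γ : 𝓞 K)) := by
  unfold bt
  refine summable_sum fun e _ => ?_
  have h1 := summable_ker hJ' e hs (emb K ρ)
  refine Summable.of_norm_bounded h1 fun γ => ?_
  rw [norm_mul, Complex.norm_real, Real.norm_of_nonneg (ker_nonneg K e s _), emb_add,
    add_comm (emb K ρ)]
  exact mul_le_of_le_one_left (ker_nonneg K e s _) (norm_cf_le K χ J _ e)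

theorem exists_bound_bt_translate {J J' : Ideal (𝓞 K)} (hJ : J ≠ ⊥) (hJ' : J' ≠ ⊥) (hle : J' ≤ J)
    {ρ : 𝓞 K} (hρJ : ρ ∈ J) (hρ : ρ ∈ Ideal.span {((m * absNorm J : ℕ) : 𝓞 K)}) :
    ∃ C : ℝ, ∀ s : ℝ, 1 < s → s ≤ 2 →
      ‖∑' δ : J', bt K χ J s (ρ + (δ : 𝓞 K)) - ∑' δ : J', bt K χ J s (δ : 𝓞 K)‖ ≤ C := by
  obtain ⟨C, hC⟩ := exists_bound_translate hJ' (emb K ρ) (0 : mixedSpace K)
  refine ⟨∑ _e : SignType, C, fun s hs hs2 => ?_⟩
  rw [← (summable_bt_add K χ J hJ' hs ρ).tsum_sub (summable_bt K χ J hJ' hs)]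
  have hsum : ∀ e : SignType, Summable fun δ : J' =>
      |ker K e s (emb K (δ : 𝓞 K) + emb K ρ) - ker K e s (emb K (δ : 𝓞 K) + 0)| := fun e =>
    ((summable_ker hJ' e hs (emb K ρ)).sub (summable_ker hJ' e hs 0)).abs
  have hpt : ∀ δ : J', ‖bt K χ J s (ρ + (δ : 𝓞 K)) - bt K χ J s (δ : 𝓞 K)‖ ≤
      ∑ e : SignType, |ker K e s (emb K (δ : 𝓞 K) + emb K ρ) - ker K e s (emb K (δ : 𝓞 K) + 0)| := by
    intro δ
    unfold bt
    rw [← Finset.sum_sub_distrib]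
    refine (norm_sum_le _ _).trans (Finset.sum_le_sum fun e _ => ?_)
    rw [cf_add_eq K χ hJ (hle δ.2) hρJ hρ, ← mul_sub, norm_mul, ← Complex.ofReal_sub,
      Complex.norm_real, Real.norm_eq_abs, emb_add, add_comm (emb K ρ), add_zero]
    exact mul_le_of_le_one_left (abs_nonneg _) (norm_cf_le K χ J _ e)
  have hs' : Summable fun δ : J' => ∑ e : SignType,
      |ker K e s (emb K (δ : 𝓞 K) + emb K ρ) - ker K e s (emb K (δ : 𝓞 K) + 0)| :=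
    summable_sum fun e _ => hsum e
  refine (tsum_of_norm_bounded hs'.hasSum hpt).trans ?_
  rw [Summable.tsum_finsetSum fun e _ => hsum e]
  exact Finset.sum_le_sum fun e _ => hC e s hs hs2

theorem exists_bound_equidist {J 𝔞 : Ideal (𝓞 K)} (hJ : J ≠ ⊥) (h𝔞 : 𝔞 ≠ ⊥)
    (hco : (absNorm 𝔞).Coprime (m * absNorm J)) :
    ∃ B : ℝ, ∀ s : ℝ, 1 < s → s ≤ 2 →
      ‖∑' γ : J, bt K χ J s (γ : 𝓞 K) -
        (absNorm 𝔞 : ℂ) * ∑' γ : ↥(𝔞 * J), bt K χ J s (γ : 𝓞 K)‖ ≤ B := by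
  obtain ⟨R, e, hcard, hRM, he⟩ := exists_reps hJ h𝔞 (m * absNorm J) hco
  have hJ' : 𝔞 * J ≠ ⊥ := mul_ne_zero h𝔞 hJ
  have hle : 𝔞 * J ≤ J := Ideal.mul_le_right
  have hRJ : ∀ ρ : R, (ρ : 𝓞 K) ∈ J := by
    intro ρ
    have h1 := he (ρ, 0)
    simp only [ZeroMemClass.coe_zero, add_zero] at h1
    rw [← h1]
    exact (e (ρ, 0)).2
  have hex : ∀ ρ : R, ∃ C : ℝ, ∀ s : ℝ, 1 < s → s ≤ 2 →
      ‖∑' δ : ↥(𝔞 * J), bt K χ J s ((ρ : 𝓞 K) + (δ : 𝓞 K)) -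
        ∑' δ : ↥(𝔞 * J), bt K χ J s (δ : 𝓞 K)‖ ≤ C := fun ρ =>
    exists_bound_bt_translate K χ hJ hJ' hle (hRJ ρ) (hRM ρ ρ.2)
  choose C hC using hex
  refine ⟨∑ ρ : R, C ρ, fun s hs hs2 => ?_⟩
  have h1 : ∑' γ : J, bt K χ J s (γ : 𝓞 K) =
      ∑ ρ : R, ∑' δ : ↥(𝔞 * J), bt K χ J s ((ρ : 𝓞 K) + (δ : 𝓞 K)) := by
    rw [← e.tsum_eq]
    have hsm : Summable fun p : R × ↥(𝔞 * J) => bt K χ J s ((e p : J) : 𝓞 K) :=
      e.summable_iff.2 (summable_bt K χ J hJ hs)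
    rw [hsm.tsum_prod, tsum_fintype]
    refine Finset.sum_congr rfl fun ρ _ => tsum_congr fun δ => ?_
    rw [he]
  have h2 : (absNorm 𝔞 : ℂ) * ∑' γ : ↥(𝔞 * J), bt K χ J s (γ : 𝓞 K) =
      ∑ _ρ : R, ∑' δ : ↥(𝔞 * J), bt K χ J s (δ : 𝓞 K) := by
    rw [Finset.sum_const, Finset.card_univ, Fintype.card_coe, hcard, nsmul_eq_mul]
  rw [h1, h2, ← Finset.sum_sub_distrib]
  exact (norm_sum_le _ _).trans (Finset.sum_le_sum fun ρ _ => hC ρ s hs hs2)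

end Fermat.Agent.TCheb
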