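import Fermat.Agent.TCheb.Cross

/-!
# TCheb / Final  (WP [F6]): inverse-symmetric Chebotarev, upper density form
-/

set_option autoImplicit false

open NumberField Module Ideal Subgroup

namespace Fermat.Agent.TCheb

universe u

/-- comparing the coefficients of `log (1/(s-1))`. -/
theorem le_of_mul_log_le {a b C : ℝ}
    (h : ∀ s : ℝ, 1 < s → s ≤ 2 →
      a * Real.log (1 / (s - 1)) ≤ b * Real.log (1 / (s - 1)) + C) : a ≤ b := by
  by_contra hab
  rw [not_le] at hab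
  set t := max (C / (a - b)) 0 + 1 with ht_def
  have ht : 0 < t := by positivity
  have hs := h (1 + Real.exp (-t)) (by linarith [Real.exp_pos (-t)]) (by
    have : Real.exp (-t) ≤ 1 := Real.exp_le_one_iff.mpr (by linarith)
    linarith)
  have hl : Real.log (1 / (1 + Real.exp (-t) - 1)) = t := by
    rw [add_sub_cancel_left, one_div, ← Real.exp_neg, neg_neg, Real.log_exp]
  rw [hl] at hs
  have h2 : C / (a - b) < t := lt_of_le_of_lt (le_max_left _ _) (lt_add_one _)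
  rw [div_lt_iff₀ (sub_pos.mpr hab)] at h2
  nlinarith

theorem indicator_rpow_nonneg (X : Set ℕ) (s : ℝ) (n : ℕ) :
    0 ≤ Set.indicator X (fun n : ℕ => (n : ℝ) ^ (-s)) n :=
  Set.indicator_nonneg (fun _ _ => Real.rpow_nonneg (Nat.cast_nonneg _) _) _

theorem summable_indicator_rpow (X : Set ℕ) {s : ℝ} (hs : 1 < s) :
    Summable fun p : Nat.Primes => Set.indicator X (fun n : ℕ => (n : ℝ) ^ (-s)) (p : ℕ) := by
  refine Summable.of_nonneg_of_le (fun p => indicator_rpow_nonneg X s p) (fun p => ?_)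
    (Nat.Primes.summable_rpow.2 (by linarith : -s < -1))
  exact Set.indicator_le_self' (fun n _ => Real.rpow_nonneg (Nat.cast_nonneg _) _) _

theorem tsum_indicator_finset_le (T : Finset ℕ) {s : ℝ} (hs : 0 < s) :
    ∑' p : Nat.Primes, Set.indicator (T : Set ℕ) (fun n : ℕ => (n : ℝ) ^ (-s)) (p : ℕ) ≤
      T.card := by
  classical
  refine Real.tsum_le_of_sum_le (fun p => indicator_rpow_nonneg _ s p) (fun F => ?_)
  calc ∑ p ∈ F, Set.indicator (T : Set ℕ) (fun n : ℕ => (n : ℝ) ^ (-s)) (p : ℕ)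
      ≤ ∑ p ∈ F, (if (p : ℕ) ∈ T then (1 : ℝ) else 0) := by
        refine Finset.sum_le_sum fun p _ => ?_
        by_cases hp : (p : ℕ) ∈ T
        · rw [Set.indicator_of_mem (by exact_mod_cast hp), if_pos hp]
          exact Real.rpow_le_one_of_one_le_of_nonpos (by exact_mod_cast p.2.one_lt.le)
            (by linarith)
        · rw [Set.indicator_of_notMem (by exact_mod_cast hp), if_neg hp]
    _ = ((F.filter (fun p : Nat.Primes => (p : ℕ) ∈ T)).card : ℝ) := by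
        rw [Finset.sum_ite, Finset.sum_const_zero, add_zero, Finset.sum_const, nsmul_eq_mul,
          mul_one]
    _ ≤ T.card := by
        have : (F.filter (fun p : Nat.Primes => (p : ℕ) ∈ T)).card ≤ T.card :=
          Finset.card_le_card_of_injOn (fun p : Nat.Primes => (p : ℕ))
            (fun p hp => (Finset.mem_filter.mp hp).2)
            (fun a _ b _ hab => Nat.Primes.coe_nat_injective hab)
        exact_mod_cast this

variable (L : Type u) [Field L] [NumberField L] [IsGalois ℚ L]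

/-- (F6) **inverse-symmetric Chebotarev, upper density form**. -/
theorem card_le_of_density (D : Finset (L ≃ₐ[ℚ] L)) (hD : ∀ σ ∈ D, σ⁻¹ ∈ D)
    (X : Set ℕ) (η C₀ : ℝ)
    (hX : ∀ s : ℝ, 1 < s → s ≤ 2 →
      ∑' p : Nat.Primes, Set.indicator X (fun n : ℕ => (n : ℝ) ^ (-s)) (p : ℕ) ≤
        η * Real.log (1 / (s - 1)) + C₀)
    (T : Finset ℕ)
    (h : ∀ p : ℕ, p.Prime → p ∉ X → p ∉ T → ∀ σ : L ≃ₐ[ℚ] L, IsFrobOver L p σ → σ ∉ D) :
    (D.card : ℝ) ≤ η * Nat.card (L ≃ₐ[ℚ] L) := by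
  classical
  set φ := frobSys L with hφ
  set c : ℝ := (Nat.card (L ≃ₐ[ℚ] L) : ℝ) with hc
  have hc0 : 0 ≤ c := Nat.cast_nonneg _
  -- upper bound
  have hup : ∀ s : ℝ, 1 < s → s ≤ 2 →
      Asum φ (D : Set (L ≃ₐ[ℚ] L)) s ≤ c * (η * Real.log (1 / (s - 1)) + C₀ + T.card) := by
    intro s hs hs2
    have hpt : ∀ p : Nat.Primes, (cnt φ p (D : Set (L ≃ₐ[ℚ] L)) : ℝ) * ((p : ℕ) : ℝ) ^ (-s) ≤
        c * (Set.indicator X (fun n : ℕ => (n : ℝ) ^ (-s)) (p : ℕ) +
          Set.indicator (T : Set ℕ) (fun n : ℕ => (n : ℝ) ^ (-s)) (p : ℕ)) := by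
      intro p
      have hp0 : 0 ≤ ((p : ℕ) : ℝ) ^ (-s) := Real.rpow_nonneg (Nat.cast_nonneg _) _
      have hcnt : (cnt φ p (D : Set (L ≃ₐ[ℚ] L)) : ℝ) ≤ c := by
        rw [hc]; exact_mod_cast cnt_le φ p (D : Set (L ≃ₐ[ℚ] L))
      by_cases hpX : (p : ℕ) ∈ X
      · rw [Set.indicator_of_mem hpX]
        have := indicator_rpow_nonneg (T : Set ℕ) s p
        calc (cnt φ p (D : Set (L ≃ₐ[ℚ] L)) : ℝ) * ((p : ℕ) : ℝ) ^ (-s) ≤ c * ((p : ℕ) : ℝ) ^ (-s) :=
              mul_le_mul_of_nonneg_right hcnt hp0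
          _ ≤ _ := mul_le_mul_of_nonneg_left (by linarith) hc0
      · by_cases hpT : (p : ℕ) ∈ T
        · rw [Set.indicator_of_mem (show (p : ℕ) ∈ (T : Set ℕ) by exact_mod_cast hpT)]
          have := indicator_rpow_nonneg X s p
          calc (cnt φ p (D : Set (L ≃ₐ[ℚ] L)) : ℝ) * ((p : ℕ) : ℝ) ^ (-s) ≤ c * ((p : ℕ) : ℝ) ^ (-s) :=
                mul_le_mul_of_nonneg_right hcnt hp0
            _ ≤ _ := mul_le_mul_of_nonneg_left (by linarith) hc0
        · have h0 : cnt φ p (D : Set (L ≃ₐ[ℚ] L)) = 0 := by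
            unfold cnt
            have : IsEmpty {g : (L ≃ₐ[ℚ] L) // g * φ p * g⁻¹ ∈ (D : Set (L ≃ₐ[ℚ] L))} := by
              refine ⟨fun g => ?_⟩
              exact h p p.2 hpX hpT _ ((isFrobOver_frobElt p.2).conj g.1) (by exact_mod_cast g.2)
            exact Nat.card_of_isEmpty
          rw [h0, Nat.cast_zero, zero_mul]
          exact mul_nonneg hc0 (add_nonneg (indicator_rpow_nonneg X s p)
            (indicator_rpow_nonneg _ s p))
    have hsX := summable_indicator_rpow X hs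
    have hsT := summable_indicator_rpow (T : Set ℕ) hs
    calc Asum φ (D : Set (L ≃ₐ[ℚ] L)) s
        ≤ ∑' p : Nat.Primes, c * (Set.indicator X (fun n : ℕ => (n : ℝ) ^ (-s)) (p : ℕ) +
          Set.indicator (T : Set ℕ) (fun n : ℕ => (n : ℝ) ^ (-s)) (p : ℕ)) :=
          Summable.tsum_le_tsum hpt (summable_Asum φ _ hs) ((hsX.add hsT).mul_left c)
      _ = c * (∑' p : Nat.Primes, Set.indicator X (fun n : ℕ => (n : ℝ) ^ (-s)) (p : ℕ) +
          ∑' p : Nat.Primes, Set.indicator (T : Set ℕ) (fun n : ℕ => (n : ℝ) ^ (-s)) (p : ℕ)) := by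
          rw [tsum_mul_left, hsX.tsum_add hsT]
      _ ≤ _ := by
          refine mul_le_mul_of_nonneg_left ?_ hc0
          have := hX s hs hs2
          have := tsum_indicator_finset_le T (by linarith : 0 < s)
          linarith
  -- lower bound
  have hlow : ∀ k : ℕ, ∃ C : ℝ, ∀ s : ℝ, 1 < s → s ≤ 2 →
      (∑ σ ∈ D, 2 * (1 - (orderOf σ * c : ℝ) / 2 ^ k)) * Real.log (1 / (s - 1)) - C ≤
        2 * Asum φ (D : Set (L ≃ₐ[ℚ] L)) s := by
    intro k
    choose Cσ hCσ using fun σ : (L ≃ₐ[ℚ] L) => hasLogGE_add_inv L σ k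
    refine ⟨∑ σ ∈ D, Cσ σ, fun s hs hs2 => ?_⟩
    have h1 : 2 * Asum φ (D : Set (L ≃ₐ[ℚ] L)) s = ∑ σ ∈ D, (Asum φ {σ} s + Asum φ {σ⁻¹} s) := by
      rw [Finset.sum_add_distrib, Asum_eq_sum φ D hs, two_mul]
      congr 1
      exact Finset.sum_nbij' (fun σ => σ⁻¹) (fun σ => σ⁻¹) hD hD (fun σ _ => inv_inv σ)
        (fun σ _ => inv_inv σ) (fun σ _ => by rw [inv_inv])
    rw [h1, Finset.sum_mul, ← Finset.sum_sub_distrib]
    exact Finset.sum_le_sum fun σ _ => hCσ σ s hs hs2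
  -- compare
  have hk : ∀ k : ℕ, (∑ σ ∈ D, 2 * (1 - (orderOf σ * c : ℝ) / 2 ^ k)) ≤ 2 * (c * η) := by
    intro k
    obtain ⟨C, hC⟩ := hlow k
    refine le_of_mul_log_le (C := C + 2 * (c * (C₀ + T.card))) fun s hs hs2 => ?_
    have h1 := hC s hs hs2
    have h2 := hup s hs hs2
    nlinarith
  -- let `k → ∞`
  set B : ℝ := ∑ σ ∈ D, (orderOf σ * c : ℝ) with hB
  have hB0 : 0 ≤ B := Finset.sum_nonneg fun σ _ => mul_nonneg (Nat.cast_nonneg _) hc0
  have hk' : ∀ k : ℕ, (D.card : ℝ) - B / 2 ^ k ≤ c * η := by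
    intro k
    have h1 := hk k
    have h2 : (∑ σ ∈ D, 2 * (1 - (orderOf σ * c : ℝ) / 2 ^ k)) =
        2 * ((D.card : ℝ) - B / 2 ^ k) := by
      rw [← Finset.mul_sum, Finset.sum_sub_distrib, Finset.sum_const, nsmul_eq_mul, mul_one,
        hB, Finset.sum_div]
    rw [h2] at h1
    linarith
  rw [mul_comm]
  refine le_of_forall_pos_le_add fun ε hε => ?_
  obtain ⟨k, hk2⟩ := exists_nat_gt (B / ε)
  have h2k : (k : ℝ) < 2 ^ k := by exact_mod_cast Nat.lt_two_pow_self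
  have h3 : B / 2 ^ k ≤ ε := by
    rw [div_le_iff₀ (by positivity)]
    rw [div_lt_iff₀ hε] at hk2
    nlinarith
  linarith [hk' k]

end Fermat.Agent.TCheb
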