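import Fermat.Agent.TCheb.Tent

/-!
# TCheb / Kernel : the weight function on the mixed space and the kernels `ker e s`
Definitions only (+ trivial facts).  Owner: helper63.
-/

set_option autoImplicit false

open NumberField NumberField.mixedEmbedding NumberField.InfinitePlace NumberField.Units
  NumberField.Units.dirichletUnitTheorem Module

namespace Fermat.Agent.TCheb

variable (K : Type*) [Field K] [NumberField K]

open scoped Classical in
/-- coordinates of `logMap x` in the `ℤ`-basis of the unit lattice. -/
noncomputable def coord (x : mixedSpace K) : Fin (rank K) → ℝ := fun i =>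
  ((basisUnitLattice K).ofZLatticeBasis ℝ (unitLattice K)).repr (logMap x) i

/-- the weight: a partition of unity for the action of the units (modulo torsion). -/
noncomputable def wt (x : mixedSpace K) : ℝ := tentProd (coord K x)

theorem wt_nonneg (x : mixedSpace K) : 0 ≤ wt K x := tentProd_nonneg _

theorem wt_le_one (x : mixedSpace K) : wt K x ≤ 1 := tentProd_le_one _

open scoped Classical in
/-- the sign of the (signed) norm: product of the signs at the real places. -/
noncomputable def sgn (x : mixedSpace K) : SignType :=
  ∏ w : {w : InfinitePlace K // IsReal w}, SignType.sign (x.1 w)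

open Classical in
/-- the kernel `1[sgn x = e] * wt x * |N x|^(-s)`. -/
noncomputable def ker (e : SignType) (s : ℝ) (x : mixedSpace K) : ℝ :=
  if sgn K x = e then wt K x * (mixedEmbedding.norm x) ^ (-s) else 0

theorem ker_nonneg (e : SignType) (s : ℝ) (x : mixedSpace K) : 0 ≤ ker K e s x := by
  unfold ker
  split_ifs
  · exact mul_nonneg (wt_nonneg K x) (Real.rpow_nonneg (mixedEmbedding.norm_nonneg x) _)
  · exact le_rfl

theorem ker_le (e : SignType) (s : ℝ) (x : mixedSpace K) :
    ker K e s x ≤ wt K x * (mixedEmbedding.norm x) ^ (-s) := by
  unfold ker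
  split_ifs
  · exact le_rfl
  · exact mul_nonneg (wt_nonneg K x) (Real.rpow_nonneg (mixedEmbedding.norm_nonneg x) _)

end Fermat.Agent.TCheb
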