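import Fermat.Agent.TCheb.LatticeSum
import Fermat.Agent.Cheb.ZetaLog

/-!
# TCheb / LF : the twisted Dedekind zeta function `∑_I χ(N I) N I^(-s)` (definitions)
Owner: helper63.
-/

set_option autoImplicit false

open NumberField Module

namespace Fermat.Agent.TCheb

variable {m : ℕ} (χ : DirichletCharacter ℂ m)

/-- `χ(n) n^(-s)`. -/
noncomputable def tw (s : ℝ) (n : ℕ) : ℂ := χ (n : ZMod m) * (((n : ℝ) ^ (-s) : ℝ) : ℂ)

theorem tw_mul (s : ℝ) (a b : ℕ) : tw χ s (a * b) = tw χ s a * tw χ s b := by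
  unfold tw
  rw [Nat.cast_mul, map_mul, Nat.cast_mul, Real.mul_rpow (Nat.cast_nonneg _) (Nat.cast_nonneg _)]
  push_cast
  ring

theorem tw_zero {s : ℝ} (hs : 0 < s) : tw χ s 0 = 0 := by
  unfold tw
  rw [Nat.cast_zero (R := ℝ), Real.zero_rpow (by linarith)]
  simp

theorem tw_one (s : ℝ) : tw χ s 1 = 1 := by
  unfold tw
  simp

theorem norm_tw_le (s : ℝ) (n : ℕ) : ‖tw χ s n‖ ≤ (n : ℝ) ^ (-s) := by
  unfold tw
  rw [norm_mul, Complex.norm_real, Real.norm_of_nonneg (Real.rpow_nonneg (Nat.cast_nonneg _) _)]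
  exact mul_le_of_le_one_left (Real.rpow_nonneg (Nat.cast_nonneg _) _) (χ.norm_le_one _)

variable (K : Type*) [Field K] [NumberField K]

/-- the twisted zeta function at a real argument. -/
noncomputable def LF (s : ℝ) : ℂ := ∑' I : Ideal (𝓞 K), tw χ s (Ideal.absNorm I)

theorem summable_tw_absNorm {s : ℝ} (hs : 1 < s) :
    Summable (fun I : Ideal (𝓞 K) => tw χ s (Ideal.absNorm I)) :=
  Summable.of_norm_bounded (Cheb.summable_absNorm_rpow K hs) fun _ => norm_tw_le χ s _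

/-- the twisted prime sum `∑_p c_K(p) χ(p) p^(-s)`. -/
noncomputable def primeSumTw (s : ℝ) : ℂ :=
  ∑' p : Nat.Primes, (Cheb.idealCount K p : ℂ) * tw χ s p

end Fermat.Agent.TCheb
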