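import Fermat.Agent.TCheb.Translate

/-!
# TCheb / LatticeSum  (WP [LS]): sums of the kernel over (translates of) ideal lattices
-/

set_option autoImplicit false

open NumberField NumberField.mixedEmbedding NumberField.InfinitePlace Module

open scoped Classical

namespace Fermat.Agent.TCheb

variable (K : Type*) [Field K] [NumberField K]

/-- the image of an algebraic integer in the mixed space. -/
noncomputable abbrev emb (γ : 𝓞 K) : mixedSpace K := mixedEmbedding K (γ : K)

variable {K} in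
/-- the map of an ideal to the integer lattice. -/
noncomputable def toLat (J : Ideal (𝓞 K)) (γ : J) : mixedEmbedding.integerLattice K :=
  ⟨emb K (γ : 𝓞 K), ⟨(γ : 𝓞 K), rfl⟩⟩

variable {K} in
theorem toLat_injective (J : Ideal (𝓞 K)) : Function.Injective (toLat J) := by
  intro x y h
  have h1 : emb K (x : 𝓞 K) = emb K (y : 𝓞 K) := congrArg Subtype.val h
  have h2 := (mixedEmbedding_injective K) h1
  exact Subtype.ext (RingOfIntegers.ext h2)

variable {K} in
/-- (LS0) `∑_{γ ∈ J} ‖γ + a‖ ^ r < ∞` for `r < -n`.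
Proof: `↥J ≃ idealLattice K (FractionalIdeal.mk0 K ⟨J, _⟩)`, `ZLattice.summable_norm_sub_rpow`,
`ZLattice.rank`, `mixedEmbedding.finrank`. -/
theorem summable_norm_emb_add_rpow {J : Ideal (𝓞 K)} (hJ : J ≠ ⊥) (a : mixedSpace K) {r : ℝ}
    (hr : r < -(finrank ℚ K : ℝ)) :
    Summable (fun γ : J => ‖emb K (γ : 𝓞 K) + a‖ ^ r) := by
  have h := ZLattice.summable_norm_sub_rpow (mixedEmbedding.integerLattice K) r
    (by rw [ZLattice.rank ℝ, mixedEmbedding.finrank]; exact hr) (-a)
  have h2 := h.comp_injective (toLat_injective J)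
  refine h2.congr fun γ => ?_
  simp only [Function.comp, toLat, sub_neg_eq_add]

variable {K} in
/-- (LS0') only finitely many lattice points in a ball. -/
theorem finite_norm_emb_add_lt {J : Ideal (𝓞 K)} (a : mixedSpace K) (R : ℝ) :
    {γ : J | ‖emb K (γ : 𝓞 K) + a‖ < R}.Finite := by
  have H : IsClosed (X := mixedSpace K) (mixedEmbedding.integerLattice K) :=
    @AddSubgroup.isClosed_of_discrete _ _ _ _ _
      (mixedEmbedding.integerLattice K).toAddSubgroup
      (inferInstanceAs (DiscreteTopology (mixedEmbedding.integerLattice K)))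
  have hd : IsDiscrete ((mixedEmbedding.integerLattice K : Submodule ℤ (mixedSpace K)) :
      Set (mixedSpace K)) :=
    @DiscreteTopology.isDiscrete _ _ _
      (inferInstanceAs (DiscreteTopology (mixedEmbedding.integerLattice K)))
  have h1 := (Metric.finite_isBounded_inter_isClosed hd
    (Metric.isBounded_ball (x := (-a : mixedSpace K)) (r := R)) H)
  have h2 := h1.preimage (f := fun γ : J => emb K (γ : 𝓞 K)) (by
    intro x _ y _ h
    exact toLat_injective J (Subtype.ext h))
  refine h2.subset ?_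
  intro γ hγ
  refine ⟨?_, (toLat J γ).2⟩
  simpa [Metric.mem_ball, dist_eq_norm] using hγ

variable {K} in
/-- (LS1) summability of the kernel over a translated ideal lattice. -/
theorem summable_ker {J : Ideal (𝓞 K)} (hJ : J ≠ ⊥) (e : SignType) {s : ℝ} (hs : 1 < s)
    (a : mixedSpace K) : Summable (fun γ : J => ker K e s (emb K (γ : 𝓞 K) + a)) := by
  obtain ⟨κ, hκ, hle⟩ := exists_ker_le K
  have hn : 0 < (finrank ℚ K : ℝ) := by exact_mod_cast finrank_pos
  have hr : -((finrank ℚ K : ℝ) * s) < -(finrank ℚ K : ℝ) := by nlinarith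
  have h1 := (summable_norm_emb_add_rpow hJ a hr).mul_left (κ ^ (-((finrank ℚ K : ℝ) * s)))
  refine Summable.of_nonneg_of_le (fun γ => ker_nonneg K e s _) (fun γ => ?_) h1
  rw [← Real.mul_rpow hκ.le (norm_nonneg _)]
  exact hle e s _ (by linarith)

variable {K} in
/-- (LS2) **translation lemma**: the sums of the kernel over two translates of an ideal lattice
differ by `O(1)`, uniformly in `s ∈ (1, 2]`; in `ℓ¹` form.
Proof: dominate by `C ‖γ + b‖^(-(n+1)) + 1[‖γ + b‖ < R] (bound of ker_le_add at γ+a and γ+b)`. -/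
theorem exists_bound_translate {J : Ideal (𝓞 K)} (hJ : J ≠ ⊥) (a b : mixedSpace K) :
    ∃ C : ℝ, ∀ (e : SignType) (s : ℝ), 1 < s → s ≤ 2 →
      ∑' γ : J, |ker K e s (emb K (γ : 𝓞 K) + a) - ker K e s (emb K (γ : 𝓞 K) + b)| ≤ C := by
  obtain ⟨C0, R, hC0, hR, hb⟩ := exists_ker_translate_bound K (a - b)
  let B : mixedSpace K → ℝ := fun x =>
    (mixedEmbedding.norm x) ^ (-1 : ℝ) + (mixedEmbedding.norm x) ^ (-2 : ℝ)
  let F : Set J := {γ : J | ‖emb K (γ : 𝓞 K) + b‖ < R}
  have hF : F.Finite := finite_norm_emb_add_lt b R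
  let g : J → ℝ := fun γ => C0 * ‖emb K (γ : 𝓞 K) + b‖ ^ (-((finrank ℚ K : ℝ) + 1)) +
    F.indicator (fun γ : J => B (emb K (γ : 𝓞 K) + a) + B (emb K (γ : 𝓞 K) + b)) γ
  have hg : Summable g := by
    refine ((summable_norm_emb_add_rpow hJ b (by linarith)).mul_left C0).add ?_
    exact summable_of_finite_support (hF.subset Set.support_indicator_subset)
  have hle : ∀ (e : SignType) (s : ℝ), 1 < s → s ≤ 2 → ∀ γ : J,
      |ker K e s (emb K (γ : 𝓞 K) + a) - ker K e s (emb K (γ : 𝓞 K) + b)| ≤ g γ := by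
    intro e s h1 h2 γ
    by_cases hγ : γ ∈ F
    · have e1 := ker_nonneg K e s (emb K (γ : 𝓞 K) + a)
      have e2 := ker_nonneg K e s (emb K (γ : 𝓞 K) + b)
      have e3 := ker_le_add K e h1.le h2 (emb K (γ : 𝓞 K) + a)
      have e4 := ker_le_add K e h1.le h2 (emb K (γ : 𝓞 K) + b)
      have e5 : 0 ≤ C0 * ‖emb K (γ : 𝓞 K) + b‖ ^ (-((finrank ℚ K : ℝ) + 1)) :=
        mul_nonneg hC0 (Real.rpow_nonneg (norm_nonneg _) _)
      simp only [g, Set.indicator_of_mem hγ, B]
      rw [abs_le]
      constructor <;> linarith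
    · have hγ' : R ≤ ‖emb K (γ : 𝓞 K) + b‖ := not_lt.1 hγ
      have e1 := hb e s (emb K (γ : 𝓞 K) + b) h1.le h2 hγ'
      have e2 : emb K (γ : 𝓞 K) + b + (a - b) = emb K (γ : 𝓞 K) + a := by abel
      rw [e2] at e1
      simp only [g, Set.indicator_of_notMem hγ, add_zero]
      exact e1
  refine ⟨∑' γ, g γ, fun e s h1 h2 => ?_⟩
  exact (Summable.of_nonneg_of_le (fun _ => abs_nonneg _) (hle e s h1 h2) hg).tsum_le_tsum
    (hle e s h1 h2) hg

end Fermat.Agent.TCheb
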