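import Mathlib

/-!
# TCheb / Tent : the tent function partition of unity on `ℝ^r / ℤ^r`  (Mathlib only)
-/

set_option autoImplicit false

namespace Fermat.Agent.TCheb

/-- the tent function `max 0 (1 - |t|)`. -/
noncomputable def tent (t : ℝ) : ℝ := max 0 (1 - |t|)

theorem tent_nonneg (t : ℝ) : 0 ≤ tent t := le_max_left _ _

theorem tent_le_one (t : ℝ) : tent t ≤ 1 := by
  unfold tent
  exact max_le zero_le_one (by linarith [abs_nonneg t])

theorem tent_eq_zero {t : ℝ} (h : 1 ≤ |t|) : tent t = 0 := by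
  unfold tent
  exact max_eq_left (by linarith)

theorem abs_lt_one_of_tent_ne_zero {t : ℝ} (h : tent t ≠ 0) : |t| < 1 := by
  by_contra h'
  exact h (tent_eq_zero (not_lt.1 h'))

/-- `tent` is `1`-Lipschitz. -/
theorem abs_tent_sub_le (a b : ℝ) : |tent a - tent b| ≤ |a - b| := by
  unfold tent
  rw [max_comm 0, max_comm 0]
  refine (abs_max_sub_max_le_abs _ _ _).trans ?_
  have h : (1 - |a|) - (1 - |b|) = |b| - |a| := by ring
  rw [h, abs_sub_comm a b]
  exact abs_abs_sub_abs_le_abs_sub b a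

/-- the two integers `k` with `tent (t + k) ≠ 0`. -/
noncomputable def tentSupp (t : ℝ) : Finset ℤ := {-⌊t⌋, -⌊t⌋ - 1}

theorem tent_add_int_eq_zero {t : ℝ} {k : ℤ} (hk : k ∉ tentSupp t) : tent (t + k) = 0 := by
  apply tent_eq_zero
  simp only [tentSupp, Finset.mem_insert, Finset.mem_singleton, not_or] at hk
  have h1 := Int.floor_le t
  have h2 := Int.lt_floor_add_one t
  rcases lt_trichotomy k (-⌊t⌋ - 1) with h | h | h
  · have h3 : (k : ℝ) ≤ -⌊t⌋ - 2 := by
      have : k ≤ -⌊t⌋ - 2 := by omega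
      exact_mod_cast this
    rw [le_abs]
    right
    linarith
  · exact absurd h hk.2
  · have h3 : (-⌊t⌋ + 1 : ℝ) ≤ k := by
      have : -⌊t⌋ + 1 ≤ k := by omega
      exact_mod_cast this
    rw [le_abs]
    left
    linarith

theorem sum_tentSupp (t : ℝ) : ∑ k ∈ tentSupp t, tent (t + k) = 1 := by
  have h1 := Int.floor_le t
  have h2 := Int.lt_floor_add_one t
  rw [tentSupp, Finset.sum_pair (by omega)]
  unfold tent
  push_cast
  rw [abs_of_nonneg (by linarith : (0 : ℝ) ≤ t + -(⌊t⌋ : ℝ)),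
    abs_of_nonpos (by linarith : t + (-(⌊t⌋ : ℝ) - 1) ≤ 0),
    max_eq_right (by linarith), max_eq_right (by linarith)]
  ring

/-- `∑_{k ∈ ℤ} tent (t + k) = 1`. -/
theorem hasSum_tent_add_int (t : ℝ) : HasSum (fun k : ℤ => tent (t + k)) 1 := by
  rw [← sum_tentSupp t]
  exact hasSum_sum_of_ne_finset_zero fun k hk => tent_add_int_eq_zero hk

variable {r : Type*} [Fintype r]

/-- product of tent functions. -/
noncomputable def tentProd (c : r → ℝ) : ℝ := ∏ i, tent (c i)

theorem tentProd_nonneg (c : r → ℝ) : 0 ≤ tentProd c :=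
  Finset.prod_nonneg fun i _ => tent_nonneg _

theorem tentProd_le_one (c : r → ℝ) : tentProd c ≤ 1 :=
  Finset.prod_le_one (fun i _ => tent_nonneg _) fun i _ => tent_le_one _

theorem abs_lt_one_of_tentProd_ne_zero {c : r → ℝ} (h : tentProd c ≠ 0) (i : r) : |c i| < 1 :=
  abs_lt_one_of_tent_ne_zero fun h0 => h (Finset.prod_eq_zero (Finset.mem_univ i) h0)

/-- Lipschitz estimate for the product. -/
theorem abs_tentProd_sub_le (a b : r → ℝ) : |tentProd a - tentProd b| ≤ ∑ i, |a i - b i| := by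
  classical
  unfold tentProd
  have key : ∀ s : Finset r,
      |∏ i ∈ s, tent (a i) - ∏ i ∈ s, tent (b i)| ≤ ∑ i ∈ s, |a i - b i| := by
    intro s
    induction s using Finset.induction_on with
    | empty => simp
    | insert i s hi ih =>
      rw [Finset.prod_insert hi, Finset.prod_insert hi, Finset.sum_insert hi]
      have e : tent (a i) * ∏ j ∈ s, tent (a j) - tent (b i) * ∏ j ∈ s, tent (b j)
          = (tent (a i) - tent (b i)) * ∏ j ∈ s, tent (a j)
            + tent (b i) * (∏ j ∈ s, tent (a j) - ∏ j ∈ s, tent (b j)) := by ring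
      rw [e]
      refine (abs_add_le _ _).trans (add_le_add ?_ ?_)
      · rw [abs_mul]
        have h1 : |∏ j ∈ s, tent (a j)| ≤ 1 := by
          rw [abs_of_nonneg (Finset.prod_nonneg fun j _ => tent_nonneg _)]
          exact Finset.prod_le_one (fun j _ => tent_nonneg _) fun j _ => tent_le_one _
        calc |tent (a i) - tent (b i)| * |∏ j ∈ s, tent (a j)|
            ≤ |tent (a i) - tent (b i)| * 1 := mul_le_mul_of_nonneg_left h1 (abs_nonneg _)
          _ ≤ |a i - b i| := by rw [mul_one]; exact abs_tent_sub_le _ _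
      · rw [abs_mul, abs_of_nonneg (tent_nonneg _)]
        calc tent (b i) * |∏ j ∈ s, tent (a j) - ∏ j ∈ s, tent (b j)|
            ≤ 1 * |∏ j ∈ s, tent (a j) - ∏ j ∈ s, tent (b j)| :=
              mul_le_mul_of_nonneg_right (tent_le_one _) (abs_nonneg _)
          _ ≤ ∑ j ∈ s, |a j - b j| := by rw [one_mul]; exact ih
  exact key Finset.univ

/-- `∑_{k ∈ ℤ^r} tentProd (c + k) = 1`. -/
theorem hasSum_tentProd_add_int (c : r → ℝ) :
    HasSum (fun k : r → ℤ => tentProd (fun i => c i + k i)) 1 := by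
  classical
  have h1 : ∑ k ∈ Fintype.piFinset (fun i => tentSupp (c i)), tentProd (fun i => c i + k i) = 1 := by
    unfold tentProd
    rw [← Finset.prod_univ_sum (fun i => tentSupp (c i)) (fun i (j : ℤ) => tent (c i + j))]
    exact Finset.prod_eq_one fun i _ => sum_tentSupp (c i)
  rw [← h1]
  refine hasSum_sum_of_ne_finset_zero fun k hk => ?_
  rw [Fintype.mem_piFinset, not_forall] at hk
  obtain ⟨i, hi⟩ := hk
  exact Finset.prod_eq_zero (Finset.mem_univ i) (tent_add_int_eq_zero hi)

end Fermat.Agent.TCheb
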