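import Fermat.Agent.TCheb.Weight

/-!
# TCheb / Translate  (WP [TR]): the kernel changes little under a bounded translation
-/

set_option autoImplicit false

open NumberField NumberField.mixedEmbedding NumberField.InfinitePlace NumberField.Units
  NumberField.Units.dirichletUnitTheorem Module

open scoped Classical

namespace Fermat.Agent.TCheb

variable (K : Type*) [Field K] [NumberField K]

namespace TR

theorem normAtPlace_le_norm (w : InfinitePlace K) (x : mixedSpace K) :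
    normAtPlace w x ≤ ‖x‖ := by
  rw [norm_eq_sup'_normAtPlace]
  exact Finset.le_sup' (fun w => normAtPlace w x) (Finset.mem_univ w)

/-- lower bound of the norm from lower bounds of all coordinates. -/
theorem pow_le_norm_of_le {x : mixedSpace K} {t : ℝ} (ht : 0 ≤ t)
    (h : ∀ w : InfinitePlace K, t ≤ normAtPlace w x) :
    t ^ (finrank ℚ K) ≤ mixedEmbedding.norm x := by
  rw [mixedEmbedding.norm_apply, ← sum_mult_eq, ← Finset.prod_pow_eq_pow_sum]
  exact Finset.prod_le_prod (fun w _ => pow_nonneg ht _) fun w _ => pow_le_pow_left₀ ht (h w) _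

theorem abs_log_sub_log_le {a b δ : ℝ} (hδ : 0 ≤ δ) (ha : 0 < a) (h2 : 2 * δ ≤ a)
    (hab : |b - a| ≤ δ) : 0 < b ∧ |Real.log b - Real.log a| ≤ 2 * δ / a := by
  have h3 := abs_le.1 hab
  have hb : 0 < b := by linarith [h3.1]
  refine ⟨hb, ?_⟩
  rw [abs_le]
  constructor
  · have h4 : Real.log (a / b) ≤ a / b - 1 := Real.log_le_sub_one_of_pos (div_pos ha hb)
    rw [Real.log_div ha.ne' hb.ne'] at h4
    have h5 : a / b - 1 ≤ 2 * δ / a := by
      rw [div_sub_one hb.ne', div_le_div_iff₀ hb ha]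
      have e1 : 0 ≤ δ * (2 * b - a) := mul_nonneg hδ (by linarith [h3.1])
      have e2 : 0 ≤ (δ - (a - b)) * a := mul_nonneg (by linarith [h3.1]) ha.le
      nlinarith [e1, e2]
    linarith
  · have h4 : Real.log (b / a) ≤ b / a - 1 := Real.log_le_sub_one_of_pos (div_pos hb ha)
    rw [Real.log_div hb.ne' ha.ne'] at h4
    have h5 : b / a - 1 ≤ 2 * δ / a := by
      rw [div_sub_one ha.ne']
      exact div_le_div_of_nonneg_right (by linarith [h3.2]) ha.le
    linarith

section core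

variable {K}
variable {x d : mixedSpace K} {t : ℝ}

theorem abs_normAtPlace_add_sub_le (w : InfinitePlace K) (x d : mixedSpace K) :
    |normAtPlace w (x + d) - normAtPlace w x| ≤ ‖d‖ := by
  have h1 := normAtPlace_add_le w x d
  have h2 := normAtPlace_add_le w (x + d) (-d)
  rw [normAtPlace_neg, add_neg_cancel_right] at h2
  have h3 := normAtPlace_le_norm K w d
  rw [abs_le]
  constructor <;> linarith

theorem log_normAtPlace_add (ht : 0 < t) (h2 : 2 * ‖d‖ ≤ t)
    (h : ∀ w : InfinitePlace K, t ≤ normAtPlace w x) (w : InfinitePlace K) :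
    0 < normAtPlace w (x + d) ∧
      |Real.log (normAtPlace w (x + d)) - Real.log (normAtPlace w x)| ≤ 2 * ‖d‖ / t := by
  have ha : 0 < normAtPlace w x := ht.trans_le (h w)
  obtain ⟨h3, h4⟩ := abs_log_sub_log_le (norm_nonneg d) ha (h2.trans (h w))
    (abs_normAtPlace_add_sub_le w x d)
  refine ⟨h3, h4.trans ?_⟩
  exact div_le_div_of_nonneg_left (by positivity) ht (h w)

theorem log_norm_eq_sum {y : mixedSpace K} (hy : ∀ w : InfinitePlace K, 0 < normAtPlace w y) :
    Real.log (mixedEmbedding.norm y) = ∑ w : InfinitePlace K, (mult w : ℝ) * Real.log (normAtPlace w y) := by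
  rw [mixedEmbedding.norm_apply, Real.log_prod fun w _ => (pow_pos (hy w) _).ne']
  exact Finset.sum_congr rfl fun w _ => Real.log_pow _ _

theorem log_norm_add (ht : 0 < t) (h2 : 2 * ‖d‖ ≤ t)
    (h : ∀ w : InfinitePlace K, t ≤ normAtPlace w x) :
    |Real.log (mixedEmbedding.norm (x + d)) - Real.log (mixedEmbedding.norm x)|
      ≤ (finrank ℚ K : ℝ) * (2 * ‖d‖ / t) := by
  rw [log_norm_eq_sum fun w => (log_normAtPlace_add ht h2 h w).1,
    log_norm_eq_sum fun w => ht.trans_le (h w), ← Finset.sum_sub_distrib]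
  refine (Finset.abs_sum_le_sum_abs _ _).trans ?_
  rw [← sum_mult_eq, Nat.cast_sum, Finset.sum_mul]
  refine Finset.sum_le_sum fun w _ => ?_
  rw [← mul_sub, abs_mul, Nat.abs_cast]
  exact mul_le_mul_of_nonneg_left (log_normAtPlace_add ht h2 h w).2 (Nat.cast_nonneg _)

omit [NumberField K] in
theorem mult_le_two' (w : InfinitePlace K) : (mult w : ℝ) ≤ 2 := by
  unfold mult
  split_ifs <;> norm_num

theorem norm_logMap_add_sub_le (ht : 0 < t) (h2 : 2 * ‖d‖ ≤ t)
    (h : ∀ w : InfinitePlace K, t ≤ normAtPlace w x) :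
    ‖logMap (x + d) - logMap x‖ ≤ 4 * (2 * ‖d‖ / t) := by
  have hη : 0 ≤ 2 * ‖d‖ / t := by positivity
  rw [pi_norm_le_iff_of_nonneg (by positivity)]
  intro w
  rw [Pi.sub_apply, logMap_apply, logMap_apply, ← mul_sub, norm_mul, Real.norm_eq_abs,
    Real.norm_eq_abs, Nat.abs_cast]
  have hn : (0 : ℝ) < finrank ℚ K := Nat.cast_pos.2 finrank_pos
  have e1 := (log_normAtPlace_add ht h2 h w.1).2
  have e2 := log_norm_add ht h2 h
  have e3 : |(Real.log (mixedEmbedding.norm (x + d)) - Real.log (mixedEmbedding.norm x))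
      * (finrank ℚ K : ℝ)⁻¹| ≤ 2 * ‖d‖ / t := by
    rw [abs_mul, abs_of_pos (inv_pos.2 hn), ← div_eq_mul_inv, div_le_iff₀ hn]
    linarith
  have e4 : |Real.log (normAtPlace w.1 (x + d)) -
      Real.log (mixedEmbedding.norm (x + d)) * (finrank ℚ K : ℝ)⁻¹ -
      (Real.log (normAtPlace w.1 x) - Real.log (mixedEmbedding.norm x) * (finrank ℚ K : ℝ)⁻¹)|
      ≤ 2 * (2 * ‖d‖ / t) := by
    have : Real.log (normAtPlace w.1 (x + d)) -
      Real.log (mixedEmbedding.norm (x + d)) * (finrank ℚ K : ℝ)⁻¹ -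
      (Real.log (normAtPlace w.1 x) - Real.log (mixedEmbedding.norm x) * (finrank ℚ K : ℝ)⁻¹)
      = (Real.log (normAtPlace w.1 (x + d)) - Real.log (normAtPlace w.1 x)) -
        (Real.log (mixedEmbedding.norm (x + d)) - Real.log (mixedEmbedding.norm x))
      * (finrank ℚ K : ℝ)⁻¹ := by ring
    rw [this]
    refine (abs_sub _ _).trans ?_
    linarith
  calc (mult w.1 : ℝ) * _ ≤ 2 * (2 * (2 * ‖d‖ / t)) :=
        mul_le_mul (mult_le_two' w.1) e4 (abs_nonneg _) (by norm_num)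
    _ = 4 * (2 * ‖d‖ / t) := by ring

theorem sgn_add_eq (ht : 0 < t) (h2 : 2 * ‖d‖ ≤ t)
    (h : ∀ w : InfinitePlace K, t ≤ normAtPlace w x) : sgn K (x + d) = sgn K x := by
  unfold sgn
  refine Finset.prod_congr rfl fun w _ => ?_
  have h3 := h w.1
  rw [normAtPlace_apply_of_isReal w.2, Real.norm_eq_abs] at h3
  have h4 := normAtPlace_le_norm K w.1 d
  rw [normAtPlace_apply_of_isReal w.2, Real.norm_eq_abs] at h4
  have h5 := abs_le.1 h4
  have h6 : (x + d).1 w = x.1 w + d.1 w := rfl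
  rw [h6]
  have h0 := norm_nonneg d
  rcases le_abs.1 h3 with h7 | h7
  · rw [sign_pos (by linarith [h5.1]), sign_pos (by linarith)]
  · rw [sign_neg (by linarith [h5.2]), sign_neg (by linarith)]

end core

/-- the coordinates are Lipschitz functions of the logarithmic vector. -/
theorem exists_coord_lipschitz : ∃ L : ℝ, 0 ≤ L ∧ ∀ x y : mixedSpace K,
    ∑ i, |coord K x i - coord K y i| ≤ L * ‖logMap x - logMap y‖ := by
  set B := (basisUnitLattice K).ofZLatticeBasis ℝ (unitLattice K) with hB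
  refine ⟨∑ i, ‖LinearMap.toContinuousLinearMap (B.coord i)‖,
    Finset.sum_nonneg fun i _ => norm_nonneg _, fun x y => ?_⟩
  rw [Finset.sum_mul]
  refine Finset.sum_le_sum fun i _ => ?_
  have h1 := (LinearMap.toContinuousLinearMap (B.coord i)).le_opNorm (logMap x - logMap y)
  have h2 : (LinearMap.toContinuousLinearMap (B.coord i)) (logMap x - logMap y)
      = coord K x i - coord K y i := by
    simp [coord, hB]
  rw [h2, Real.norm_eq_abs] at h1
  exact h1

theorem abs_rpow_neg_sub_le {N N' θ s : ℝ} (hN : 0 < N) (hN' : 0 < N')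
    (h : |Real.log N' - Real.log N| ≤ θ) (hθ : 2 * θ ≤ 1) (h0 : 0 ≤ s) (h2 : s ≤ 2) :
    |N' ^ (-s) - N ^ (-s)| ≤ N ^ (-s) * (4 * θ) := by
  have e : N' ^ (-s) - N ^ (-s)
      = N ^ (-s) * (Real.exp (-s * (Real.log N' - Real.log N)) - 1) := by
    rw [Real.rpow_def_of_pos hN, Real.rpow_def_of_pos hN', mul_sub, mul_one, ← Real.exp_add]
    congr 2
    ring
  have h3 : |(-s) * (Real.log N' - Real.log N)| ≤ 2 * θ := by
    rw [abs_mul, abs_neg, abs_of_nonneg h0]
    exact mul_le_mul h2 h (abs_nonneg _) (by norm_num)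
  rw [e, abs_mul, abs_of_pos (Real.rpow_pos_of_pos hN _)]
  refine mul_le_mul_of_nonneg_left ?_ (Real.rpow_pos_of_pos hN _).le
  refine (Real.abs_exp_sub_one_le (h3.trans hθ)).trans ?_
  linarith

theorem ker_translate_core {κ L : ℝ}
    (hcone : ∀ x : mixedSpace K, mixedEmbedding.norm x ≠ 0 → wt K x ≠ 0 →
      ∀ w : InfinitePlace K, κ * ‖x‖ ≤ normAtPlace w x)
    (hL0 : 0 ≤ L)
    (hL : ∀ x y : mixedSpace K,
      ∑ i, |coord K x i - coord K y i| ≤ L * ‖logMap x - logMap y‖)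
    (e : SignType) {s : ℝ} (h1 : 1 ≤ s) (h2 : s ≤ 2) (x d : mixedSpace K)
    (hn : mixedEmbedding.norm x ≠ 0) (hw : wt K x ≠ 0)
    (hx : 1 + 4 * (finrank ℚ K : ℝ) * ‖d‖ ≤ κ * ‖x‖) :
    |ker K e s (x + d) - ker K e s x| ≤ (4 * L + 4 * (finrank ℚ K : ℝ)) * (2 * ‖d‖) *
      (κ * ‖x‖) ^ (-((finrank ℚ K : ℝ) + 1)) := by
  have h := hcone x hn hw
  set t := κ * ‖x‖ with ht_def
  set n : ℝ := (finrank ℚ K : ℝ) with hn_def
  have hn1 : 1 ≤ n := by
    rw [hn_def]
    exact_mod_cast (finrank_pos : 0 < finrank ℚ K)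
  have hd := norm_nonneg d
  have hnd : 0 ≤ n * ‖d‖ := by positivity
  have hnd' : ‖d‖ ≤ n * ‖d‖ := by nlinarith
  have ht1 : 1 ≤ t := by nlinarith
  have ht : 0 < t := by linarith
  have h2d : 2 * ‖d‖ ≤ t := by nlinarith
  set η := 2 * ‖d‖ / t with hη_def
  have hη : 0 ≤ η := by positivity
  have hθ : 2 * (n * η) ≤ 1 := by
    rw [hη_def, ← mul_div_assoc, ← mul_div_assoc, div_le_one ht]
    nlinarith
  have hsg := sgn_add_eq ht h2d h
  have hN : 0 < mixedEmbedding.norm x :=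
    lt_of_le_of_ne (mixedEmbedding.norm_nonneg x) (Ne.symm hn)
  have hN' : 0 < mixedEmbedding.norm (x + d) := by
    rw [mixedEmbedding.norm_apply]
    exact Finset.prod_pos fun w _ => pow_pos (log_normAtPlace_add ht h2d h w).1 _
  have hA : |wt K (x + d) - wt K x| ≤ L * (4 * η) :=
    (abs_tentProd_sub_le _ _).trans ((hL _ _).trans
      (mul_le_mul_of_nonneg_left (norm_logMap_add_sub_le ht h2d h) hL0))
  have hB := abs_rpow_neg_sub_le hN hN' (log_norm_add ht h2d h) hθ (by linarith) h2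
  have hC : mixedEmbedding.norm x ^ (-s) ≤ t ^ (-n) := by
    calc mixedEmbedding.norm x ^ (-s) ≤ (t ^ finrank ℚ K) ^ (-s) :=
          Real.rpow_le_rpow_of_nonpos (pow_pos ht _) (pow_le_norm_of_le K ht.le h) (by linarith)
      _ = t ^ (-(n * s)) := by
          rw [← Real.rpow_natCast, ← Real.rpow_mul ht.le]
          congr 1
          ring
      _ ≤ t ^ (-n) := Real.rpow_le_rpow_of_exponent_le ht1 (by nlinarith)
  have hP : 0 ≤ mixedEmbedding.norm x ^ (-s) := (Real.rpow_pos_of_pos hN _).le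
  have hD : |wt K (x + d) * mixedEmbedding.norm (x + d) ^ (-s)
      - wt K x * mixedEmbedding.norm x ^ (-s)| ≤ (4 * L + 4 * n) * η * t ^ (-n) := by
    have e1 : wt K (x + d) * mixedEmbedding.norm (x + d) ^ (-s)
      - wt K x * mixedEmbedding.norm x ^ (-s)
      = (wt K (x + d) - wt K x) * mixedEmbedding.norm x ^ (-s)
        + wt K (x + d) * (mixedEmbedding.norm (x + d) ^ (-s) - mixedEmbedding.norm x ^ (-s)) := by
      ring
    rw [e1]
    refine (abs_add_le _ _).trans ?_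
    rw [abs_mul, abs_mul, abs_of_nonneg hP, abs_of_nonneg (wt_nonneg K _)]
    have e2 : |wt K (x + d) - wt K x| * mixedEmbedding.norm x ^ (-s)
        ≤ L * (4 * η) * mixedEmbedding.norm x ^ (-s) := mul_le_mul_of_nonneg_right hA hP
    have e3 : wt K (x + d) * |mixedEmbedding.norm (x + d) ^ (-s) - mixedEmbedding.norm x ^ (-s)|
        ≤ 1 * (mixedEmbedding.norm x ^ (-s) * (4 * (n * η))) :=
      mul_le_mul (wt_le_one K _) hB (abs_nonneg _) zero_le_one
    have e4 : (4 * L + 4 * n) * η * mixedEmbedding.norm x ^ (-s)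
        ≤ (4 * L + 4 * n) * η * t ^ (-n) :=
      mul_le_mul_of_nonneg_left hC (by positivity)
    nlinarith [e2, e3, e4]
  have hE : (4 * L + 4 * n) * η * t ^ (-n) = (4 * L + 4 * n) * (2 * ‖d‖) * t ^ (-(n + 1)) := by
    rw [neg_add, Real.rpow_add ht, Real.rpow_neg_one, hη_def]
    ring
  rw [← hE]
  unfold ker
  rw [hsg]
  split_ifs
  · exact hD
  · rw [sub_zero, abs_zero]
    have := Real.rpow_nonneg ht.le (-n)
    positivity

theorem ker_eq_zero_of {s : ℝ} (hs : s ≠ 0) (e : SignType) {x : mixedSpace K}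
    (h : ¬ (mixedEmbedding.norm x ≠ 0 ∧ wt K x ≠ 0)) : ker K e s x = 0 := by
  unfold ker
  split_ifs
  · by_cases hn : mixedEmbedding.norm x = 0
    · rw [hn, Real.zero_rpow (neg_ne_zero.2 hs), mul_zero]
    · have : wt K x = 0 := by
        by_contra hw
        exact h ⟨hn, hw⟩
      rw [this, zero_mul]
  · rfl

end TR

open TR

/-- (TR) **translation estimate**.
Proof. Let `κ` be as in `exists_cone_const`, `R` large.
If both weights vanish (or both norms vanish) the difference is `0`.  By symmetry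
(`x ↔ x + d`, `‖x + d‖ ≥ ‖x‖ / 2`) assume `wt x ≠ 0`, `norm x ≠ 0`; then apply
`TR.ker_translate_core`. -/
theorem exists_ker_translate_bound (d : mixedSpace K) : ∃ C R : ℝ, 0 ≤ C ∧ 0 < R ∧
    ∀ (e : SignType) (s : ℝ) (x : mixedSpace K), 1 ≤ s → s ≤ 2 → R ≤ ‖x‖ →
      |ker K e s (x + d) - ker K e s x| ≤ C * ‖x‖ ^ (-((finrank ℚ K : ℝ) + 1)) := by
  obtain ⟨κ, hκ, hcone⟩ := exists_cone_const K
  obtain ⟨L, hL0, hL⟩ := exists_coord_lipschitz K
  set n : ℝ := (finrank ℚ K : ℝ) with hn_def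
  have hn0 : 0 ≤ n := Nat.cast_nonneg _
  have hd := norm_nonneg d
  have hκ2 : 0 < κ / 2 := by positivity
  have hT : 0 < 1 + 4 * n * ‖d‖ := by positivity
  refine ⟨(4 * L + 4 * n) * (2 * ‖d‖) * (κ / 2) ^ (-(n + 1)),
    (1 + 4 * n * ‖d‖) / (κ / 2) + 2 * ‖d‖, ?_, by positivity, fun e s x h1 h2 hx => ?_⟩
  · have := Real.rpow_nonneg hκ2.le (-(n + 1))
    positivity
  have hx1 : (1 + 4 * n * ‖d‖) / (κ / 2) ≤ ‖x‖ := by linarith
  have hx2 : 2 * ‖d‖ ≤ ‖x‖ := by
    have : 0 ≤ (1 + 4 * n * ‖d‖) / (κ / 2) := by positivity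
    linarith
  rw [div_le_iff₀ hκ2] at hx1
  have hxpos : 0 < ‖x‖ := by
    by_contra h0
    have : ‖x‖ = 0 := le_antisymm (not_lt.1 h0) (norm_nonneg _)
    rw [this] at hx1
    linarith
  have hmul : (κ / 2) ^ (-(n + 1)) * ‖x‖ ^ (-(n + 1)) = (κ / 2 * ‖x‖) ^ (-(n + 1)) :=
    (Real.mul_rpow hκ2.le hxpos.le).symm
  rw [mul_assoc, hmul]
  have hc0 : 0 ≤ (4 * L + 4 * n) * (2 * ‖d‖) := by positivity
  have hbase : 0 < κ / 2 * ‖x‖ := by positivity
  by_cases hA : mixedEmbedding.norm x ≠ 0 ∧ wt K x ≠ 0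
  · have h3 := ker_translate_core K hcone hL0 hL e h1 h2 x d hA.1 hA.2 (by nlinarith)
    refine h3.trans (mul_le_mul_of_nonneg_left ?_ hc0)
    exact Real.rpow_le_rpow_of_nonpos hbase (by nlinarith) (by linarith)
  by_cases hB : mixedEmbedding.norm (x + d) ≠ 0 ∧ wt K (x + d) ≠ 0
  · have hxd : ‖x‖ / 2 ≤ ‖x + d‖ := by
      have := norm_sub_le (x + d) d
      rw [add_sub_cancel_right] at this
      linarith
    have hxd' : κ / 2 * ‖x‖ ≤ κ * ‖x + d‖ := by nlinarith
    have h3 := ker_translate_core K hcone hL0 hL e h1 h2 (x + d) (-d) hB.1 hB.2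
      (by rw [norm_neg]; linarith)
    rw [add_neg_cancel_right, norm_neg, abs_sub_comm] at h3
    refine h3.trans (mul_le_mul_of_nonneg_left ?_ hc0)
    exact Real.rpow_le_rpow_of_nonpos hbase hxd' (by linarith)
  · rw [ker_eq_zero_of K (by linarith) e hA, ker_eq_zero_of K (by linarith) e hB, sub_zero,
      abs_zero]
    exact mul_nonneg hc0 (Real.rpow_nonneg hbase.le _)

/-- decay of the kernel (for summability). -/
theorem exists_ker_le : ∃ κ : ℝ, 0 < κ ∧ ∀ (e : SignType) (s : ℝ) (x : mixedSpace K), 0 ≤ s →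
    ker K e s x ≤ (κ * ‖x‖) ^ (-((finrank ℚ K : ℝ) * s)) := by
  obtain ⟨κ, hκ, h⟩ := exists_cone_const K
  refine ⟨κ, hκ, fun e s x hs => ?_⟩
  have hR : 0 ≤ (κ * ‖x‖) ^ (-((finrank ℚ K : ℝ) * s)) :=
    Real.rpow_nonneg (mul_nonneg hκ.le (norm_nonneg _)) _
  have hN : 0 ≤ mixedEmbedding.norm x := mixedEmbedding.norm_nonneg x
  refine (ker_le K e s x).trans ?_
  by_cases hw : wt K x = 0
  · rw [hw, zero_mul]; exact hR
  rcases hs.eq_or_lt with rfl | hs
  · simpa using wt_le_one K x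
  by_cases hn : mixedEmbedding.norm x = 0
  · rw [hn, Real.zero_rpow (by linarith : -s ≠ 0), mul_zero]; exact hR
  have hx : x ≠ 0 := by
    rintro rfl
    exact hn (map_zero _)
  have hpos : 0 < κ * ‖x‖ := mul_pos hκ (norm_pos_iff.2 hx)
  have h1 := pow_le_norm_of_le K hpos.le (h x hn hw)
  calc wt K x * (mixedEmbedding.norm x) ^ (-s) ≤ 1 * (mixedEmbedding.norm x) ^ (-s) :=
        mul_le_mul_of_nonneg_right (wt_le_one K x) (Real.rpow_nonneg hN _)
    _ = (mixedEmbedding.norm x) ^ (-s) := one_mul _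
    _ ≤ ((κ * ‖x‖) ^ (finrank ℚ K)) ^ (-s) :=
        Real.rpow_le_rpow_of_nonpos (pow_pos hpos _) h1 (by linarith)
    _ = (κ * ‖x‖) ^ (-((finrank ℚ K : ℝ) * s)) := by
        rw [← Real.rpow_natCast, ← Real.rpow_mul hpos.le]
        congr 1
        ring

/-- bound of the kernel at a fixed point, uniform in `s ∈ [1, 2]`. -/
theorem ker_le_add (e : SignType) {s : ℝ} (h1 : 1 ≤ s) (h2 : s ≤ 2) (x : mixedSpace K) :
    ker K e s x ≤ (mixedEmbedding.norm x) ^ (-1 : ℝ) + (mixedEmbedding.norm x) ^ (-2 : ℝ) := by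
  have hN : 0 ≤ mixedEmbedding.norm x := mixedEmbedding.norm_nonneg x
  have h0 : ker K e s x ≤ (mixedEmbedding.norm x) ^ (-s) := by
    refine (ker_le K e s x).trans ?_
    calc wt K x * (mixedEmbedding.norm x) ^ (-s) ≤ 1 * (mixedEmbedding.norm x) ^ (-s) :=
          mul_le_mul_of_nonneg_right (wt_le_one K x) (Real.rpow_nonneg hN _)
      _ = _ := one_mul _
  refine h0.trans ?_
  have ha : 0 ≤ (mixedEmbedding.norm x) ^ (-1 : ℝ) := Real.rpow_nonneg hN _
  have hb : 0 ≤ (mixedEmbedding.norm x) ^ (-2 : ℝ) := Real.rpow_nonneg hN _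
  rcases hN.eq_or_lt with h | h
  · rw [← h, Real.zero_rpow (by linarith : -s ≠ 0)]
    rw [← h] at ha hb
    linarith
  · rcases le_total (mixedEmbedding.norm x) 1 with h' | h'
    · have := Real.rpow_le_rpow_of_exponent_ge h h' (by linarith : (-2 : ℝ) ≤ -s)
      linarith
    · have := Real.rpow_le_rpow_of_exponent_le h' (by linarith : -s ≤ (-1 : ℝ))
      linarith

end Fermat.Agent.TCheb
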