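import Fermat.Agent.TCheb.LF

/-!
# TCheb / Unfold  (WP [U]): sums over principal ideals = weighted sums over lattice points
-/

set_option autoImplicit false

open NumberField NumberField.mixedEmbedding NumberField.Units Module

open scoped Classical

namespace Fermat.Agent.TCheb

variable (K : Type*) [Field K] [NumberField K]

/-- the map `γ ↦ span {γ}` from `J'` to the principal ideals contained in `J'`. -/
noncomputable def spanMap (J' : Ideal (𝓞 K)) (γ : J') :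
    {P : Ideal (𝓞 K) // P.IsPrincipal ∧ P ≤ J'} :=
  ⟨Ideal.span {(γ : 𝓞 K)}, ⟨⟨(γ : 𝓞 K), rfl⟩⟩, (Ideal.span_singleton_le_iff_mem _).2 γ.2⟩

theorem norm_emb_ne_zero {γ : 𝓞 K} (hγ : γ ≠ 0) : mixedEmbedding.norm (emb K γ) ≠ 0 := by
  rw [norm_eq_norm]
  simpa using hγ

/-- the weights on a fibre of `spanMap` over a nonzero ideal add up to `torsionOrder K`. -/
theorem hasSum_wt_fibre (J' : Ideal (𝓞 K)) (P : {P : Ideal (𝓞 K) // P.IsPrincipal ∧ P ≤ J'})
    (hP : P.1 ≠ ⊥) :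
    HasSum (fun γ : {γ : J' // spanMap K J' γ = P} => wt K (emb K ((γ : J') : 𝓞 K)))
      (torsionOrder K) := by
  obtain ⟨⟨γ₀, hγ₀⟩⟩ := P.2.1
  have hγ₀' : P.1 = Ideal.span {γ₀} := hγ₀
  have h0 : γ₀ ≠ 0 := by
    rintro rfl
    apply hP
    rw [hγ₀']
    simp
  have hmem : ∀ u : (𝓞 K)ˣ, (u : 𝓞 K) * γ₀ ∈ J' := fun u =>
    J'.mul_mem_left _ (P.2.2 (hγ₀' ▸ Ideal.mem_span_singleton_self γ₀))
  have hsp : ∀ u : (𝓞 K)ˣ, spanMap K J' ⟨(u : 𝓞 K) * γ₀, hmem u⟩ = P := fun u => by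
    apply Subtype.ext
    show Ideal.span {(u : 𝓞 K) * γ₀} = P.1
    rw [hγ₀', Ideal.span_singleton_mul_left_unit u.isUnit]
  let e : (𝓞 K)ˣ → {γ : J' // spanMap K J' γ = P} := fun u => ⟨⟨(u : 𝓞 K) * γ₀, hmem u⟩, hsp u⟩
  have he : Function.Bijective e := by
    constructor
    · intro u u' h
      have h1 : (u : 𝓞 K) * γ₀ = (u' : 𝓞 K) * γ₀ := congrArg (fun z => ((z.1 : J') : 𝓞 K)) h
      exact Units.ext (mul_right_cancel₀ h0 h1)
    · rintro ⟨γ, hγ⟩
      have h1 : Ideal.span {(γ : 𝓞 K)} = Ideal.span {γ₀} := by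
        rw [← hγ₀']
        exact congrArg Subtype.val hγ
      obtain ⟨u, hu⟩ := Ideal.span_singleton_eq_span_singleton.1 h1.symm
      refine ⟨u, ?_⟩
      apply Subtype.ext
      apply Subtype.ext
      show (u : 𝓞 K) * γ₀ = γ
      rw [mul_comm]
      exact hu
  rw [← (Equiv.ofBijective e he).hasSum_iff]
  have := hasSum_wt_unit_smul K (norm_emb_ne_zero K h0)
  convert this using 2 with u
  show wt K (emb K ((u : 𝓞 K) * γ₀)) = _
  rw [unitSMul_smul]
  simp [emb]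

/-- (U) **unfolding**.  Proof: fibres of `γ ↦ span {γ}` on `J' \ {0}` are torsors under the units
(`Ideal.span_singleton_eq_span_singleton`, `Associated`), on a fibre the weights add up to
`torsionOrder K` by `hasSum_wt_unit_smul` (`emb (u * γ) = u • emb γ`,
`mixedEmbedding.norm (emb γ) ≠ 0` for `γ ≠ 0`); `HasSum.sigma` / `Equiv.sigmaFiberEquiv`,
absolute summability from `summable_sigma_of_nonneg`. -/
theorem hasSum_wt_mul (J' : Ideal (𝓞 K)) (g : Ideal (𝓞 K) → ℂ) (hg0 : g ⊥ = 0)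
    (hg : Summable fun P : {P : Ideal (𝓞 K) // P.IsPrincipal ∧ P ≤ J'} => g P.1) :
    HasSum (fun γ : J' => (wt K (emb K (γ : 𝓞 K)) : ℂ) * g (Ideal.span {(γ : 𝓞 K)}))
      ((torsionOrder K : ℂ) * ∑' P : {P : Ideal (𝓞 K) // P.IsPrincipal ∧ P ≤ J'}, g P.1) := by
  rw [← (Equiv.sigmaFiberEquiv (spanMap K J')).hasSum_iff]
  -- fibrewise sums, for an arbitrary function `G` of the ideal vanishing at `⊥`
  have hfib : ∀ (G : Ideal (𝓞 K) → ℂ), G ⊥ = 0 →
      ∀ P : {P : Ideal (𝓞 K) // P.IsPrincipal ∧ P ≤ J'},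
      HasSum (fun γ : {γ : J' // spanMap K J' γ = P} =>
        (wt K (emb K ((γ : J') : 𝓞 K)) : ℂ) * G (Ideal.span {((γ : J') : 𝓞 K)}))
        ((torsionOrder K : ℂ) * G P.1) := by
    intro G hG0 P
    have hG : ∀ γ : {γ : J' // spanMap K J' γ = P}, G (Ideal.span {((γ : J') : 𝓞 K)}) = G P.1 :=
      fun γ => congrArg G (congrArg Subtype.val γ.2)
    simp_rw [hG]
    by_cases hP : P.1 = ⊥
    · rw [hP, hG0]
      simp
    · have := (Complex.hasSum_ofReal.2 (hasSum_wt_fibre K J' P hP)).mul_right (G P.1)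
      simpa using this
  refine HasSum.sigma_of_hasSum (hg.hasSum.mul_left _) (fun P => hfib g hg0 P) ?_
  -- summability
  apply Summable.of_norm
  rw [summable_sigma_of_nonneg (fun _ => norm_nonneg _)]
  have hfib' := hfib (fun I => (‖g I‖ : ℂ)) (by simp [hg0])
  have hfib'' : ∀ P : {P : Ideal (𝓞 K) // P.IsPrincipal ∧ P ≤ J'},
      HasSum (fun γ : {γ : J' // spanMap K J' γ = P} =>
        ‖(wt K (emb K ((γ : J') : 𝓞 K)) : ℂ) * g (Ideal.span {((γ : J') : 𝓞 K)})‖)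
        ((torsionOrder K : ℝ) * ‖g P.1‖) := by
    intro P
    rw [← Complex.hasSum_ofReal]
    convert hfib' P using 2 with γ
    · rw [norm_mul, Complex.norm_real, Real.norm_of_nonneg (wt_nonneg K _)]
      push_cast
      rfl
    · push_cast
      rfl
  refine ⟨fun P => (hfib'' P).summable, ?_⟩
  have : (fun P : {P : Ideal (𝓞 K) // P.IsPrincipal ∧ P ≤ J'} =>
      ∑' γ : {γ : J' // spanMap K J' γ = P},
        ‖(wt K (emb K ((γ : J') : 𝓞 K)) : ℂ) * g (Ideal.span {((γ : J') : 𝓞 K)})‖) =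
      fun P => (torsionOrder K : ℝ) * ‖g P.1‖ := funext fun P => (hfib'' P).tsum_eq
  exact this ▸ hg.norm.mul_left _

end Fermat.Agent.TCheb
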