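import Fermat.Agent.TCheb.Kernel

/-!
# TCheb / Weight  (WP [W]): the two basic properties of the weight `wt`
-/

set_option autoImplicit false

open NumberField NumberField.mixedEmbedding NumberField.InfinitePlace NumberField.Units
  NumberField.Units.dirichletUnitTheorem Module

open scoped Classical

namespace Fermat.Agent.TCheb

variable (K : Type*) [Field K] [NumberField K]

namespace WeightAux

/-- the real basis of `logSpace K` used in `coord`. -/
noncomputable abbrev bas : Basis (Fin (rank K)) ℝ (logSpace K) :=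
  (basisUnitLattice K).ofZLatticeBasis ℝ (unitLattice K)

/-- units `≃` torsion `×` `ℤ^r`. -/
noncomputable def unitEquiv : torsion K × (Fin (rank K) → ℤ) ≃ (𝓞 K)ˣ :=
  Equiv.ofBijective (fun ζe => (ζe.1 : (𝓞 K)ˣ) * ∏ i, (fundSystem K i) ^ (ζe.2 i)) (by
    constructor
    · intro a b hab
      obtain ⟨c, -, hc⟩ := exist_unique_eq_mul_prod K ((a.1 : (𝓞 K)ˣ) * ∏ i, (fundSystem K i) ^ (a.2 i))
      exact (hc a rfl).trans (hc b hab).symm
    · intro u
      obtain ⟨c, hc, -⟩ := exist_unique_eq_mul_prod K u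
      exact ⟨c, hc.symm⟩)

theorem logEmbedding_unitEquiv (ζe : torsion K × (Fin (rank K) → ℤ)) :
    logEmbedding K (Additive.ofMul (unitEquiv K ζe)) = ∑ i, (ζe.2 i : ℝ) • bas K i := by
  have h1 : logEmbedding K (Additive.ofMul (ζe.1 : (𝓞 K)ˣ)) = 0 :=
    logEmbedding_eq_zero_iff.mpr ζe.1.2
  show logEmbedding K (Additive.ofMul ((ζe.1 : (𝓞 K)ˣ) * ∏ i, (fundSystem K i) ^ (ζe.2 i))) = _
  rw [ofMul_mul, map_add, h1, zero_add, ofMul_prod, map_sum]
  refine Finset.sum_congr rfl fun i _ => ?_
  rw [ofMul_zpow, map_zsmul, logEmbedding_fundSystem, Basis.ofZLatticeBasis_apply,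
    Int.cast_smul_eq_zsmul]

theorem coord_unitEquiv_smul {x : mixedSpace K} (hx : mixedEmbedding.norm x ≠ 0)
    (ζe : torsion K × (Fin (rank K) → ℤ)) (i : Fin (rank K)) :
    coord K (unitEquiv K ζe • x) i = coord K x i + ζe.2 i := by
  unfold coord
  rw [logMap_unit_smul _ hx, logEmbedding_unitEquiv, map_add, Finsupp.add_apply,
    Basis.repr_sum_self, add_comm]

theorem sum_piFinset_tentProd {r : Type*} [Fintype r] [DecidableEq r] (c : r → ℝ) :
    ∑ k ∈ Fintype.piFinset (fun i => tentSupp (c i)), tentProd (fun i => c i + k i) = 1 := by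
  unfold tentProd
  rw [← Finset.prod_univ_sum (fun i => tentSupp (c i)) (fun i (j : ℤ) => tent (c i + j))]
  exact Finset.prod_eq_one fun i _ => sum_tentSupp (c i)

end WeightAux

open WeightAux

/-- (W1) partition of unity: the weights of the unit-translates of `x` add up to the number of
roots of unity.
Proof: `logMap_unit_smul`, `exist_unique_eq_mul_prod` (units ≃ torsion × ℤ^r),
`logEmbedding_fundSystem`, `logEmbedding_eq_zero_iff`, `hasSum_tentProd_add_int`. -/
theorem hasSum_wt_unit_smul {x : mixedSpace K} (hx : mixedEmbedding.norm x ≠ 0) :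
    HasSum (fun u : (𝓞 K)ˣ => wt K (u • x)) (torsionOrder K) := by
  rw [← (unitEquiv K).hasSum_iff]
  let _ : Fintype (torsion K) := Fintype.ofFinite _
  have h1 : ((fun u : (𝓞 K)ˣ => wt K (u • x)) ∘ unitEquiv K)
      = fun ζe => tentProd (fun i => coord K x i + ζe.2 i) := by
    funext ζe
    show tentProd (coord K (unitEquiv K ζe • x)) = _
    congr 1
    funext i
    exact coord_unitEquiv_smul K hx ζe i
  rw [h1]
  have h2 : ∑ ζe ∈ (Finset.univ : Finset (torsion K)) ×ˢ
      Fintype.piFinset (fun i => tentSupp (coord K x i)),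
      tentProd (fun i => coord K x i + (ζe.2 i : ℤ)) = (torsionOrder K : ℝ) := by
    rw [Finset.sum_product]
    have h3 : ∑ ζ : torsion K, ∑ k ∈ Fintype.piFinset (fun i => tentSupp (coord K x i)),
        tentProd (fun i => coord K x i + (k i : ℤ)) = (torsionOrder K : ℝ) := by
      rw [Finset.sum_congr rfl (fun (ζ : torsion K) _ =>
        sum_piFinset_tentProd (fun i => coord K x i)), Finset.sum_const, Finset.card_univ,
        nsmul_eq_mul, mul_one, torsionOrder, Nat.card_eq_fintype_card]
    exact h3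
  rw [← h2]
  refine hasSum_sum_of_ne_finset_zero fun ζe hζe => ?_
  rw [Finset.mem_product, not_and] at hζe
  have h3 := hζe (Finset.mem_univ _)
  rw [Fintype.mem_piFinset, not_forall] at h3
  obtain ⟨i, hi⟩ := h3
  exact Finset.prod_eq_zero (Finset.mem_univ i) (tent_add_int_eq_zero hi)

/-- (W2) on the support of the weight all coordinates are comparable with the sup norm.
Proof: `|coord i| < 1` bounds `logMap x` (finite sum of basis vectors), so
`|log (normAtPlace w x) - log (norm x) / n| ≤ B` for `w ≠ w₀`, and for `w₀` by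
`norm x = ∏ normAtPlace ^ mult`; `norm_eq_sup'_normAtPlace`. -/
theorem exists_cone_const : ∃ κ : ℝ, 0 < κ ∧ ∀ x : mixedSpace K,
    mixedEmbedding.norm x ≠ 0 → wt K x ≠ 0 → ∀ w : InfinitePlace K, κ * ‖x‖ ≤ normAtPlace w x := by
  set M : ℝ := ∑ i, ‖bas K i‖ with hM
  have hM0 : 0 ≤ M := Finset.sum_nonneg fun i _ => norm_nonneg _
  set C : ℝ := (Fintype.card (InfinitePlace K) : ℝ) * M with hC
  have hcard : (1 : ℝ) ≤ Fintype.card (InfinitePlace K) := by
    exact_mod_cast Fintype.card_pos
  have hMC : M ≤ C := by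
    rw [hC]; nlinarith
  refine ⟨Real.exp (-(2 * C)), Real.exp_pos _, fun x hx hwt w => ?_⟩
  have hpos : ∀ w, 0 < normAtPlace w x := fun w =>
    lt_of_le_of_ne (normAtPlace_nonneg w x) (mixedEmbedding.norm_ne_zero_iff.mp hx w).symm
  have hcoord : ∀ i, |coord K x i| < 1 := abs_lt_one_of_tentProd_ne_zero hwt
  set L : ℝ := Real.log (mixedEmbedding.norm x) * (finrank ℚ K : ℝ)⁻¹ with hL
  set a : InfinitePlace K → ℝ := fun w => (mult w : ℝ) * (Real.log (normAtPlace w x) - L) with ha
  -- bound away from `w₀`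
  have h1 : ∀ w : {w : InfinitePlace K // w ≠ w₀}, |a w.1| ≤ M := by
    intro w
    have e1 : a w.1 = logMap x w := rfl
    have e2 : logMap x = ∑ i, coord K x i • bas K i := ((bas K).sum_repr (logMap x)).symm
    rw [e1, e2, Finset.sum_apply]
    refine (Finset.abs_sum_le_sum_abs _ _).trans (Finset.sum_le_sum fun i _ => ?_)
    rw [Pi.smul_apply, smul_eq_mul, abs_mul]
    calc |coord K x i| * |bas K i w| ≤ 1 * ‖bas K i‖ :=
          mul_le_mul (hcoord i).le (norm_le_pi_norm (bas K i) w) (abs_nonneg _) zero_le_one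
      _ = ‖bas K i‖ := one_mul _
  -- the sum of all `a w` vanishes
  have h2 : ∑ w, a w = 0 := by
    have e1 : Real.log (mixedEmbedding.norm x) = ∑ w, (mult w : ℝ) * Real.log (normAtPlace w x) := by
      rw [mixedEmbedding.norm_apply, Real.log_prod (fun w _ => pow_ne_zero _ (hpos w).ne')]
      refine Finset.sum_congr rfl fun w _ => ?_
      rw [Real.log_pow]
    have e2 : ∑ w : InfinitePlace K, (mult w : ℝ) = finrank ℚ K := by
      exact_mod_cast sum_mult_eq (K := K)
    have hn : (finrank ℚ K : ℝ) ≠ 0 := Nat.cast_ne_zero.mpr finrank_pos.ne'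
    simp only [ha, mul_sub]
    rw [Finset.sum_sub_distrib, ← e1, ← Finset.sum_mul, e2, hL]
    field_simp
    ring
  have h3 : ∀ w, |a w| ≤ C := by
    intro w
    by_cases hw : w = w₀
    · subst hw
      have e1 : a w₀ = - ∑ w ∈ Finset.univ.erase w₀, a w := by
        rw [← Finset.add_sum_erase Finset.univ a (Finset.mem_univ w₀)] at h2
        linarith
      rw [e1, abs_neg]
      refine (Finset.abs_sum_le_sum_abs _ _).trans ?_
      calc ∑ w ∈ Finset.univ.erase w₀, |a w| ≤ ∑ w ∈ Finset.univ.erase (w₀ : InfinitePlace K), M :=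
            Finset.sum_le_sum fun w hw => h1 ⟨w, Finset.ne_of_mem_erase hw⟩
        _ = ((Finset.univ.erase (w₀ : InfinitePlace K)).card : ℝ) * M := by
            rw [Finset.sum_const, nsmul_eq_mul]
        _ ≤ C := by
            rw [hC]
            refine mul_le_mul_of_nonneg_right ?_ hM0
            exact_mod_cast Finset.card_le_univ _
    · exact (h1 ⟨w, hw⟩).trans hMC
  have h4 : ∀ w, |Real.log (normAtPlace w x) - L| ≤ C := by
    intro w
    refine le_trans ?_ (h3 w)
    simp only [ha, abs_mul]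
    have : (1 : ℝ) ≤ |(mult w : ℝ)| := by
      rw [abs_of_nonneg (Nat.cast_nonneg _)]; exact one_le_mult
    nlinarith [abs_nonneg (Real.log (normAtPlace w x) - L)]
  have h5 : ∀ w', normAtPlace w' x ≤ Real.exp (2 * C) * normAtPlace w x := by
    intro w'
    have e1 := abs_le.mp (h4 w)
    have e2 := abs_le.mp (h4 w')
    rw [← Real.exp_log (hpos w'), ← Real.exp_log (hpos w), ← Real.exp_add, Real.exp_le_exp]
    linarith [e1.1, e2.2]
  have h6 : ‖x‖ ≤ Real.exp (2 * C) * normAtPlace w x := by
    rw [norm_eq_sup'_normAtPlace]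
    exact Finset.sup'_le _ _ fun w' _ => h5 w'
  calc Real.exp (-(2 * C)) * ‖x‖ ≤ Real.exp (-(2 * C)) * (Real.exp (2 * C) * normAtPlace w x) :=
        mul_le_mul_of_nonneg_left h6 (Real.exp_pos _).le
    _ = normAtPlace w x := by
        rw [← mul_assoc, ← Real.exp_add, neg_add_cancel, Real.exp_zero, one_mul]

end Fermat.Agent.TCheb
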